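import Fermat.Agent.S53.Defs

/-!
# S53: existence of normal forms (matrix level)

Every matrix lift of the residual representation of a frame is conjugate (by a matrix
congruent to `1` modulo the maximal ideal) to a normalized lift.
-/

set_option autoImplicit false

namespace Fermat.Agent.S53

open IsLocalRing

namespace NormalFormE

variable {A : Type} [CommRing A] [IsLocalRing A]

/-- Conjugating a matrix representation by an invertible matrix gives a matrix representation. -/
theorem isMatRep_conj {M : GQ → Matrix (Fin 2) (Fin 2) A} (hM : IsMatRep A M)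
    (R S : Matrix (Fin 2) (Fin 2) A) (hSR : S * R = 1) (hRS : R * S = 1) :
    IsMatRep A (fun σ => S * M σ * R) where
  map_one := by simp [hM.map_one, hSR]
  map_mul σ τ := by
    show S * M (σ * τ) * R = S * M σ * R * (S * M τ * R)
    rw [hM.map_mul]
    calc S * (M σ * M τ) * R = S * M σ * 1 * M τ * R := by simp [mul_assoc]
      _ = S * M σ * (R * S) * M τ * R := by rw [hRS]
      _ = S * M σ * R * (S * M τ * R) := by simp [mul_assoc]
  cont n := by
    obtain ⟨L, hL, h⟩ := hM.cont n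
    refine ⟨L, hL, fun σ hσ i j => ?_⟩
    have h1 : S * M σ * R - 1 = S * (M σ - 1) * R := by
      rw [mul_sub, sub_mul, mul_one, hSR]
    show (S * M σ * R - 1) i j ∈ maximalIdeal A ^ n
    rw [h1]
    simp only [Matrix.mul_apply]
    exact Ideal.sum_mem _ fun k _ => Ideal.mul_mem_right _ _
      (Ideal.sum_mem _ fun l _ => Ideal.mul_mem_left _ _ (h σ hσ l k))

variable {𝒪 : Type} [CommRing 𝒪] [IsLocalRing 𝒪] {ρbar : ResidualGaloisRep (ResidueField 𝒪)}
variable [Algebra 𝒪 A]

/-- `Lifts` in terms of the residue map on matrices. -/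
theorem lifts_iff (F : Frame 𝒪 ρbar) (M : GQ → Matrix (Fin 2) (Fin 2) A) :
    F.Lifts A M ↔ ∀ σ, (M σ).map (residue A) =
      ((F.cl σ).map (algebraMap 𝒪 A)).map (residue A) := by
  constructor
  · intro h σ
    ext i j
    have := h σ i j
    rw [← residue_eq_zero_iff, map_sub, sub_eq_zero] at this
    simpa using this
  · intro h σ i j
    have := congrFun (congrFun (h σ) i) j
    rw [← residue_eq_zero_iff, map_sub, sub_eq_zero]
    simpa using this

/-- If `S * R = 1` and `R` reduces to `1`, so does `S`. -/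
theorem map_residue_eq_one_of_mul_eq_one (R S : Matrix (Fin 2) (Fin 2) A) (hSR : S * R = 1)
    (hR : R.map (residue A) = 1) : S.map (residue A) = 1 := by
  have h := congrArg (fun X : Matrix (Fin 2) (Fin 2) A => X.map (residue A)) hSR
  simp only [Matrix.map_mul, hR, mul_one] at h
  rw [h]
  ext i j
  simp [Matrix.map_apply, Matrix.one_apply]

/-- Conjugation by a matrix congruent to `1` preserves `Lifts`. -/
theorem lifts_conj (F : Frame 𝒪 ρbar) {M : GQ → Matrix (Fin 2) (Fin 2) A} (hl : F.Lifts A M)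
    (R S : Matrix (Fin 2) (Fin 2) A) (hSR : S * R = 1) (hR : R.map (residue A) = 1) :
    F.Lifts A (fun σ => S * M σ * R) := by
  rw [lifts_iff] at hl ⊢
  intro σ
  have hS := map_residue_eq_one_of_mul_eq_one R S hSR hR
  show (S * M σ * R).map (residue A) = _
  rw [Matrix.map_mul, Matrix.map_mul, hR, hS, one_mul, mul_one, hl σ]

/-- The reduction of a lift, entrywise, in terms of the residual matrices of the frame. -/
theorem map_residue_eq (F : Frame 𝒪 ρbar) [IsLocalHom (algebraMap 𝒪 A)]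
    {M : GQ → Matrix (Fin 2) (Fin 2) A} (hl : F.Lifts A M) (σ : GQ) :
    (M σ).map (residue A) = (F.Mbar σ).map (ResidueField.map (algebraMap 𝒪 A)) := by
  ext i j
  simp only [Matrix.map_apply]
  have := hl σ i j
  rw [← residue_eq_zero_iff, map_sub, sub_eq_zero] at this
  rw [this, Frame.Mbar, ← F.cl_spec, ResidueField.map_residue]

theorem residue_apply (F : Frame 𝒪 ρbar) [IsLocalHom (algebraMap 𝒪 A)]
    {M : GQ → Matrix (Fin 2) (Fin 2) A} (hl : F.Lifts A M) (σ : GQ) (i j : Fin 2) :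
    residue A (M σ i j) = ResidueField.map (algebraMap 𝒪 A) (F.Mbar σ i j) := by
  have := congrFun (congrFun (map_residue_eq F hl σ) i) j
  simpa using this

/-- The commutator entry `[M g, M h] i0 0` of a lift is a unit. -/
theorem isUnit_comm (F : Frame 𝒪 ρbar) [IsLocalHom (algebraMap 𝒪 A)]
    {M : GQ → Matrix (Fin 2) (Fin 2) A} (hl : F.Lifts A M) :
    IsUnit ((M F.g * M F.h - M F.h * M F.g) F.i0 0) := by
  rw [← residue_ne_zero_iff_isUnit]
  have h1 : (M F.g * M F.h - M F.h * M F.g).map (residue A) =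
      (F.Mbar F.g * F.Mbar F.h - F.Mbar F.h * F.Mbar F.g).map
        (ResidueField.map (algebraMap 𝒪 A)) := by
    rw [Matrix.map_sub _ (map_sub _), Matrix.map_mul, Matrix.map_mul,
      Matrix.map_sub _ (map_sub _), Matrix.map_mul, Matrix.map_mul,
      map_residue_eq F hl, map_residue_eq F hl]
  have h2 := congrFun (congrFun h1 F.i0) 0
  simp only [Matrix.map_apply] at h2
  rw [h2]
  intro h0
  exact F.hcomm ((map_eq_zero _).mp h0)

/-- Step 1: conjugate so that the first column of `M g` becomes `(0, 1)`. -/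
theorem step1 (F : Frame 𝒪 ρbar) [IsLocalHom (algebraMap 𝒪 A)]
    {M : GQ → Matrix (Fin 2) (Fin 2) A} (hl : F.Lifts A M) :
    ∃ R S : Matrix (Fin 2) (Fin 2) A, S * R = 1 ∧ R * S = 1 ∧ R.map (residue A) = 1 ∧
      (S * M F.g * R) 0 0 = 0 ∧ (S * M F.g * R) 1 0 = 1 := by
  have ha : residue A (M F.g 0 0) = 0 := by
    rw [residue_apply F hl, Frame.Mbar, F.hg0, map_zero]
  have hd : residue A (M F.g 1 0) = 1 := by
    rw [residue_apply F hl, Frame.Mbar, F.hg1, map_one]
  have hdu : IsUnit (M F.g 1 0) := by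
    rw [← residue_ne_zero_iff_isUnit, hd]
    exact one_ne_zero
  obtain ⟨e, he⟩ := hdu.exists_right_inv
  refine ⟨!![1, M F.g 0 0; 0, M F.g 1 0], !![1, -(M F.g 0 0) * e; 0, e], ?_, ?_, ?_, ?_, ?_⟩
  · ext i j
    fin_cases i <;> fin_cases j <;> simp [Matrix.mul_apply, Fin.sum_univ_two]
    · linear_combination (-(M F.g 0 0)) * he
    · linear_combination he
  · ext i j
    fin_cases i <;> fin_cases j <;> simp [Matrix.mul_apply, Fin.sum_univ_two]
    · linear_combination he
  · ext i j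
    fin_cases i <;> fin_cases j <;> simp [ha, hd]
  · simp [Matrix.mul_apply, Fin.sum_univ_two, Matrix.vecMul, dotProduct]
    linear_combination (-(M F.g 0 0)) * he
  · simp [Matrix.mul_apply, Fin.sum_univ_two, Matrix.vecMul, dotProduct]
    linear_combination he

/-- Solving a quadratic equation `f₀ + u b + v b² = 0` with `f₀ ∈ 𝔪` and `u` a unit
(by Hensel's lemma). -/
theorem exists_quadratic_root [IsAdicComplete (maximalIdeal A) A] (f₀ u v : A)
    (hf : f₀ ∈ maximalIdeal A) (hu : IsUnit u) :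
    ∃ b ∈ maximalIdeal A, f₀ + u * b + v * b ^ 2 = 0 := by
  have hmonic : (Polynomial.X ^ 2 + (Polynomial.C u * Polynomial.X +
      Polynomial.C (v * f₀)) : Polynomial A).Monic :=
    Polynomial.monic_X_pow_add (lt_of_le_of_lt Polynomial.degree_linear_le (by norm_num))
  have heval : (Polynomial.X ^ 2 + (Polynomial.C u * Polynomial.X +
      Polynomial.C (v * f₀)) : Polynomial A).eval (-u) ∈ maximalIdeal A := by
    have h : (Polynomial.X ^ 2 + (Polynomial.C u * Polynomial.X +
        Polynomial.C (v * f₀)) : Polynomial A).eval (-u) = v * f₀ := by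
      simp
      ring
    rw [h]
    exact Ideal.mul_mem_left _ _ hf
  have hder : IsUnit (Ideal.Quotient.mk (maximalIdeal A)
      ((Polynomial.X ^ 2 + (Polynomial.C u * Polynomial.X +
        Polynomial.C (v * f₀)) : Polynomial A).derivative.eval (-u))) := by
    have h : (Polynomial.X ^ 2 + (Polynomial.C u * Polynomial.X +
        Polynomial.C (v * f₀)) : Polynomial A).derivative.eval (-u) = -u := by
      simp
      ring
    rw [h]
    exact hu.neg.map _
  obtain ⟨w, hw, hwu⟩ := HenselianRing.is_henselian _ hmonic (-u) heval hder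
  have hwunit : IsUnit w := by
    rw [← notMem_maximalIdeal]
    intro hwm
    have h : u ∈ maximalIdeal A := by
      have := Ideal.sub_mem _ hwu hwm
      simpa using this
    exact (notMem_maximalIdeal.mpr hu) h
  obtain ⟨wi, hwi⟩ := hwunit.exists_right_inv
  refine ⟨f₀ * wi, Ideal.mul_mem_right _ _ hf, ?_⟩
  have hroot : w ^ 2 + (u * w + v * f₀) = 0 := by
    simpa [Polynomial.IsRoot] using hw
  linear_combination (f₀ * wi ^ 2) * hroot - (f₀ * (1 + w * wi) + u * f₀ * wi) * hwi

omit [IsLocalRing A] in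
/-- The polynomial identity behind step 2. -/
theorem key_identity (C Y : Matrix (Fin 2) (Fin 2) A) (i0 : Fin 2) (c b : A) :
    ((1 + b • C).adjugate * Y * (1 + b • C)) i0 0 - c * (1 + b • C).det =
      (Y i0 0 - c) + (C.trace * (Y i0 0 - c) - (C * Y - Y * C) i0 0) * b +
        ((C.adjugate * Y * C) i0 0 - c * C.det) * b ^ 2 := by
  fin_cases i0
  · simp [Matrix.mul_apply, Fin.sum_univ_two, Matrix.det_fin_two, Matrix.adjugate_fin_two,
      Matrix.trace_fin_two, Matrix.vecMul, dotProduct]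
    ring
  · simp [Matrix.mul_apply, Fin.sum_univ_two, Matrix.det_fin_two, Matrix.adjugate_fin_two,
      Matrix.trace_fin_two, Matrix.vecMul, dotProduct]
    ring

/-- Step 2: conjugate by an element `1 + b C` of the centralizer of `C` so that the `(i0, 0)` entry
of `Y` becomes the prescribed value `c`. -/
theorem step2 [IsAdicComplete (maximalIdeal A) A] (C Y : Matrix (Fin 2) (Fin 2) A) (i0 : Fin 2)
    (c : A) (hf : Y i0 0 - c ∈ maximalIdeal A) (hu : IsUnit ((C * Y - Y * C) i0 0)) :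
    ∃ R S : Matrix (Fin 2) (Fin 2) A, S * R = 1 ∧ R * S = 1 ∧ R.map (residue A) = 1 ∧
      S * C * R = C ∧ (S * Y * R) i0 0 = c := by
  have hu' : IsUnit (C.trace * (Y i0 0 - c) - (C * Y - Y * C) i0 0) := by
    rw [← notMem_maximalIdeal]
    intro hmem
    have h : (C * Y - Y * C) i0 0 ∈ maximalIdeal A := by
      have := Ideal.sub_mem _ (Ideal.mul_mem_left _ C.trace hf) hmem
      simpa using this
    exact (notMem_maximalIdeal.mpr hu) h
  obtain ⟨b, hb, hroot⟩ := exists_quadratic_root (Y i0 0 - c)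
    (C.trace * (Y i0 0 - c) - (C * Y - Y * C) i0 0) ((C.adjugate * Y * C) i0 0 - c * C.det) hf hu'
  have hkey : ((1 + b • C).adjugate * Y * (1 + b • C)) i0 0 - c * (1 + b • C).det = 0 :=
    (key_identity C Y i0 c b).trans hroot
  have hδ : IsUnit (1 + b • C).det := by
    have h : (1 + b • C).det = 1 + b * (C.trace + b * C.det) := by
      simp [Matrix.det_fin_two, Matrix.trace_fin_two]
      ring
    rw [h, ← notMem_maximalIdeal]
    intro hmem
    have h1 : (1 : A) ∈ maximalIdeal A := by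
      have := Ideal.sub_mem _ hmem (Ideal.mul_mem_right (C.trace + b * C.det) _ hb)
      rwa [add_sub_cancel_right] at this
    exact (Ideal.ne_top_iff_one _).mp (maximalIdeal.isMaximal A).ne_top h1
  obtain ⟨ε, hε⟩ := hδ.exists_right_inv
  have hSR : ε • (1 + b • C).adjugate * (1 + b • C) = 1 := by
    rw [Matrix.smul_mul, Matrix.adjugate_mul, smul_smul, mul_comm, hε, one_smul]
  refine ⟨1 + b • C, ε • (1 + b • C).adjugate, hSR, ?_, ?_, ?_, ?_⟩
  · rw [Matrix.mul_smul, Matrix.mul_adjugate, smul_smul, mul_comm, hε, one_smul]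
  · ext i j
    fin_cases i <;> fin_cases j <;> simp [(residue_eq_zero_iff b).mpr hb]
  · have hcomm : C * (1 + b • C) = (1 + b • C) * C := by
      rw [mul_add, add_mul, mul_one, one_mul, Matrix.mul_smul, Matrix.smul_mul]
    rw [mul_assoc, hcomm, ← mul_assoc, hSR, one_mul]
  · rw [Matrix.smul_mul, Matrix.smul_mul, Matrix.smul_apply, smul_eq_mul]
    linear_combination ε * hkey + c * hε

end NormalFormE

variable {𝒪 : Type} [CommRing 𝒪] [IsLocalRing 𝒪] {ρbar : ResidualGaloisRep (ResidueField 𝒪)}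

/-- **Existence of normal forms**: every matrix lift of the residual representation of a frame is
conjugate to a normalized lift. -/
theorem Frame.exists_normalize (F : Frame 𝒪 ρbar) (A : Type) [CommRing A] [IsLocalRing A]
    [Algebra 𝒪 A] [IsLocalHom (algebraMap 𝒪 A)] [IsAdicComplete (maximalIdeal A) A]
    {M : GQ → Matrix (Fin 2) (Fin 2) A} (hM : IsMatRep A M) (hl : F.Lifts A M) :
    ∃ M' : GQ → Matrix (Fin 2) (Fin 2) A, F.IsNormLift A M' ∧
      ∃ Q : Matrix (Fin 2) (Fin 2) A, IsUnit Q ∧ ∀ σ, Q * M σ = M' σ * Q := by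
  obtain ⟨R₁, S₁, hSR₁, hRS₁, hR₁, h00, h10⟩ := NormalFormE.step1 F hl
  have hM₁ := NormalFormE.isMatRep_conj hM R₁ S₁ hSR₁ hRS₁
  have hl₁ := NormalFormE.lifts_conj F hl R₁ S₁ hSR₁ hR₁
  have hu := NormalFormE.isUnit_comm F hl₁
  obtain ⟨R₂, S₂, hSR₂, hRS₂, hR₂, hC, hY⟩ := NormalFormE.step2 (S₁ * M F.g * R₁)
    (S₁ * M F.h * R₁) F.i0 (algebraMap 𝒪 A (F.cl F.h F.i0 0)) (hl₁ F.h F.i0 0) hu
  have hM₂ := NormalFormE.isMatRep_conj hM₁ R₂ S₂ hSR₂ hRS₂
  have hl₂ := NormalFormE.lifts_conj F hl₁ R₂ S₂ hSR₂ hR₂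
  refine ⟨fun σ => S₂ * (S₁ * M σ * R₁) * R₂, ⟨hM₂, hl₂, ?_, ?_, ?_⟩, S₂ * S₁, ?_, ?_⟩
  · show (S₂ * (S₁ * M F.g * R₁) * R₂) 0 0 = 0
    rw [hC, h00]
  · show (S₂ * (S₁ * M F.g * R₁) * R₂) 1 0 = 1
    rw [hC, h10]
  · exact hY
  · refine ⟨⟨S₂ * S₁, R₁ * R₂, ?_, ?_⟩, rfl⟩
    · rw [mul_assoc, ← mul_assoc S₁, hSR₁, one_mul, hSR₂]
    · rw [mul_assoc, ← mul_assoc R₂, hRS₂, one_mul, hRS₁]
  · intro σ
    show S₂ * S₁ * M σ = S₂ * (S₁ * M σ * R₁) * R₂ * (S₂ * S₁)
    calc S₂ * S₁ * M σ = S₂ * (S₁ * M σ) * 1 := by rw [mul_one, mul_assoc]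
      _ = S₂ * (S₁ * M σ) * (R₁ * S₁) := by rw [hRS₁]
      _ = S₂ * (S₁ * M σ * R₁) * 1 * S₁ := by simp only [mul_assoc, mul_one]
      _ = S₂ * (S₁ * M σ * R₁) * (R₂ * S₂) * S₁ := by rw [hRS₂]
      _ = S₂ * (S₁ * M σ * R₁) * R₂ * (S₂ * S₁) := by simp only [mul_assoc]

end Fermat.Agent.S53
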