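import Mathlib

/-!
# S53: bounding the number of generators of the maximal ideal by maps to the dual numbers
-/

set_option autoImplicit false
set_option linter.unusedSectionVars false

namespace Fermat.Agent.S53

open IsLocalRing

namespace Cotangent

section hyperplane

variable {𝒪 : Type} [CommRing 𝒪] [IsLocalRing 𝒪]
  {A : Type} [CommRing A] [IsLocalRing A] [Algebra 𝒪 A]
  (hsurj : Function.Surjective (residue A ∘ algebraMap 𝒪 A))
  (H : Ideal A) (y : A)
  (hN : Ideal.map (algebraMap 𝒪 A) (maximalIdeal 𝒪) ≤ H)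
  (hsq : maximalIdeal A ^ 2 ≤ H) (hH : H ≤ maximalIdeal A)
  (hy : y ∈ maximalIdeal A) (hyH : y ∉ H)
  (hgen : maximalIdeal A ≤ H ⊔ Ideal.span {y})

include hsurj hsq hgen hy in
theorem exists_rep (a : A) :
    ∃ p : 𝒪 × 𝒪, a - algebraMap 𝒪 A p.1 - algebraMap 𝒪 A p.2 * y ∈ H := by
  obtain ⟨x, hx⟩ := hsurj (residue A a)
  have h1 : a - algebraMap 𝒪 A x ∈ maximalIdeal A := by
    rw [← residue_eq_zero_iff, map_sub, sub_eq_zero]
    exact hx.symm
  have h2 := hgen h1
  rw [Submodule.mem_sup] at h2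
  obtain ⟨h, hh, z, hz, hsum⟩ := h2
  rw [Ideal.mem_span_singleton'] at hz
  obtain ⟨b, rfl⟩ := hz
  obtain ⟨c, hc⟩ := hsurj (residue A b)
  have h3 : b - algebraMap 𝒪 A c ∈ maximalIdeal A := by
    rw [← residue_eq_zero_iff, map_sub, sub_eq_zero]
    exact hc.symm
  refine ⟨(x, c), ?_⟩
  have h4 : a - algebraMap 𝒪 A x - algebraMap 𝒪 A c * y =
      h + (b - algebraMap 𝒪 A c) * y := by
    linear_combination -hsum
  rw [h4]
  refine Ideal.add_mem _ hh (hsq ?_)
  rw [pow_two]
  exact Ideal.mul_mem_mul h3 hy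

include hN hH hy hyH in
theorem mem_of_rep_zero {x c : 𝒪} (h : algebraMap 𝒪 A x + algebraMap 𝒪 A c * y ∈ H) :
    x ∈ maximalIdeal 𝒪 ∧ c ∈ maximalIdeal 𝒪 := by
  have hx : x ∈ maximalIdeal 𝒪 := by
    by_contra hxu
    rw [mem_maximalIdeal, mem_nonunits_iff, not_not] at hxu
    have h1 : IsUnit (algebraMap 𝒪 A x) := hxu.map _
    have h2 : algebraMap 𝒪 A x ∈ maximalIdeal A := by
      have h3 : algebraMap 𝒪 A x =
          (algebraMap 𝒪 A x + algebraMap 𝒪 A c * y) - algebraMap 𝒪 A c * y := by ring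
      rw [h3]
      exact Ideal.sub_mem _ (hH h) (Ideal.mul_mem_left _ _ hy)
    exact h2 h1
  refine ⟨hx, ?_⟩
  by_contra hcu
  rw [mem_maximalIdeal, mem_nonunits_iff, not_not] at hcu
  have h1 : IsUnit (algebraMap 𝒪 A c) := hcu.map _
  have h2 : algebraMap 𝒪 A c * y ∈ H := by
    have h3 : algebraMap 𝒪 A c * y =
        (algebraMap 𝒪 A x + algebraMap 𝒪 A c * y) - algebraMap 𝒪 A x := by ring
    rw [h3]
    exact Ideal.sub_mem _ h (hN (Ideal.mem_map_of_mem _ hx))
  exact hyH ((Ideal.unit_mul_mem_iff_mem H h1).mp h2)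

/-- The coordinates `(x mod 𝔪, c mod 𝔪)` of `a = x + c y + (element of H)`. -/
noncomputable def coords (a : A) : ResidueField 𝒪 × ResidueField 𝒪 :=
  (residue 𝒪 (exists_rep hsurj H y hsq hy hgen a).choose.1,
    residue 𝒪 (exists_rep hsurj H y hsq hy hgen a).choose.2)

include hN hH hyH in
theorem coords_eq {a : A} {x c : 𝒪}
    (h : a - algebraMap 𝒪 A x - algebraMap 𝒪 A c * y ∈ H) :
    coords hsurj H y hsq hy hgen a = (residue 𝒪 x, residue 𝒪 c) := by
  have h0 := (exists_rep hsurj H y hsq hy hgen a).choose_spec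
  unfold coords
  generalize (exists_rep hsurj H y hsq hy hgen a).choose = p at h0 ⊢
  have h1 : algebraMap 𝒪 A (p.1 - x) + algebraMap 𝒪 A (p.2 - c) * y ∈ H := by
    have h2 : algebraMap 𝒪 A (p.1 - x) + algebraMap 𝒪 A (p.2 - c) * y =
        (a - algebraMap 𝒪 A x - algebraMap 𝒪 A c * y) -
          (a - algebraMap 𝒪 A p.1 - algebraMap 𝒪 A p.2 * y) := by
      rw [map_sub, map_sub]; ring
    rw [h2]
    exact Ideal.sub_mem _ h h0
  obtain ⟨h3, h4⟩ := mem_of_rep_zero H y hN hH hy hyH h1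
  refine Prod.ext ?_ ?_
  · show residue 𝒪 p.1 = residue 𝒪 x
    rw [← sub_eq_zero, ← map_sub, residue_eq_zero_iff]
    exact h3
  · show residue 𝒪 p.2 = residue 𝒪 c
    rw [← sub_eq_zero, ← map_sub, residue_eq_zero_iff]
    exact h4

end hyperplane

section hom

variable {𝒪 : Type} [CommRing 𝒪] [IsLocalRing 𝒪]
  [Algebra 𝒪 (DualNumber (ResidueField 𝒪))]
  (halg : ∀ x : 𝒪, algebraMap 𝒪 (DualNumber (ResidueField 𝒪)) x =
      TrivSqZeroExt.inl (residue 𝒪 x))
  {A : Type} [CommRing A] [IsLocalRing A] [Algebra 𝒪 A]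
  (hsurj : Function.Surjective (residue A ∘ algebraMap 𝒪 A))
  (H : Ideal A) (y : A)
  (hN : Ideal.map (algebraMap 𝒪 A) (maximalIdeal 𝒪) ≤ H)
  (hsq : maximalIdeal A ^ 2 ≤ H) (hH : H ≤ maximalIdeal A)
  (hy : y ∈ maximalIdeal A) (hyH : y ∉ H)
  (hgen : maximalIdeal A ≤ H ⊔ Ideal.span {y})

/-- The function underlying the homomorphism to the dual numbers attached to `(H, y)`. -/
noncomputable def homFun (a : A) : DualNumber (ResidueField 𝒪) :=
  TrivSqZeroExt.inl (coords hsurj H y hsq hy hgen a).1 +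
    TrivSqZeroExt.inr (coords hsurj H y hsq hy hgen a).2

include hN hH hyH in
theorem homFun_eq {a : A} {x c : 𝒪}
    (h : a - algebraMap 𝒪 A x - algebraMap 𝒪 A c * y ∈ H) :
    homFun hsurj H y hsq hy hgen a =
      TrivSqZeroExt.inl (residue 𝒪 x) + TrivSqZeroExt.inr (residue 𝒪 c) := by
  unfold homFun
  rw [coords_eq hsurj H y hN hsq hH hy hyH hgen h]

/-- The `𝒪`-algebra homomorphism `A → k[ε]` killing `H` and sending `y` to `ε`. -/
noncomputable def hom : A →ₐ[𝒪] DualNumber (ResidueField 𝒪) where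
  toFun := homFun hsurj H y hsq hy hgen
  map_one' := by
    rw [homFun_eq hsurj H y hN hsq hH hy hyH hgen (x := 1) (c := 0) (by simp)]
    simp
  map_mul' := by
    intro a a'
    obtain ⟨p, hp⟩ := exists_rep hsurj H y hsq hy hgen a
    obtain ⟨p', hp'⟩ := exists_rep hsurj H y hsq hy hgen a'
    have hmem : a * a' - algebraMap 𝒪 A (p.1 * p'.1) -
        algebraMap 𝒪 A (p.1 * p'.2 + p'.1 * p.2) * y ∈ H := by
      have h1 : a * a' - algebraMap 𝒪 A (p.1 * p'.1) -
          algebraMap 𝒪 A (p.1 * p'.2 + p'.1 * p.2) * y =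
          (a - algebraMap 𝒪 A p.1 - algebraMap 𝒪 A p.2 * y) * a' +
          (algebraMap 𝒪 A p.1 + algebraMap 𝒪 A p.2 * y) *
            (a' - algebraMap 𝒪 A p'.1 - algebraMap 𝒪 A p'.2 * y) +
          algebraMap 𝒪 A p.2 * algebraMap 𝒪 A p'.2 * (y * y) := by
        simp only [map_mul, map_add]; ring
      rw [h1]
      exact Ideal.add_mem _ (Ideal.add_mem _ (H.mul_mem_right _ hp) (H.mul_mem_left _ hp'))
        (H.mul_mem_left _ (hsq (by rw [pow_two]; exact Ideal.mul_mem_mul hy hy)))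
    rw [homFun_eq hsurj H y hN hsq hH hy hyH hgen hp,
      homFun_eq hsurj H y hN hsq hH hy hyH hgen hp',
      homFun_eq hsurj H y hN hsq hH hy hyH hgen hmem]
    ext <;> simp [mul_comm]
  map_zero' := by
    rw [homFun_eq hsurj H y hN hsq hH hy hyH hgen (x := 0) (c := 0) (by simp)]
    simp
  map_add' := by
    intro a a'
    obtain ⟨p, hp⟩ := exists_rep hsurj H y hsq hy hgen a
    obtain ⟨p', hp'⟩ := exists_rep hsurj H y hsq hy hgen a'
    have hmem : a + a' - algebraMap 𝒪 A (p.1 + p'.1) -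
        algebraMap 𝒪 A (p.2 + p'.2) * y ∈ H := by
      have h1 : a + a' - algebraMap 𝒪 A (p.1 + p'.1) - algebraMap 𝒪 A (p.2 + p'.2) * y =
          (a - algebraMap 𝒪 A p.1 - algebraMap 𝒪 A p.2 * y) +
          (a' - algebraMap 𝒪 A p'.1 - algebraMap 𝒪 A p'.2 * y) := by
        simp only [map_add]; ring
      rw [h1]
      exact Ideal.add_mem _ hp hp'
    rw [homFun_eq hsurj H y hN hsq hH hy hyH hgen hp,
      homFun_eq hsurj H y hN hsq hH hy hyH hgen hp',
      homFun_eq hsurj H y hN hsq hH hy hyH hgen hmem]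
    ext <;> simp
  commutes' := by
    intro z
    rw [halg]
    show homFun hsurj H y hsq hy hgen (algebraMap 𝒪 A z) = _
    rw [homFun_eq hsurj H y hN hsq hH hy hyH hgen (x := z) (c := 0) (by simp)]
    simp

theorem hom_apply_of_mem {h : A} (hh : h ∈ H) :
    hom halg hsurj H y hN hsq hH hy hyH hgen h = 0 := by
  show homFun hsurj H y hsq hy hgen h = 0
  rw [homFun_eq hsurj H y hN hsq hH hy hyH hgen (x := 0) (c := 0) (by simpa using hh)]
  simp

theorem hom_apply_self :
    hom halg hsurj H y hN hsq hH hy hyH hgen y = TrivSqZeroExt.inr 1 := by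
  show homFun hsurj H y hsq hy hgen y = _
  rw [homFun_eq hsurj H y hN hsq hH hy hyH hgen (x := 0) (c := 1) (by simp)]
  simp

end hom

end Cotangent

/-- Let `A` be a finite local `𝒪`-algebra with residue field that of `𝒪`. If there are at most `t`
`𝒪`-algebra homomorphisms from `A` to the dual numbers `k[ε]`, then the maximal ideal of `A` is
generated by the image of the maximal ideal of `𝒪` and `t` further elements.
(The `𝒪`-algebra structure on `k[ε]` is any one whose `algebraMap` is `x ↦ inl (residue x)`.) -/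
theorem cotangent_bound {𝒪 : Type} [CommRing 𝒪] [IsLocalRing 𝒪] [Finite (ResidueField 𝒪)]
    [Algebra 𝒪 (DualNumber (ResidueField 𝒪))]
    (halg : ∀ x : 𝒪, algebraMap 𝒪 (DualNumber (ResidueField 𝒪)) x =
      TrivSqZeroExt.inl (residue 𝒪 x))
    (A : Type) [CommRing A] [IsLocalRing A] [Algebra 𝒪 A] [Finite A]
    (hloc : IsLocalHom (algebraMap 𝒪 A))
    (hsurj : Function.Surjective (residue A ∘ algebraMap 𝒪 A))
    (t : ℕ) (ht : Nat.card (A →ₐ[𝒪] DualNumber (ResidueField 𝒪)) ≤ t) :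
    ∃ y : Fin t → A, (∀ i, y i ∈ maximalIdeal A) ∧
      maximalIdeal A =
        Ideal.map (algebraMap 𝒪 A) (maximalIdeal 𝒪) ⊔ Ideal.span (Set.range y) := by
  classical
  have hN𝔪 : Ideal.map (algebraMap 𝒪 A) (maximalIdeal 𝒪) ≤ maximalIdeal A := by
    rw [Ideal.map_le_iff_le_comap]
    intro x hx
    exact map_nonunit (algebraMap 𝒪 A) x hx
  have hI𝔪 : Ideal.map (algebraMap 𝒪 A) (maximalIdeal 𝒪) ⊔ maximalIdeal A ^ 2 ≤ maximalIdeal A :=
    sup_le hN𝔪 (Ideal.pow_le_self two_ne_zero)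
  -- a generating set of minimal cardinality modulo `I = N ⊔ 𝔪 ^ 2`
  let P : Finset A → Prop := fun Y => (∀ y ∈ Y, y ∈ maximalIdeal A) ∧
    maximalIdeal A ≤ (Ideal.map (algebraMap 𝒪 A) (maximalIdeal 𝒪) ⊔ maximalIdeal A ^ 2) ⊔
      Ideal.span (Y : Set A)
  have hex : ∃ n, ∃ Y : Finset A, Y.card = n ∧ P Y := by
    let _ := Fintype.ofFinite A
    refine ⟨_, Finset.univ.filter (· ∈ maximalIdeal A), rfl,
      fun y hy => (Finset.mem_filter.mp hy).2, ?_⟩
    intro a ha
    exact Ideal.mem_sup_right (Ideal.subset_span (by simpa using ha))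
  obtain ⟨Y, hYcard, hYm, hYgen⟩ := Nat.find_spec hex
  have hmin : ∀ Y' : Finset A, P Y' → Y.card ≤ Y'.card := fun Y' hY' => by
    rw [hYcard]
    exact Nat.find_min' hex ⟨Y', rfl, hY'⟩
  -- minimality gives independence
  have hHy : ∀ y ∈ Y, y ∉ (Ideal.map (algebraMap 𝒪 A) (maximalIdeal 𝒪) ⊔ maximalIdeal A ^ 2) ⊔
      Ideal.span ((Y.erase y : Finset A) : Set A) := by
    intro y hy hmem
    have hP : P (Y.erase y) := by
      refine ⟨fun z hz => hYm z (Finset.mem_of_mem_erase hz), ?_⟩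
      refine hYgen.trans (sup_le le_sup_left ?_)
      rw [Ideal.span_le]
      intro z hz
      by_cases hzy : z = y
      · rw [hzy]; exact hmem
      · exact Ideal.mem_sup_right (Ideal.subset_span
          (by exact_mod_cast Finset.mem_erase.mpr ⟨hzy, by exact_mod_cast hz⟩))
    have h1 := hmin _ hP
    rw [Finset.card_erase_of_mem hy] at h1
    have hpos : 0 < Y.card := Finset.card_pos.mpr ⟨y, hy⟩
    omega
  have hgenY : ∀ y ∈ Y, maximalIdeal A ≤
      ((Ideal.map (algebraMap 𝒪 A) (maximalIdeal 𝒪) ⊔ maximalIdeal A ^ 2) ⊔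
        Ideal.span ((Y.erase y : Finset A) : Set A)) ⊔ Ideal.span {y} := by
    intro y hy
    refine hYgen.trans (sup_le (le_sup_of_le_left le_sup_left) ?_)
    rw [Ideal.span_le]
    intro z hz
    by_cases hzy : z = y
    · rw [hzy]; exact Ideal.mem_sup_right (Ideal.subset_span rfl)
    · exact Ideal.mem_sup_left (Ideal.mem_sup_right (Ideal.subset_span
        (by exact_mod_cast Finset.mem_erase.mpr ⟨hzy, by exact_mod_cast hz⟩)))
  -- the homomorphisms attached to the elements of `Y`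
  let Φ : Y → (A →ₐ[𝒪] DualNumber (ResidueField 𝒪)) := fun y =>
    Cotangent.hom halg hsurj
      ((Ideal.map (algebraMap 𝒪 A) (maximalIdeal 𝒪) ⊔ maximalIdeal A ^ 2) ⊔
        Ideal.span ((Y.erase y.1 : Finset A) : Set A)) y.1
      (le_sup_of_le_left le_sup_left) (le_sup_of_le_left le_sup_right)
      (sup_le hI𝔪 (Ideal.span_le.mpr fun z hz =>
        hYm z (Finset.mem_of_mem_erase (by exact_mod_cast hz))))
      (hYm y.1 y.2) (hHy y.1 y.2) (hgenY y.1 y.2)
  have hΦinj : Function.Injective Φ := by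
    intro y y' hyy'
    by_contra hne
    have hne' : y'.1 ≠ y.1 := fun h => hne (Subtype.ext h.symm)
    have h1 : Φ y y'.1 = 0 := by
      apply Cotangent.hom_apply_of_mem
      exact Ideal.mem_sup_right (Ideal.subset_span
        (by exact_mod_cast Finset.mem_erase.mpr ⟨hne', y'.2⟩))
    have h2 : Φ y' y'.1 = TrivSqZeroExt.inr 1 := Cotangent.hom_apply_self _ _ _ _ _ _ _ _ _ _
    rw [hyy', h2] at h1
    have h3 := congrArg TrivSqZeroExt.snd h1
    simp at h3
  have hfinD : Finite (DualNumber (ResidueField 𝒪)) :=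
    Finite.of_injective (fun x : DualNumber (ResidueField 𝒪) => (x.fst, x.snd))
      (fun x x' h => TrivSqZeroExt.ext (congrArg Prod.fst h) (congrArg Prod.snd h))
  have hfinHom : Finite (A →ₐ[𝒪] DualNumber (ResidueField 𝒪)) :=
    Finite.of_injective (fun φ => (φ : A → DualNumber (ResidueField 𝒪))) DFunLike.coe_injective
  have hcard : Y.card ≤ t := by
    have h1 := Nat.card_le_card_of_injective Φ hΦinj
    rw [Nat.card_eq_fintype_card, Fintype.card_coe] at h1
    exact h1.trans ht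
  -- enumerate `Y` by `Fin t`
  have hcard' : Fintype.card Y ≤ Fintype.card (Fin t) := by
    rw [Fintype.card_coe, Fintype.card_fin]
    exact hcard
  obtain ⟨emb⟩ := Function.Embedding.nonempty_of_card_le hcard'
  refine ⟨Function.extend emb (fun y : Y => (y : A)) 0, ?_, ?_⟩
  · intro i
    by_cases hi : ∃ y, emb y = i
    · obtain ⟨y, rfl⟩ := hi
      rw [emb.injective.extend_apply]
      exact hYm y.1 y.2
    · rw [Function.extend_apply' _ _ _ hi]
      exact Ideal.zero_mem _
  · have hspan : Ideal.span (Y : Set A) ≤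
        Ideal.span (Set.range (Function.extend emb (fun y : Y => (y : A)) 0)) := by
      rw [Ideal.span_le]
      intro z hz
      refine Ideal.subset_span ⟨emb ⟨z, by exact_mod_cast hz⟩, ?_⟩
      rw [emb.injective.extend_apply]
    apply le_antisymm
    · -- Nakayama
      have hfg : (maximalIdeal A).FG := IsNoetherian.noetherian _
      have hjac : maximalIdeal A ≤ (⊥ : Ideal A).jacobson :=
        (IsLocalRing.jacobson_eq_maximalIdeal ⊥ bot_ne_top).ge
      have hle : maximalIdeal A ≤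
          (Ideal.map (algebraMap 𝒪 A) (maximalIdeal 𝒪) ⊔ Ideal.span (Y : Set A)) ⊔
            maximalIdeal A • maximalIdeal A := by
        refine hYgen.trans ?_
        rw [smul_eq_mul, ← pow_two]
        refine sup_le (sup_le (le_sup_of_le_left le_sup_left) le_sup_right)
          (le_sup_of_le_left le_sup_right)
      exact (Submodule.le_of_le_smul_of_le_jacobson_bot hfg hjac hle).trans
        (sup_le_sup_left hspan _)
    · refine sup_le hN𝔪 ?_
      rw [Ideal.span_le]
      rintro _ ⟨i, rfl⟩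
      by_cases hi : ∃ y, emb y = i
      · obtain ⟨y, rfl⟩ := hi
        rw [emb.injective.extend_apply]
        exact hYm y.1 y.2
      · rw [Function.extend_apply' _ _ _ hi]
        exact Ideal.zero_mem _

end Fermat.Agent.S53
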