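import Mathlib

set_option autoImplicit false

/-!
# Pro-finite limits of finite local rings along a filter of ideals

Helper for S53.  Given a commutative `𝒪`-algebra `P` and a set `ℐ` of ideals of `P`, closed
under finite intersections, such that every `P ⧸ I` (`I ∈ ℐ`) is a finite local ring whose
maximal ideal is generated by `d` elements, the ring of compatible families
`lim_{I ∈ ℐ} P ⧸ I` is a complete Noetherian local ring.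
-/

namespace Fermat.Agent.S53.ProLimit

open CategoryTheory

variable {𝒪 : Type} [CommRing 𝒪] {P : Type} [CommRing P] [Algebra 𝒪 P]

/-- The subalgebra of compatible families in `∀ I : ℐ, P ⧸ I`. -/
def limSubalgebra (𝒪 : Type) [CommRing 𝒪] {P : Type} [CommRing P] [Algebra 𝒪 P]
    (ℐ : Set (Ideal P)) : Subalgebra 𝒪 (∀ I : ℐ, P ⧸ I.1) where
  carrier := {a | ∀ (I J : ℐ) (h : I.1 ≤ J.1), Ideal.Quotient.factor h (a I) = a J}
  mul_mem' := by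
    intro a b ha hb I J h
    simp only [Pi.mul_apply, map_mul, ha I J h, hb I J h]
  one_mem' := by
    intro I J h
    simp only [Pi.one_apply, map_one]
  add_mem' := by
    intro a b ha hb I J h
    simp only [Pi.add_apply, map_add, ha I J h, hb I J h]
  zero_mem' := by
    intro I J h
    simp only [Pi.zero_apply, map_zero]
  algebraMap_mem' := by
    intro r I J h
    simp only [Pi.algebraMap_apply]
    exact (Ideal.Quotient.factorₐ 𝒪 h).commutes r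

/-- The limit ring `lim_{I ∈ ℐ} P ⧸ I`. -/
abbrev Lim (𝒪 : Type) [CommRing 𝒪] {P : Type} [CommRing P] [Algebra 𝒪 P]
    (ℐ : Set (Ideal P)) : Type := ↥(limSubalgebra 𝒪 ℐ)

variable (𝒪) in
/-- The projection `Lim ℐ → P ⧸ I`. -/
def proj (ℐ : Set (Ideal P)) (I : ℐ) : Lim 𝒪 ℐ →ₐ[𝒪] P ⧸ I.1 :=
  (Pi.evalAlgHom 𝒪 (fun I : ℐ => P ⧸ I.1) I).comp (limSubalgebra 𝒪 ℐ).val

variable (𝒪) in
/-- The canonical map `P → Lim ℐ`. -/
def ι (ℐ : Set (Ideal P)) : P →ₐ[𝒪] Lim 𝒪 ℐ where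
  toFun p := ⟨fun I => Ideal.Quotient.mk I.1 p, fun _ _ h => Ideal.Quotient.factor_mk h p⟩
  map_one' := rfl
  map_mul' _ _ := rfl
  map_zero' := rfl
  map_add' _ _ := rfl
  commutes' _ := rfl

variable {ℐ : Set (Ideal P)}

@[simp] lemma proj_ι (I : ℐ) (p : P) : proj 𝒪 ℐ I (ι 𝒪 ℐ p) = Ideal.Quotient.mk I.1 p := rfl

lemma proj_apply (I : ℐ) (a : Lim 𝒪 ℐ) : proj 𝒪 ℐ I a = a.1 I := rfl

lemma factor_proj (I J : ℐ) (h : I.1 ≤ J.1) (a : Lim 𝒪 ℐ) :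
    Ideal.Quotient.factor h (proj 𝒪 ℐ I a) = proj 𝒪 ℐ J a := a.2 I J h

lemma ext_proj {a b : Lim 𝒪 ℐ} (h : ∀ I : ℐ, proj 𝒪 ℐ I a = proj 𝒪 ℐ I b) : a = b :=
  Subtype.ext (funext h)


section Compactness

variable {κ : Type}

/-- The inverse system of the sets `X I`. -/
def sysFunctor (X : ∀ I : ℐ, Set (κ → P ⧸ I.1))
    (hcompat : ∀ (I J : ℐ) (h : I.1 ≤ J.1), ∀ x ∈ X I,
      (fun i => Ideal.Quotient.factor h (x i)) ∈ X J) : ((↥ℐ)ᵒᵈ)ᵒᵖ ⥤ Type where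
  obj j := ↥(X (OrderDual.ofDual j.unop))
  map {j j'} f := ↾(fun x => ⟨fun i => Ideal.Quotient.factor
    (show (OrderDual.ofDual j.unop).1 ≤ (OrderDual.ofDual j'.unop).1 from
      CategoryTheory.leOfHom f.unop) (x.1 i),
    hcompat _ _ (CategoryTheory.leOfHom f.unop) x.1 x.2⟩)
  map_id j := by
    ext x i
    simp
  map_comp f g := by
    ext x i
    simp

/-- **Compactness**: a compatible family of nonempty subsets of the finite sets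
`κ → P ⧸ I` contains a compatible family of elements. -/
theorem exists_compatible (hinf : ∀ I ∈ ℐ, ∀ J ∈ ℐ, I ⊓ J ∈ ℐ)
    (hfin : ∀ I ∈ ℐ, Finite (P ⧸ I)) [Finite κ]
    (X : ∀ I : ℐ, Set (κ → P ⧸ I.1))
    (hcompat : ∀ (I J : ℐ) (h : I.1 ≤ J.1), ∀ x ∈ X I,
      (fun i => Ideal.Quotient.factor h (x i)) ∈ X J)
    (hX : ∀ I, (X I).Nonempty) :
    ∃ a : κ → Lim 𝒪 ℐ, ∀ I : ℐ, (fun i => proj 𝒪 ℐ I (a i)) ∈ X I := by
  have : IsDirectedOrder ((↥ℐ)ᵒᵈ) :=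
    ⟨fun a b => ⟨OrderDual.toDual ⟨(OrderDual.ofDual a).1 ⊓ (OrderDual.ofDual b).1,
      hinf _ (OrderDual.ofDual a).2 _ (OrderDual.ofDual b).2⟩,
      show (OrderDual.ofDual a).1 ⊓ (OrderDual.ofDual b).1 ≤ (OrderDual.ofDual a).1 from inf_le_left,
      show (OrderDual.ofDual a).1 ⊓ (OrderDual.ofDual b).1 ≤ (OrderDual.ofDual b).1 from inf_le_right⟩⟩
  have : ∀ j : ((↥ℐ)ᵒᵈ)ᵒᵖ, Nonempty ((sysFunctor X hcompat).obj j) := fun j =>
    (hX _).to_subtype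
  have : ∀ j : ((↥ℐ)ᵒᵈ)ᵒᵖ, Finite ((sysFunctor X hcompat).obj j) := fun j => by
    have : Finite (P ⧸ (OrderDual.ofDual j.unop).1) := hfin _ (OrderDual.ofDual j.unop).2
    show Finite ↥(X (OrderDual.ofDual j.unop))
    infer_instance
  obtain ⟨u, hu⟩ := nonempty_sections_of_finite_inverse_system (sysFunctor X hcompat)
  refine ⟨fun i => ⟨fun I => (u (Opposite.op (OrderDual.toDual I))).1 i, ?_⟩, ?_⟩
  · intro I J h
    have := hu (j := Opposite.op (OrderDual.toDual I)) (j' := Opposite.op (OrderDual.toDual J))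
      (CategoryTheory.homOfLE (show OrderDual.toDual J ≤ OrderDual.toDual I from h)).op
    exact congrFun (congrArg Subtype.val this) i
  · intro I
    exact (u (Opposite.op (OrderDual.toDual I))).2

end Compactness


/-- Hypotheses on the family of ideals `ℐ`: closed under finite intersections, every quotient
`P ⧸ I` is a finite local ring with residue field a quotient of `𝒪`, whose maximal ideal is
generated by `d` elements. -/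
structure IsProSystem (𝒪 : Type) [CommRing 𝒪] {P : Type} [CommRing P] [Algebra 𝒪 P]
    (ℐ : Set (Ideal P)) (d : ℕ) : Prop where
  nonempty : ℐ.Nonempty
  inf_mem : ∀ I ∈ ℐ, ∀ J ∈ ℐ, I ⊓ J ∈ ℐ
  quot_finite : ∀ I ∈ ℐ, Finite (P ⧸ I)
  quot_isLocalRing : ∀ I ∈ ℐ, IsLocalRing (P ⧸ I)
  quot_isLocalHom : ∀ I ∈ ℐ, ∀ a : 𝒪, IsUnit (algebraMap 𝒪 (P ⧸ I) a) → IsUnit a
  quot_residue : ∀ I ∈ ℐ, ∀ x : P ⧸ I, ∃ a : 𝒪, ¬ IsUnit (x - algebraMap 𝒪 (P ⧸ I) a)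
  quot_gens : ∀ I ∈ ℐ, ∃ t : Fin d → P ⧸ I, (∀ i, ¬ IsUnit (t i)) ∧
    ∀ x : P ⧸ I, ¬ IsUnit x → x ∈ Ideal.span (Set.range t)

omit [Algebra 𝒪 P] in
lemma proj_surjective [Algebra 𝒪 P] (I : ℐ) : Function.Surjective (proj 𝒪 ℐ I) := by
  intro x
  obtain ⟨p, rfl⟩ := Ideal.Quotient.mk_surjective x
  exact ⟨ι 𝒪 ℐ p, rfl⟩

namespace IsProSystem

variable {d : ℕ} (H : IsProSystem 𝒪 ℐ d)
include H

lemma factor_isUnit_iff {I J : ℐ} (h : I.1 ≤ J.1) (x : P ⧸ I.1) :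
    IsUnit (Ideal.Quotient.factor h x) ↔ IsUnit x := by
  have := H.quot_isLocalRing I.1 I.2
  have := H.quot_isLocalRing J.1 J.2
  have : IsLocalHom (Ideal.Quotient.factor h) :=
    IsLocalHom.of_surjective _ (Ideal.Quotient.factor_surjective h)
  exact isUnit_map_iff (Ideal.Quotient.factor h) x

lemma isUnit_proj_of_le {I J : ℐ} (h : I.1 ≤ J.1) (a : Lim 𝒪 ℐ) :
    IsUnit (proj 𝒪 ℐ J a) ↔ IsUnit (proj 𝒪 ℐ I a) := by
  rw [← factor_proj I J h a]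
  exact H.factor_isUnit_iff h _

lemma isUnit_proj_iff (I J : ℐ) (a : Lim 𝒪 ℐ) :
    IsUnit (proj 𝒪 ℐ I a) ↔ IsUnit (proj 𝒪 ℐ J a) :=
  (H.isUnit_proj_of_le (I := ⟨I.1 ⊓ J.1, H.inf_mem _ I.2 _ J.2⟩) (J := I) inf_le_left a).trans
    (H.isUnit_proj_of_le (I := ⟨I.1 ⊓ J.1, H.inf_mem _ I.2 _ J.2⟩) (J := J) inf_le_right a).symm

lemma isUnit_iff (I : ℐ) (a : Lim 𝒪 ℐ) : IsUnit a ↔ IsUnit (proj 𝒪 ℐ I a) := by
  refine ⟨fun ha => ha.map _, fun ha => ?_⟩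
  have hall : ∀ J : ℐ, IsUnit (proj 𝒪 ℐ J a) := fun J => (H.isUnit_proj_iff I J a).mp ha
  obtain ⟨b, hb⟩ := exists_compatible (𝒪 := 𝒪) (κ := Unit) H.inf_mem H.quot_finite
    (fun J => {b | proj 𝒪 ℐ J a * b () = 1})
    (by
      intro J J' h x hx
      simp only [Set.mem_ofPred_eq] at hx ⊢
      rw [← factor_proj J J' h a, ← map_mul, hx, map_one])
    (fun J => by
      obtain ⟨u, hu⟩ := hall J
      exact ⟨fun _ => ((u⁻¹ : (P ⧸ J.1)ˣ) : P ⧸ J.1), by simp [← hu]⟩)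
  refine IsUnit.of_mul_eq_one (b ()) ?_
  apply ext_proj
  intro J
  rw [map_mul, map_one]
  exact hb J

lemma nontrivial : Nontrivial (Lim 𝒪 ℐ) := by
  obtain ⟨I, hI⟩ := H.nonempty
  have := H.quot_isLocalRing I hI
  exact (proj 𝒪 ℐ ⟨I, hI⟩).toRingHom.domain_nontrivial

lemma isLocalRing : IsLocalRing (Lim 𝒪 ℐ) := by
  have := H.nontrivial
  obtain ⟨I, hI⟩ := H.nonempty
  have := H.quot_isLocalRing I hI
  refine IsLocalRing.of_nonunits_add ?_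
  intro a b ha hb
  rw [mem_nonunits_iff, H.isUnit_iff ⟨I, hI⟩] at ha hb ⊢
  rw [map_add]
  exact (IsLocalRing.nonunits_add ha hb)

end IsProSystem


omit [Algebra 𝒪 P] in
lemma exists_of_mem_mul_span {A : Type} [CommRing A] {d : ℕ} (N : Ideal A) (t : Fin d → A)
    {x : A} (hx : x ∈ N * Ideal.span (Set.range t)) :
    ∃ c : Fin d → A, (∀ i, c i ∈ N) ∧ x = ∑ i, c i * t i := by
  refine Submodule.mul_induction_on hx ?_ ?_
  · intro r hr s hs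
    obtain ⟨c', rfl⟩ := (Ideal.mem_span_range_iff_exists_fun).mp hs
    refine ⟨fun i => r * c' i, fun i => N.mul_mem_right _ hr, ?_⟩
    rw [Finset.mul_sum]
    exact Finset.sum_congr rfl fun i _ => by ring
  · rintro x y ⟨c, hc, rfl⟩ ⟨c', hc', rfl⟩
    refine ⟨fun i => c i + c' i, fun i => N.add_mem (hc i) (hc' i), ?_⟩
    rw [← Finset.sum_add_distrib]
    exact Finset.sum_congr rfl fun i _ => by ring

section Local

open IsLocalRing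

variable {d : ℕ} (H : IsProSystem 𝒪 ℐ d) [IsLocalRing (Lim 𝒪 ℐ)]
  [∀ I : ℐ, IsLocalRing (P ⧸ I.1)]

include H

lemma mem_maximalIdeal_iff (I : ℐ) (a : Lim 𝒪 ℐ) :
    a ∈ maximalIdeal (Lim 𝒪 ℐ) ↔ proj 𝒪 ℐ I a ∈ maximalIdeal (P ⧸ I.1) := by
  rw [mem_maximalIdeal, mem_maximalIdeal, mem_nonunits_iff, mem_nonunits_iff, H.isUnit_iff I]

omit H [IsLocalRing (Lim 𝒪 ℐ)] in
lemma factor_mem_pow {I J : ℐ} (h : I.1 ≤ J.1) (n : ℕ) {x : P ⧸ I.1}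
    (hx : x ∈ maximalIdeal (P ⧸ I.1) ^ n) :
    Ideal.Quotient.factor h x ∈ maximalIdeal (P ⧸ J.1) ^ n := by
  have : IsLocalHom (Ideal.Quotient.factor h) :=
    IsLocalHom.of_surjective _ (Ideal.Quotient.factor_surjective h)
  have h1 : (maximalIdeal (P ⧸ I.1) ^ n).map (Ideal.Quotient.factor h) ≤
      maximalIdeal (P ⧸ J.1) ^ n := by
    rw [Ideal.map_pow]
    exact Ideal.pow_right_mono (map_maximalIdeal_le _) n
  exact h1 (Ideal.mem_map_of_mem _ hx)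

lemma proj_mem_pow (I : ℐ) (n : ℕ) {a : Lim 𝒪 ℐ} (ha : a ∈ maximalIdeal (Lim 𝒪 ℐ) ^ n) :
    proj 𝒪 ℐ I a ∈ maximalIdeal (P ⧸ I.1) ^ n := by
  have hle : (maximalIdeal (Lim 𝒪 ℐ)).map (proj 𝒪 ℐ I) ≤ maximalIdeal (P ⧸ I.1) := by
    rw [Ideal.map_le_iff_le_comap]
    intro x hx
    exact (mem_maximalIdeal_iff H I x).mp hx
  have h1 : (maximalIdeal (Lim 𝒪 ℐ) ^ n).map (proj 𝒪 ℐ I) ≤ maximalIdeal (P ⧸ I.1) ^ n := by
    rw [Ideal.map_pow]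
    exact Ideal.pow_right_mono hle n
  exact h1 (Ideal.mem_map_of_mem _ ha)

omit [IsLocalRing (Lim 𝒪 ℐ)] [∀ I : ℐ, IsLocalRing (P ⧸ I.1)] in
/-- Compatible generators of the maximal ideals. -/
lemma exists_gens : ∃ t : Fin d → Lim 𝒪 ℐ, ∀ I : ℐ,
    (∀ i, ¬ IsUnit (proj 𝒪 ℐ I (t i))) ∧
      ∀ x : P ⧸ I.1, ¬ IsUnit x → x ∈ Ideal.span (Set.range fun i => proj 𝒪 ℐ I (t i)) := by
  refine exists_compatible (𝒪 := 𝒪) H.inf_mem H.quot_finite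
    (fun I => {t | (∀ i, ¬ IsUnit (t i)) ∧ ∀ x : P ⧸ I.1, ¬ IsUnit x → x ∈ Ideal.span (Set.range t)})
    ?_ (fun I => H.quot_gens I.1 I.2)
  rintro I J h t ⟨ht1, ht2⟩
  refine ⟨fun i => ?_, fun x hx => ?_⟩
  · rw [H.factor_isUnit_iff h]
    exact ht1 i
  · obtain ⟨y, rfl⟩ := Ideal.Quotient.factor_surjective h x
    rw [H.factor_isUnit_iff h] at hx
    have := Ideal.mem_map_of_mem (Ideal.Quotient.factor h) (ht2 y hx)
    rwa [Ideal.map_span, ← Set.range_comp] at this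

variable (t : Fin d → Lim 𝒪 ℐ)
  (ht : ∀ I : ℐ, (∀ i, ¬ IsUnit (proj 𝒪 ℐ I (t i))) ∧
      ∀ x : P ⧸ I.1, ¬ IsUnit x → x ∈ Ideal.span (Set.range fun i => proj 𝒪 ℐ I (t i)))

include ht

omit H [IsLocalRing (Lim 𝒪 ℐ)] in
lemma maximalIdeal_quot_eq (I : ℐ) :
    maximalIdeal (P ⧸ I.1) = Ideal.span (Set.range fun i => proj 𝒪 ℐ I (t i)) := by
  apply le_antisymm
  · intro x hx
    exact (ht I).2 x hx
  · rw [Ideal.span_le]
    rintro _ ⟨i, rfl⟩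
    exact (ht I).1 i

lemma t_mem (i : Fin d) : t i ∈ maximalIdeal (Lim 𝒪 ℐ) := by
  obtain ⟨I, hI⟩ := H.nonempty
  exact (mem_maximalIdeal_iff H ⟨I, hI⟩ _).mpr ((ht ⟨I, hI⟩).1 i)

omit [IsLocalRing (Lim 𝒪 ℐ)] in
lemma exists_sum_of_forall_proj (n : ℕ) (a : Lim 𝒪 ℐ)
    (ha : ∀ I : ℐ, proj 𝒪 ℐ I a ∈ maximalIdeal (P ⧸ I.1) ^ (n + 1)) :
    ∃ c : Fin d → Lim 𝒪 ℐ, (∀ I : ℐ, ∀ i, proj 𝒪 ℐ I (c i) ∈ maximalIdeal (P ⧸ I.1) ^ n) ∧
      a = ∑ i, c i * t i := by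
  obtain ⟨c, hc⟩ := exists_compatible (𝒪 := 𝒪) H.inf_mem H.quot_finite
    (fun I => {c | (∀ i, c i ∈ maximalIdeal (P ⧸ I.1) ^ n) ∧
      proj 𝒪 ℐ I a = ∑ i, c i * proj 𝒪 ℐ I (t i)})
    (by
      rintro I J h c ⟨hc1, hc2⟩
      refine ⟨fun i => factor_mem_pow h n (hc1 i), ?_⟩
      rw [← factor_proj I J h a, hc2, map_sum]
      refine Finset.sum_congr rfl fun i _ => ?_
      rw [map_mul, factor_proj])
    (fun I => by
      have h2 : proj 𝒪 ℐ I a ∈ maximalIdeal (P ⧸ I.1) ^ n *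
          Ideal.span (Set.range fun i => proj 𝒪 ℐ I (t i)) := by
        rw [← maximalIdeal_quot_eq t ht I, ← pow_succ]
        exact ha I
      obtain ⟨c, hc, hx⟩ := exists_of_mem_mul_span _ _ h2
      exact ⟨c, hc, hx⟩)
  refine ⟨c, fun I i => (hc I).1 i, ?_⟩
  apply ext_proj
  intro I
  rw [(hc I).2, map_sum]
  exact Finset.sum_congr rfl fun i _ => by rw [map_mul]

lemma mem_pow_of_forall_proj (n : ℕ) (a : Lim 𝒪 ℐ)
    (ha : ∀ I : ℐ, proj 𝒪 ℐ I a ∈ maximalIdeal (P ⧸ I.1) ^ n) :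
    a ∈ maximalIdeal (Lim 𝒪 ℐ) ^ n := by
  induction n generalizing a with
  | zero => simp
  | succ n ih =>
    obtain ⟨c, hc, rfl⟩ := exists_sum_of_forall_proj H t ht n a ha
    rw [pow_succ]
    exact Ideal.sum_mem _ fun i _ =>
      Ideal.mul_mem_mul (ih (c i) fun I => hc I i) (t_mem H t ht i)

lemma mem_pow_iff (n : ℕ) (a : Lim 𝒪 ℐ) :
    a ∈ maximalIdeal (Lim 𝒪 ℐ) ^ n ↔ ∀ I : ℐ, proj 𝒪 ℐ I a ∈ maximalIdeal (P ⧸ I.1) ^ n :=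
  ⟨fun ha I => proj_mem_pow H I n ha, mem_pow_of_forall_proj H t ht n a⟩

lemma maximalIdeal_eq_span : maximalIdeal (Lim 𝒪 ℐ) = Ideal.span (Set.range t) := by
  apply le_antisymm
  · intro a ha
    obtain ⟨c, -, rfl⟩ := exists_sum_of_forall_proj H t ht 0 a (fun I => by
      rw [zero_add, pow_one]
      exact (mem_maximalIdeal_iff H I a).mp ha)
    exact Ideal.sum_mem _ fun i _ => Ideal.mul_mem_left _ _ (Ideal.subset_span ⟨i, rfl⟩)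
  · rw [Ideal.span_le]
    rintro _ ⟨i, rfl⟩
    exact t_mem H t ht i

omit H ht [IsLocalRing (Lim 𝒪 ℐ)] in
lemma exists_pow_eq_bot (I : ℐ) [Finite (P ⧸ I.1)] : ∃ n, maximalIdeal (P ⧸ I.1) ^ n = ⊥ := by
  have h1 : IsArtinianRing (P ⧸ I.1) := inferInstance
  exact (isArtinianRing_iff_isNilpotent_maximalIdeal (P ⧸ I.1)).mp h1

omit H ht [IsLocalRing (Lim 𝒪 ℐ)] [∀ I : ℐ, IsLocalRing (P ⧸ I.1)] in
lemma smodEq_iff {R : Type} [CommRing R] (I : Ideal R) (n : ℕ) (x y : R) :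
    x ≡ y [SMOD (I ^ n • ⊤ : Submodule R R)] ↔ x - y ∈ I ^ n := by
  rw [SModEq.sub_mem, smul_eq_mul, Ideal.mul_top]

omit ht in
lemma isHausdorff : IsHausdorff (maximalIdeal (Lim 𝒪 ℐ)) (Lim 𝒪 ℐ) := by
  refine ⟨fun x hx => ?_⟩
  apply ext_proj
  intro I
  have := H.quot_finite I.1 I.2
  obtain ⟨n, hn⟩ := exists_pow_eq_bot I
  have h1 := (smodEq_iff _ n x 0).mp (hx n)
  rw [sub_zero] at h1
  have h2 := proj_mem_pow H I n h1
  rw [hn] at h2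
  rw [map_zero]
  exact h2

lemma isPrecomplete : IsPrecomplete (maximalIdeal (Lim 𝒪 ℐ)) (Lim 𝒪 ℐ) := by
  refine ⟨fun f hf => ?_⟩
  have hfin : ∀ I : ℐ, Finite (P ⧸ I.1) := fun I => H.quot_finite I.1 I.2
  choose nI hnI using fun I : ℐ => exists_pow_eq_bot I
  have key : ∀ (I : ℐ) (n : ℕ), nI I ≤ n → proj 𝒪 ℐ I (f n) = proj 𝒪 ℐ I (f (nI I)) := by
    intro I n hn
    have h1 := (smodEq_iff _ _ _ _).mp (hf hn)
    have h2 := proj_mem_pow H I _ h1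
    rw [hnI I, Ideal.mem_bot, map_sub, sub_eq_zero] at h2
    exact h2.symm
  let L : Lim 𝒪 ℐ := ⟨fun I => proj 𝒪 ℐ I (f (nI I)), by
    intro I J h
    show Ideal.Quotient.factor h (proj 𝒪 ℐ I (f (nI I))) = proj 𝒪 ℐ J (f (nI J))
    rw [← key I (max (nI I) (nI J)) (le_max_left _ _), factor_proj,
      key J (max (nI I) (nI J)) (le_max_right _ _)]⟩
  refine ⟨L, fun n => ?_⟩
  rw [smodEq_iff]
  apply mem_pow_of_forall_proj H t ht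
  intro I
  rw [map_sub]
  show proj 𝒪 ℐ I (f n) - proj 𝒪 ℐ I (f (nI I)) ∈ _
  rcases le_total n (nI I) with hle | hle
  · have h1 := (smodEq_iff _ _ _ _).mp (hf hle)
    have h2 := proj_mem_pow H I _ h1
    rwa [map_sub] at h2
  · rw [key I n hle, sub_self]
    exact Ideal.zero_mem _

lemma isAdicComplete : IsAdicComplete (maximalIdeal (Lim 𝒪 ℐ)) (Lim 𝒪 ℐ) :=
  { toIsHausdorff := isHausdorff H
    toIsPrecomplete := isPrecomplete H t ht }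

end Local

section PowerSeries

open IsLocalRing MvPowerSeries

variable {d : ℕ} [IsLocalRing (Lim 𝒪 ℐ)] (t : Fin d → Lim 𝒪 ℐ)
  (ht : ∀ i, t i ∈ maximalIdeal (Lim 𝒪 ℐ))

include ht in
lemma idealOfVars_pow_le (n : ℕ) :
    MvPolynomial.idealOfVars (Fin d) 𝒪 ^ n ≤
      (maximalIdeal (Lim 𝒪 ℐ) ^ n).comap
        (MvPolynomial.aeval t : MvPolynomial (Fin d) 𝒪 →ₐ[𝒪] Lim 𝒪 ℐ).toRingHom := by
  rw [← Ideal.map_le_iff_le_comap, Ideal.map_pow]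
  refine Ideal.pow_right_mono ?_ n
  rw [Ideal.map_span, Ideal.span_le]
  rintro _ ⟨_, ⟨i, rfl⟩, rfl⟩
  simpa using ht i

/-- The truncated evaluation maps `𝒪⟦X₁,…,X_d⟧ → Lim ⧸ 𝔪 ^ n`. -/
noncomputable def psMapAux (n : ℕ) :
    MvPowerSeries (Fin d) 𝒪 →+* Lim 𝒪 ℐ ⧸ maximalIdeal (Lim 𝒪 ℐ) ^ n :=
  (Ideal.quotientMap (maximalIdeal (Lim 𝒪 ℐ) ^ n)
      (MvPolynomial.aeval t : MvPolynomial (Fin d) 𝒪 →ₐ[𝒪] Lim 𝒪 ℐ).toRingHom
      (idealOfVars_pow_le t ht n)).comp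
    (truncTotalAlgHom (Fin d) 𝒪 n).toRingHom

lemma psMapAux_apply (n : ℕ) (p : MvPowerSeries (Fin d) 𝒪) :
    psMapAux t ht n p = Ideal.Quotient.mk _ (MvPolynomial.aeval t (truncTotal n p)) := rfl

lemma psMapAux_compat {m n : ℕ} (hle : m ≤ n) :
    (Ideal.Quotient.factorPow (maximalIdeal (Lim 𝒪 ℐ)) hle).comp (psMapAux t ht n) =
      psMapAux t ht m := by
  ext p
  rw [RingHom.comp_apply, psMapAux_apply, psMapAux_apply, Ideal.Quotient.factor_mk,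
    Ideal.Quotient.mk_eq_mk_iff_sub_mem, ← map_sub]
  exact idealOfVars_pow_le t ht m
    (truncTotal_sub_truncTotal_mem_pow_idealOfVars hle le_rfl p)

variable [IsAdicComplete (maximalIdeal (Lim 𝒪 ℐ)) (Lim 𝒪 ℐ)]

/-- The evaluation map `𝒪⟦X₁,…,X_d⟧ → Lim`, `X_i ↦ t i`. -/
noncomputable def psMap : MvPowerSeries (Fin d) 𝒪 →+* Lim 𝒪 ℐ :=
  IsAdicComplete.liftRingHom (maximalIdeal (Lim 𝒪 ℐ)) (psMapAux t ht)
    (fun hle => psMapAux_compat t ht hle)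

lemma mk_psMap (n : ℕ) (p : MvPowerSeries (Fin d) 𝒪) :
    Ideal.Quotient.mk (maximalIdeal (Lim 𝒪 ℐ) ^ n) (psMap t ht p) =
      Ideal.Quotient.mk _ (MvPolynomial.aeval t (truncTotal n p)) := by
  rw [psMap, IsAdicComplete.mk_liftRingHom, psMapAux_apply]

lemma psMap_coe (p : MvPolynomial (Fin d) 𝒪) :
    psMap t ht (p : MvPowerSeries (Fin d) 𝒪) = MvPolynomial.aeval t p := by
  rw [← sub_eq_zero]
  apply IsHausdorff.haus (IsAdicComplete.toIsHausdorff (I := maximalIdeal (Lim 𝒪 ℐ)))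
  intro n
  rw [smodEq_iff, sub_zero, ← Ideal.Quotient.mk_eq_mk_iff_sub_mem, mk_psMap,
    Ideal.Quotient.mk_eq_mk_iff_sub_mem, ← map_sub]
  apply idealOfVars_pow_le t ht n
  rw [MvPolynomial.mem_pow_idealOfVars_iff']
  intro x hx
  rw [MvPolynomial.coeff_sub, sub_eq_zero, coeff_truncTotal _ hx, MvPolynomial.coeff_coe]

lemma psMap_X (i : Fin d) : psMap t ht (MvPowerSeries.X i) = t i := by
  rw [← MvPolynomial.coe_X, psMap_coe, MvPolynomial.aeval_X]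

lemma psMap_C (a : 𝒪) : psMap t ht (MvPowerSeries.C a) = algebraMap 𝒪 (Lim 𝒪 ℐ) a := by
  rw [← MvPolynomial.coe_C, psMap_coe, MvPolynomial.aeval_C]

end PowerSeries

/-- In a Noetherian local ring, a family of ideals has a member which is minimal modulo
`𝔪 ^ n`. -/
lemma exists_minimal_mod_pow {R : Type} [CommRing R] [IsLocalRing R] [IsNoetherianRing R]
    (n : ℕ) {κ : Type} [Nonempty κ] (K : κ → Ideal R) :
    ∃ i₀, ∀ i, K i ≤ K i₀ → K i₀ ≤ K i ⊔ IsLocalRing.maximalIdeal R ^ n := by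
  rcases Nat.eq_zero_or_pos n with rfl | hn
  · exact ⟨Classical.arbitrary κ, fun i _ => by simp⟩
  have hne : IsLocalRing.maximalIdeal R ^ n ≠ ⊤ := by
    intro htop
    have h1 : IsLocalRing.maximalIdeal R ^ n ≤ IsLocalRing.maximalIdeal R :=
      Ideal.pow_le_self hn.ne'
    rw [htop] at h1
    exact (IsLocalRing.maximalIdeal.isMaximal R).ne_top (top_le_iff.mp h1)
  have hnt : Nontrivial (R ⧸ IsLocalRing.maximalIdeal R ^ n) :=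
    Ideal.Quotient.nontrivial_iff.mpr hne
  have hloc : IsLocalRing (R ⧸ IsLocalRing.maximalIdeal R ^ n) :=
    IsLocalRing.of_surjective' (Ideal.Quotient.mk _) Ideal.Quotient.mk_surjective
  have hmax : IsLocalRing.maximalIdeal (R ⧸ IsLocalRing.maximalIdeal R ^ n) ≤
      (IsLocalRing.maximalIdeal R).map (Ideal.Quotient.mk (IsLocalRing.maximalIdeal R ^ n)) := by
    intro x hx
    obtain ⟨a, rfl⟩ := Ideal.Quotient.mk_surjective x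
    refine Ideal.mem_map_of_mem _ ?_
    rw [IsLocalRing.mem_maximalIdeal, mem_nonunits_iff] at hx ⊢
    exact fun ha => hx (ha.map _)
  have hnil : IsNilpotent (IsLocalRing.maximalIdeal (R ⧸ IsLocalRing.maximalIdeal R ^ n)) := by
    refine ⟨n, ?_⟩
    rw [Ideal.zero_eq_bot, eq_bot_iff]
    calc IsLocalRing.maximalIdeal (R ⧸ IsLocalRing.maximalIdeal R ^ n) ^ n
        ≤ ((IsLocalRing.maximalIdeal R).map
            (Ideal.Quotient.mk (IsLocalRing.maximalIdeal R ^ n))) ^ n :=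
          Ideal.pow_right_mono hmax n
      _ = ⊥ := by rw [← Ideal.map_pow, Ideal.map_quotient_self]
  have hart : IsArtinianRing (R ⧸ IsLocalRing.maximalIdeal R ^ n) :=
    (isArtinianRing_iff_isNilpotent_maximalIdeal _).mpr hnil
  obtain ⟨K₀, ⟨i₀, rfl⟩, hmin⟩ := IsArtinian.set_has_minimal
    (Set.range fun i : κ => (K i).map (Ideal.Quotient.mk (IsLocalRing.maximalIdeal R ^ n)))
    ⟨_, ⟨Classical.arbitrary κ, rfl⟩⟩
  refine ⟨i₀, fun i hi => ?_⟩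
  have hle : (K i).map (Ideal.Quotient.mk (IsLocalRing.maximalIdeal R ^ n)) ≤
      (K i₀).map (Ideal.Quotient.mk (IsLocalRing.maximalIdeal R ^ n)) := Ideal.map_mono hi
  have heq := (eq_or_lt_of_le hle).resolve_right (hmin _ ⟨i, rfl⟩)
  have h2 : K i₀ ≤ ((K i₀).map (Ideal.Quotient.mk (IsLocalRing.maximalIdeal R ^ n))).comap
      (Ideal.Quotient.mk (IsLocalRing.maximalIdeal R ^ n)) := Ideal.le_comap_map
  rw [← heq, Ideal.comap_map_of_surjective _ Ideal.Quotient.mk_surjective,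
    ← RingHom.ker_eq_comap_bot, Ideal.mk_ker] at h2
  exact h2

section Noetherian

open IsLocalRing

variable {d : ℕ} (H : IsProSystem 𝒪 ℐ d) [IsLocalRing (Lim 𝒪 ℐ)]
  [∀ I : ℐ, IsLocalRing (P ⧸ I.1)]

include H

/-- The residue field of `Lim` is a quotient of `𝒪`. -/
lemma exists_sub_algebraMap_mem (x : Lim 𝒪 ℐ) :
    ∃ a : 𝒪, x - algebraMap 𝒪 (Lim 𝒪 ℐ) a ∈ maximalIdeal (Lim 𝒪 ℐ) := by
  obtain ⟨I, hI⟩ := H.nonempty
  obtain ⟨a, ha⟩ := H.quot_residue I hI (proj 𝒪 ℐ ⟨I, hI⟩ x)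
  refine ⟨a, (mem_maximalIdeal_iff H ⟨I, hI⟩ _).mpr ?_⟩
  rw [map_sub, AlgHom.commutes]
  exact ha

lemma residue_surjective :
    Function.Surjective (IsLocalRing.residue (Lim 𝒪 ℐ) ∘ algebraMap 𝒪 (Lim 𝒪 ℐ)) := by
  intro y
  obtain ⟨x, rfl⟩ := IsLocalRing.residue_surjective y
  obtain ⟨a, ha⟩ := exists_sub_algebraMap_mem H x
  refine ⟨a, ?_⟩
  rw [Function.comp_apply, eq_comm, ← sub_eq_zero, ← map_sub]
  exact (IsLocalRing.residue_eq_zero_iff _).mpr ha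

omit [IsLocalRing (Lim 𝒪 ℐ)] [∀ I : ℐ, IsLocalRing (P ⧸ I.1)] in
lemma isLocalHom_algebraMap : IsLocalHom (algebraMap 𝒪 (Lim 𝒪 ℐ)) := by
  refine ⟨fun a ha => ?_⟩
  obtain ⟨I, hI⟩ := H.nonempty
  refine H.quot_isLocalHom I hI a ?_
  have := ha.map (proj 𝒪 ℐ ⟨I, hI⟩)
  rwa [AlgHom.commutes] at this

variable (t : Fin d → Lim 𝒪 ℐ)
  (ht : ∀ I : ℐ, (∀ i, ¬ IsUnit (proj 𝒪 ℐ I (t i))) ∧
      ∀ x : P ⧸ I.1, ¬ IsUnit x → x ∈ Ideal.span (Set.range fun i => proj 𝒪 ℐ I (t i)))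

include ht

lemma psMap_surjective [IsAdicComplete (maximalIdeal (Lim 𝒪 ℐ)) (Lim 𝒪 ℐ)] :
    Function.Surjective (psMap t (t_mem H t ht)) := by
  have hmap : (Ideal.span (Set.range
      (MvPowerSeries.X : Fin d → MvPowerSeries (Fin d) 𝒪))).map (psMap t (t_mem H t ht)) =
      maximalIdeal (Lim 𝒪 ℐ) := by
    rw [Ideal.map_span, ← Set.range_comp, maximalIdeal_eq_span H t ht]
    congr 2
    funext i
    exact psMap_X t (t_mem H t ht) i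
  have hH : IsHausdorff ((Ideal.span (Set.range
      (MvPowerSeries.X : Fin d → MvPowerSeries (Fin d) 𝒪))).map (psMap t (t_mem H t ht)))
      (Lim 𝒪 ℐ) := by
    rw [hmap]
    infer_instance
  refine surjective_of_mk_map_comp_surjective (I := Ideal.span (Set.range
      (MvPowerSeries.X : Fin d → MvPowerSeries (Fin d) 𝒪))) (psMap t (t_mem H t ht)) ?_
  intro y
  obtain ⟨x, rfl⟩ := Ideal.Quotient.mk_surjective y
  obtain ⟨a, ha⟩ := exists_sub_algebraMap_mem H x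
  refine ⟨MvPowerSeries.C a, ?_⟩
  rw [RingHom.comp_apply, psMap_C, Ideal.Quotient.mk_eq_mk_iff_sub_mem, hmap]
  have := (maximalIdeal (Lim 𝒪 ℐ)).neg_mem ha
  rwa [neg_sub] at this

lemma isNoetherianRing [IsNoetherianRing 𝒪] [IsAdicComplete (maximalIdeal (Lim 𝒪 ℐ)) (Lim 𝒪 ℐ)] :
    IsNoetherianRing (Lim 𝒪 ℐ) :=
  isNoetherianRing_of_surjective _ _ (psMap t (t_mem H t ht)) (psMap_surjective H t ht)

/-- Every power of the maximal ideal contains the kernel of some projection. -/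
lemma exists_ker_proj_le_pow [IsNoetherianRing (Lim 𝒪 ℐ)] (n : ℕ) :
    ∃ I : ℐ, RingHom.ker (proj 𝒪 ℐ I) ≤ maximalIdeal (Lim 𝒪 ℐ) ^ n := by
  obtain ⟨I₀, hI₀⟩ := H.nonempty
  have : Nonempty ℐ := ⟨⟨I₀, hI₀⟩⟩
  obtain ⟨I₁, hI₁⟩ := exists_minimal_mod_pow n (fun I : ℐ => RingHom.ker (proj 𝒪 ℐ I))
  refine ⟨I₁, fun x hx => ?_⟩
  apply mem_pow_of_forall_proj H t ht
  intro I
  obtain ⟨J, hJ⟩ : ∃ J : ℐ, J.1 = I.1 ⊓ I₁.1 := ⟨⟨_, H.inf_mem _ I.2 _ I₁.2⟩, rfl⟩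
  have hJI : J.1 ≤ I.1 := hJ ▸ inf_le_left
  have hJI₁' : J.1 ≤ I₁.1 := hJ ▸ inf_le_right
  have hJI₁ : RingHom.ker (proj 𝒪 ℐ J) ≤ RingHom.ker (proj 𝒪 ℐ I₁) := by
    intro y hy
    rw [RingHom.mem_ker] at hy ⊢
    rw [← factor_proj J I₁ hJI₁' y, hy, map_zero]
  obtain ⟨y, hy, z, hz, rfl⟩ := Submodule.mem_sup.mp (hI₁ J hJI₁ hx)
  have h1 := proj_mem_pow H J n hz
  have h2 := factor_mem_pow hJI n h1
  rw [factor_proj] at h2
  rw [map_add, ← factor_proj J I hJI y, RingHom.mem_ker.mp hy, map_zero, zero_add]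
  exact h2

omit ht in
/-- Every projection kills a power of the maximal ideal. -/
lemma exists_pow_le_ker_proj (I : ℐ) :
    ∃ n : ℕ, maximalIdeal (Lim 𝒪 ℐ) ^ n ≤ RingHom.ker (proj 𝒪 ℐ I) := by
  have := H.quot_finite I.1 I.2
  obtain ⟨n, hn⟩ := exists_pow_eq_bot I
  refine ⟨n, fun x hx => ?_⟩
  have h1 := proj_mem_pow H I n hx
  rw [hn] at h1
  exact h1

/-- The image of `P` is dense in `Lim`. -/
lemma exists_sub_ι_mem_pow [IsNoetherianRing (Lim 𝒪 ℐ)] (r : Lim 𝒪 ℐ) (n : ℕ) :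
    ∃ p : P, r - ι 𝒪 ℐ p ∈ maximalIdeal (Lim 𝒪 ℐ) ^ n := by
  obtain ⟨I, hI⟩ := exists_ker_proj_le_pow H t ht n
  obtain ⟨p, hp⟩ := Ideal.Quotient.mk_surjective (proj 𝒪 ℐ I r)
  refine ⟨p, hI ?_⟩
  rw [RingHom.mem_ker, map_sub, proj_ι, hp, sub_self]

end Noetherian

section Lift

variable {A : Type} [CommRing A] [Algebra 𝒪 A] (𝔞 : Ideal A)
  (ψ : P →ₐ[𝒪] A) (n : ℕ) (I : ℐ) (hI : ∀ p ∈ I.1, ψ p ∈ 𝔞 ^ n)

/-- The map `Lim → A ⧸ 𝔞 ^ n` induced by `ψ : P → A` when `ψ` maps `I ∈ ℐ` into `𝔞 ^ n`. -/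
noncomputable def liftAux : Lim 𝒪 ℐ →ₐ[𝒪] A ⧸ 𝔞 ^ n :=
  (Ideal.Quotient.liftₐ I.1 ((Ideal.Quotient.mkₐ 𝒪 (𝔞 ^ n)).comp ψ)
    (fun p hp => Ideal.Quotient.eq_zero_iff_mem.mpr (hI p hp))).comp (proj 𝒪 ℐ I)

lemma liftAux_apply (a : Lim 𝒪 ℐ) (K : ℐ) (hK : K.1 ≤ I.1) (q : P)
    (hq : Ideal.Quotient.mk K.1 q = proj 𝒪 ℐ K a) :
    liftAux 𝔞 ψ n I hI a = Ideal.Quotient.mk (𝔞 ^ n) (ψ q) := by
  have h1 : proj 𝒪 ℐ I a = Ideal.Quotient.mk I.1 q := by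
    rw [← factor_proj K I hK a, ← hq, Ideal.Quotient.factor_mk]
  rw [liftAux, AlgHom.comp_apply, h1]
  rfl

variable [IsAdicComplete 𝔞 A]

/-- **Lifting**: an algebra map `ψ : P → A` to an `𝔞`-adically complete algebra which is
continuous for the `ℐ`-topology extends to `Lim`. -/
theorem exists_lift (hinf : ∀ I ∈ ℐ, ∀ J ∈ ℐ, I ⊓ J ∈ ℐ) (ψ : P →ₐ[𝒪] A)
    (hψ : ∀ n : ℕ, ∃ I ∈ ℐ, ∀ p ∈ I, ψ p ∈ 𝔞 ^ n) :
    ∃ φ : Lim 𝒪 ℐ →ₐ[𝒪] A, ∀ p : P, φ (ι 𝒪 ℐ p) = ψ p := by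
  choose In hIn hIn' using hψ
  let f : ∀ n : ℕ, Lim 𝒪 ℐ →ₐ[𝒪] A ⧸ 𝔞 ^ n := fun n =>
    liftAux 𝔞 ψ n ⟨In n, hIn n⟩ (hIn' n)
  have hf : ∀ {m n : ℕ} (hle : m ≤ n),
      (Ideal.Quotient.factorₐ 𝒪 (Ideal.pow_le_pow_right hle)).comp (f n) = f m := by
    intro m n hle
    ext a
    obtain ⟨K, hK⟩ : ∃ K : ℐ, K.1 = In n ⊓ In m := ⟨⟨_, hinf _ (hIn n) _ (hIn m)⟩, rfl⟩
    obtain ⟨q, hq⟩ := Ideal.Quotient.mk_surjective (proj 𝒪 ℐ K a)
    rw [AlgHom.comp_apply]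
    show Ideal.Quotient.factorₐ 𝒪 _ (liftAux 𝔞 ψ n ⟨In n, hIn n⟩ (hIn' n) a) =
      liftAux 𝔞 ψ m ⟨In m, hIn m⟩ (hIn' m) a
    rw [liftAux_apply 𝔞 ψ n ⟨In n, hIn n⟩ (hIn' n) a K (hK ▸ inf_le_left) q hq,
      liftAux_apply 𝔞 ψ m ⟨In m, hIn m⟩ (hIn' m) a K (hK ▸ inf_le_right) q hq]
    rfl
  refine ⟨IsAdicComplete.liftAlgHom 𝔞 f hf, fun p => ?_⟩
  rw [← sub_eq_zero]
  apply IsHausdorff.haus (IsAdicComplete.toIsHausdorff (I := 𝔞))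
  intro n
  rw [smodEq_iff, sub_zero, ← Ideal.Quotient.mk_eq_mk_iff_sub_mem, IsAdicComplete.mk_liftAlgHom]
  exact liftAux_apply 𝔞 ψ n ⟨In n, hIn n⟩ (hIn' n) (ι 𝒪 ℐ p) ⟨In n, hIn n⟩ le_rfl p rfl

end Lift

end Fermat.Agent.S53.ProLimit
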