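import Fermat.Agent.S53.Defs
import Fermat.Agent.S53.Cotangent
import Fermat.Agent.S53.ProLimit

/-!
# S53: abstract pro-representability

`exists_prorepresenting`: for a family `𝔉` of admissible ideals of `P = 𝒪[Xᵢ]` the ring
`R = lim_{I ∈ 𝔉} P ⧸ I` (see `ProLimit.lean`) is a complete Noetherian local `𝒪`-algebra which
is universal.
-/

set_option autoImplicit false

namespace Fermat.Agent.S53

open IsLocalRing

namespace ProRep

open ProLimit

/-- An algebra homomorphism between local `𝒪`-algebras, the target having residue field a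
quotient of `𝒪` (and local structure map), maps the maximal ideal into the maximal ideal. -/
lemma algHom_mem_maximalIdeal {𝒪 R A : Type} [CommRing 𝒪] [CommRing R] [CommRing A]
    [IsLocalRing R] [IsLocalRing A] [Algebra 𝒪 R] [Algebra 𝒪 A] [IsLocalHom (algebraMap 𝒪 A)]
    (hsurj : Function.Surjective (residue A ∘ algebraMap 𝒪 A)) (φ : R →ₐ[𝒪] A)
    {r : R} (hr : r ∈ maximalIdeal R) : φ r ∈ maximalIdeal A := by
  by_contra h
  have hu : IsUnit (φ r) := by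
    by_contra h'
    exact h h'
  obtain ⟨o, ho⟩ := hsurj (residue A (φ r))
  have hmem : φ r - algebraMap 𝒪 A o ∈ maximalIdeal A := by
    rw [← residue_eq_zero_iff, map_sub, sub_eq_zero]
    exact ho.symm
  have hou : IsUnit (algebraMap 𝒪 A o) := by
    by_contra h'
    have h2 : algebraMap 𝒪 A o ∈ maximalIdeal A := h'
    have h3 := (maximalIdeal A).add_mem hmem h2
    rw [sub_add_cancel] at h3
    exact h h3
  have ho' : IsUnit o := isUnit_of_map_unit (algebraMap 𝒪 A) o hou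
  have hoR : IsUnit (algebraMap 𝒪 R o) := ho'.map _
  have hdiff : IsUnit (r - algebraMap 𝒪 R o) := by
    by_contra h'
    have h2 : r - algebraMap 𝒪 R o ∈ maximalIdeal R := h'
    have h3 := (maximalIdeal R).sub_mem hr h2
    rw [sub_sub_cancel] at h3
    exact h3 hoR
  have h4 := hdiff.map φ
  rw [map_sub, AlgHom.commutes] at h4
  exact hmem h4

lemma algHom_mem_pow {𝒪 R A : Type} [CommRing 𝒪] [CommRing R] [CommRing A]
    [IsLocalRing R] [IsLocalRing A] [Algebra 𝒪 R] [Algebra 𝒪 A] [IsLocalHom (algebraMap 𝒪 A)]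
    (hsurj : Function.Surjective (residue A ∘ algebraMap 𝒪 A)) (φ : R →ₐ[𝒪] A) (n : ℕ)
    {r : R} (hr : r ∈ maximalIdeal R ^ n) : φ r ∈ maximalIdeal A ^ n := by
  have h1 : (maximalIdeal R).map φ.toRingHom ≤ maximalIdeal A := by
    rw [Ideal.map_le_iff_le_comap]
    intro x hx
    exact algHom_mem_maximalIdeal hsurj φ hx
  have h2 : (maximalIdeal R ^ n).map φ.toRingHom ≤ maximalIdeal A ^ n := by
    rw [Ideal.map_pow]
    exact Ideal.pow_right_mono h1 n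
  exact h2 (Ideal.mem_map_of_mem _ hr)

section Base

variable {𝒪 : Type} [CommRing 𝒪] [IsLocalRing 𝒪] {ι : Type} (c : ι → 𝒪)

lemma mem_baseIdeal_iff (p : MvPolynomial ι 𝒪) :
    p ∈ baseIdeal c ↔ MvPolynomial.aeval (fun i => residue 𝒪 (c i)) p = 0 := by
  rw [baseIdeal, RingHom.mem_ker]

lemma aeval_C_residue (a : 𝒪) :
    MvPolynomial.aeval (fun i => residue 𝒪 (c i)) (MvPolynomial.C a : MvPolynomial ι 𝒪) =
      residue 𝒪 a := by
  rw [MvPolynomial.aeval_C, IsLocalRing.ResidueField.algebraMap_eq]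

lemma exists_sub_C_mem (p : MvPolynomial ι 𝒪) :
    ∃ a : 𝒪, p - MvPolynomial.C a ∈ baseIdeal c := by
  obtain ⟨a, ha⟩ := residue_surjective (MvPolynomial.aeval (fun i => residue 𝒪 (c i)) p)
  refine ⟨a, ?_⟩
  rw [mem_baseIdeal_iff, map_sub, aeval_C_residue, ha, sub_self]

lemma one_notMem_baseIdeal : (1 : MvPolynomial ι 𝒪) ∉ baseIdeal c := by
  rw [mem_baseIdeal_iff, map_one]
  exact one_ne_zero

lemma C_mem_baseIdeal_iff (a : 𝒪) :
    (MvPolynomial.C a : MvPolynomial ι 𝒪) ∈ baseIdeal c ↔ ¬ IsUnit a := by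
  rw [mem_baseIdeal_iff, aeval_C_residue, residue_eq_zero_iff, mem_maximalIdeal,
    mem_nonunits_iff]

/-- Units of `P ⧸ I` for `baseIdeal c ^ n ≤ I ≤ baseIdeal c`. -/
lemma isUnit_mk_iff {I : Ideal (MvPolynomial ι 𝒪)} (hle : I ≤ baseIdeal c)
    (hpow : ∃ n : ℕ, baseIdeal c ^ n ≤ I) (p : MvPolynomial ι 𝒪) :
    IsUnit (Ideal.Quotient.mk I p) ↔ p ∉ baseIdeal c := by
  constructor
  · intro hu hp
    obtain ⟨q', hq'⟩ := hu.exists_right_inv
    obtain ⟨q, rfl⟩ := Ideal.Quotient.mk_surjective q'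
    rw [← map_mul, ← map_one (Ideal.Quotient.mk I), Ideal.Quotient.mk_eq_mk_iff_sub_mem] at hq'
    have h1 := hle hq'
    have h2 := (baseIdeal c).sub_mem ((baseIdeal c).mul_mem_right q hp) h1
    rw [sub_sub_cancel] at h2
    exact one_notMem_baseIdeal c h2
  · intro hp
    obtain ⟨n, hn⟩ := hpow
    rw [mem_baseIdeal_iff] at hp
    obtain ⟨a, ha⟩ := residue_surjective
      (MvPolynomial.aeval (fun i => residue 𝒪 (c i)) p)⁻¹
    have h1 : p * MvPolynomial.C a - 1 ∈ baseIdeal c := by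
      rw [mem_baseIdeal_iff, map_sub, map_mul, aeval_C_residue, ha, map_one,
        mul_inv_cancel₀ hp, sub_self]
    have h2 : (p * MvPolynomial.C a - 1) ^ n ∈ I := hn (Ideal.pow_mem_pow h1 n)
    have h3 : IsNilpotent (Ideal.Quotient.mk I (p * MvPolynomial.C a - 1)) :=
      ⟨n, by rw [← map_pow]; exact Ideal.Quotient.eq_zero_iff_mem.mpr h2⟩
    have h4 := h3.isUnit_add_one
    rw [← map_one (Ideal.Quotient.mk I), ← map_add, sub_add_cancel, map_mul] at h4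
    exact isUnit_of_mul_isUnit_left h4

lemma isLocalRing_quot {I : Ideal (MvPolynomial ι 𝒪)} (hle : I ≤ baseIdeal c)
    (hpow : ∃ n : ℕ, baseIdeal c ^ n ≤ I) : IsLocalRing (MvPolynomial ι 𝒪 ⧸ I) := by
  have hnt : Nontrivial (MvPolynomial ι 𝒪 ⧸ I) := by
    apply Ideal.Quotient.nontrivial_iff.mpr
    intro h
    exact one_notMem_baseIdeal c (hle (h ▸ Submodule.mem_top))
  refine IsLocalRing.of_nonunits_add ?_
  intro a b ha hb
  obtain ⟨p, rfl⟩ := Ideal.Quotient.mk_surjective a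
  obtain ⟨q, rfl⟩ := Ideal.Quotient.mk_surjective b
  rw [mem_nonunits_iff, isUnit_mk_iff c hle hpow, not_not] at ha hb
  rw [← map_add, mem_nonunits_iff, isUnit_mk_iff c hle hpow, not_not]
  exact (baseIdeal c).add_mem ha hb

end Base

section Sys

variable (𝒪 : Type) [CommRing 𝒪] [IsDomain 𝒪] [IsDiscreteValuationRing 𝒪]
    [Finite (ResidueField 𝒪)]
    [Algebra 𝒪 (DualNumber (ResidueField 𝒪))]
    (halg : ∀ x : 𝒪, algebraMap 𝒪 (DualNumber (ResidueField 𝒪)) x =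
      TrivSqZeroExt.inl (residue 𝒪 x))
    (ι : Type) (c : ι → 𝒪) (𝔉 : Set (Ideal (MvPolynomial ι 𝒪)))
    (h_le : ∀ I ∈ 𝔉, I ≤ baseIdeal c)
    (h_pow : ∀ I ∈ 𝔉, ∃ n : ℕ, baseIdeal c ^ n ≤ I)
    (h_fin : ∀ I ∈ 𝔉, Finite (MvPolynomial ι 𝒪 ⧸ I))
    (h_top : baseIdeal c ∈ 𝔉)
    (h_inf : ∀ I ∈ 𝔉, ∀ J ∈ 𝔉, I ⊓ J ∈ 𝔉)
    (t : ℕ)
    (h_tan : ∀ I ∈ 𝔉,
      Nat.card ((MvPolynomial ι 𝒪 ⧸ I) →ₐ[𝒪] DualNumber (ResidueField 𝒪)) ≤ t)

include halg h_le h_pow h_fin h_top h_inf h_tan in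
lemma isProSystem : IsProSystem 𝒪 𝔉 (t + 1) := by
  have hunit : ∀ I ∈ 𝔉, ∀ a : 𝒪,
      IsUnit (algebraMap 𝒪 (MvPolynomial ι 𝒪 ⧸ I) a) → IsUnit a := by
    intro I hI a ha
    have h1 : algebraMap 𝒪 (MvPolynomial ι 𝒪 ⧸ I) a =
        Ideal.Quotient.mk I (MvPolynomial.C a) := rfl
    rw [h1, isUnit_mk_iff c (h_le I hI) (h_pow I hI), C_mem_baseIdeal_iff, not_not] at ha
    exact ha
  have hres : ∀ I ∈ 𝔉, ∀ x : MvPolynomial ι 𝒪 ⧸ I,
      ∃ a : 𝒪, ¬ IsUnit (x - algebraMap 𝒪 (MvPolynomial ι 𝒪 ⧸ I) a) := by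
    intro I hI x
    obtain ⟨p, rfl⟩ := Ideal.Quotient.mk_surjective x
    obtain ⟨a, ha⟩ := exists_sub_C_mem c p
    refine ⟨a, ?_⟩
    have h1 : algebraMap 𝒪 (MvPolynomial ι 𝒪 ⧸ I) a =
        Ideal.Quotient.mk I (MvPolynomial.C a) := rfl
    rw [h1, ← map_sub, isUnit_mk_iff c (h_le I hI) (h_pow I hI), not_not]
    exact ha
  refine
    { nonempty := ⟨_, h_top⟩
      inf_mem := h_inf
      quot_finite := h_fin
      quot_isLocalRing := fun I hI => isLocalRing_quot c (h_le I hI) (h_pow I hI)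
      quot_isLocalHom := hunit
      quot_residue := hres
      quot_gens := ?_ }
  intro I hI
  have hfin := h_fin I hI
  have hloc : IsLocalRing (MvPolynomial ι 𝒪 ⧸ I) := isLocalRing_quot c (h_le I hI) (h_pow I hI)
  have hlh : IsLocalHom (algebraMap 𝒪 (MvPolynomial ι 𝒪 ⧸ I)) := ⟨hunit I hI⟩
  have hsurj : Function.Surjective
      (residue (MvPolynomial ι 𝒪 ⧸ I) ∘ algebraMap 𝒪 (MvPolynomial ι 𝒪 ⧸ I)) := by
    intro y
    obtain ⟨x, rfl⟩ := residue_surjective y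
    obtain ⟨a, ha⟩ := hres I hI x
    refine ⟨a, ?_⟩
    rw [Function.comp_apply, eq_comm, ← sub_eq_zero, ← map_sub, residue_eq_zero_iff]
    exact ha
  obtain ⟨y, hy1, hy2⟩ := cotangent_bound halg (MvPolynomial ι 𝒪 ⧸ I) hlh hsurj t (h_tan I hI)
  obtain ⟨ϖ, hϖ⟩ := IsDiscreteValuationRing.exists_irreducible 𝒪
  refine ⟨Fin.cons (algebraMap 𝒪 (MvPolynomial ι 𝒪 ⧸ I) ϖ) y, ?_, ?_⟩
  · intro i
    refine Fin.cases ?_ (fun j => ?_) i
    · rw [Fin.cons_zero]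
      intro h
      exact hϖ.not_isUnit (hunit I hI ϖ h)
    · rw [Fin.cons_succ]
      exact hy1 j
  · intro x hx
    have h1 : x ∈ maximalIdeal (MvPolynomial ι 𝒪 ⧸ I) := hx
    rw [hy2, hϖ.maximalIdeal_eq, Ideal.map_span, Set.image_singleton] at h1
    rw [Fin.range_cons, Ideal.span_insert]
    exact h1

end Sys

end ProRep

open ProRep ProLimit in
/-- Abstract pro-representability. `𝔉` is a family of "admissible" ideals of the polynomial ring
`P = 𝒪[Xᵢ]`, all open for the `baseIdeal c`-adic topology with finite quotient, containing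
`baseIdeal c`, closed under finite intersections and upward closed below `baseIdeal c`, with a
uniform bound on the number of maps `P ⧸ I → k[ε]`. Then there is a complete Noetherian local
`𝒪`-algebra `R` with a family `x : ι → R` which is universal among families `a : ι → A` in complete
Noetherian local `𝒪`-algebras all of whose finite truncations are admissible. -/
theorem exists_prorepresenting
    (𝒪 : Type) [CommRing 𝒪] [IsDomain 𝒪] [IsDiscreteValuationRing 𝒪]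
    [Finite (ResidueField 𝒪)]
    [Algebra 𝒪 (DualNumber (ResidueField 𝒪))]
    (halg : ∀ x : 𝒪, algebraMap 𝒪 (DualNumber (ResidueField 𝒪)) x =
      TrivSqZeroExt.inl (residue 𝒪 x))
    (ι : Type) (c : ι → 𝒪) (𝔉 : Set (Ideal (MvPolynomial ι 𝒪)))
    (h_le : ∀ I ∈ 𝔉, I ≤ baseIdeal c)
    (h_pow : ∀ I ∈ 𝔉, ∃ n : ℕ, baseIdeal c ^ n ≤ I)
    (h_fin : ∀ I ∈ 𝔉, Finite (MvPolynomial ι 𝒪 ⧸ I))
    (h_top : baseIdeal c ∈ 𝔉)
    (h_inf : ∀ I ∈ 𝔉, ∀ J ∈ 𝔉, I ⊓ J ∈ 𝔉)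
    (h_up : ∀ I ∈ 𝔉, ∀ J : Ideal (MvPolynomial ι 𝒪), I ≤ J → J ≤ baseIdeal c → J ∈ 𝔉)
    (t : ℕ)
    (h_tan : ∀ I ∈ 𝔉,
      Nat.card ((MvPolynomial ι 𝒪 ⧸ I) →ₐ[𝒪] DualNumber (ResidueField 𝒪)) ≤ t) :
    ∃ (R : Type) (_ : CommRing R) (_ : IsLocalRing R) (_ : IsNoetherianRing R)
      (_ : IsAdicComplete (maximalIdeal R) R) (_ : Algebra 𝒪 R)
      (_ : IsLocalHom (algebraMap 𝒪 R)) (x : ι → R),
      Function.Surjective (residue R ∘ algebraMap 𝒪 R) ∧
      (∀ n : ℕ, Ideal.comap (MvPolynomial.aeval x : MvPolynomial ι 𝒪 →ₐ[𝒪] R)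
        (maximalIdeal R ^ (n + 1)) ∈ 𝔉) ∧
      (∀ (A : Type) [CommRing A] [IsLocalRing A] [IsNoetherianRing A]
        [IsAdicComplete (maximalIdeal A) A] [Algebra 𝒪 A] [IsLocalHom (algebraMap 𝒪 A)],
        Function.Surjective (residue A ∘ algebraMap 𝒪 A) →
        ∀ a : ι → A,
          (∀ n : ℕ, Ideal.comap (MvPolynomial.aeval a : MvPolynomial ι 𝒪 →ₐ[𝒪] A)
            (maximalIdeal A ^ (n + 1)) ∈ 𝔉) →
          ∃! φ : R →ₐ[𝒪] A, ∀ i, φ (x i) = a i) := by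
  have H : IsProSystem 𝒪 𝔉 (t + 1) :=
    isProSystem 𝒪 halg ι c 𝔉 h_le h_pow h_fin h_top h_inf t h_tan
  have hloc : IsLocalRing (Lim 𝒪 𝔉) := H.isLocalRing
  have hlocq : ∀ I : 𝔉, IsLocalRing (MvPolynomial ι 𝒪 ⧸ I.1) :=
    fun I => H.quot_isLocalRing I.1 I.2
  obtain ⟨tt, htt⟩ := exists_gens H
  have hcomp : IsAdicComplete (maximalIdeal (Lim 𝒪 𝔉)) (Lim 𝒪 𝔉) := isAdicComplete H tt htt
  have hnoeth : IsNoetherianRing (Lim 𝒪 𝔉) := isNoetherianRing H tt htt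
  have hx : (MvPolynomial.aeval (fun i => ProLimit.ι 𝒪 𝔉 (MvPolynomial.X i)) :
      MvPolynomial ι 𝒪 →ₐ[𝒪] Lim 𝒪 𝔉) = ProLimit.ι 𝒪 𝔉 :=
    MvPolynomial.algHom_ext fun i => by rw [MvPolynomial.aeval_X]
  refine ⟨Lim 𝒪 𝔉, inferInstance, hloc, hnoeth, hcomp, inferInstance,
    isLocalHom_algebraMap H, fun i => ProLimit.ι 𝒪 𝔉 (MvPolynomial.X i),
    ProLimit.residue_surjective H, ?_, ?_⟩
  · intro n
    rw [hx]
    obtain ⟨I, hI⟩ := exists_ker_proj_le_pow H tt htt (n + 1)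
    refine h_up I.1 I.2 _ ?_ ?_
    · intro p hp
      rw [Ideal.mem_comap]
      apply hI
      rw [RingHom.mem_ker]
      exact Ideal.Quotient.eq_zero_iff_mem.mpr hp
    · intro p hp
      rw [Ideal.mem_comap] at hp
      have h1 : ProLimit.ι 𝒪 𝔉 p ∈ maximalIdeal (Lim 𝒪 𝔉) :=
        Ideal.pow_le_self (Nat.succ_ne_zero n) hp
      rw [mem_maximalIdeal_iff H I] at h1
      by_contra hp'
      exact h1 ((isUnit_mk_iff c (h_le I.1 I.2) (h_pow I.1 I.2) p).mpr hp')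
  · intro A _ _ _ _ _ _ hsurjA a ha
    obtain ⟨φ, hφ⟩ := exists_lift (maximalIdeal A) h_inf
      (MvPolynomial.aeval a : MvPolynomial ι 𝒪 →ₐ[𝒪] A) (fun n => by
        rcases n with _ | n
        · exact ⟨_, h_top, fun p _ => by rw [pow_zero, Ideal.one_eq_top]; exact Submodule.mem_top⟩
        · exact ⟨_, ha n, fun p hp => hp⟩)
    refine ⟨φ, fun i => by rw [hφ, MvPolynomial.aeval_X], ?_⟩
    intro φ' hφ'
    have hagree : ∀ p : MvPolynomial ι 𝒪, φ' (ProLimit.ι 𝒪 𝔉 p) = φ (ProLimit.ι 𝒪 𝔉 p) := by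
      intro p
      have h1 : φ'.comp (ProLimit.ι 𝒪 𝔉) = (MvPolynomial.aeval a : MvPolynomial ι 𝒪 →ₐ[𝒪] A) :=
        MvPolynomial.algHom_ext fun i => by
          rw [AlgHom.comp_apply, hφ' i, MvPolynomial.aeval_X]
      rw [hφ, ← h1, AlgHom.comp_apply]
    ext r
    rw [← sub_eq_zero]
    apply IsHausdorff.haus (IsAdicComplete.toIsHausdorff (I := maximalIdeal A))
    intro n
    rw [smodEq_iff, sub_zero]
    obtain ⟨p, hp⟩ := exists_sub_ι_mem_pow H tt htt r n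
    have h1 := algHom_mem_pow hsurjA φ' n hp
    have h2 := algHom_mem_pow hsurjA φ n hp
    have h3 := (maximalIdeal A ^ n).sub_mem h1 h2
    rw [map_sub, map_sub, hagree p, sub_sub_sub_cancel_right] at h3
    exact h3

end Fermat.Agent.S53
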