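import Fermat.Agent.S53.Tangent
import Fermat.Agent.S53.NormalFormE
import Fermat.Agent.S53.ProRep

/-!
# S53: final assembly of the universal deformation ring
-/

set_option autoImplicit false
set_option linter.unusedSectionVars false
set_option linter.style.haveILetI false

namespace Fermat.Agent.S53

open IsLocalRing MvPolynomial

section
variable {𝒪 : Type} [CommRing 𝒪] [IsLocalRing 𝒪]

theorem isEquiv_baseChangeAlong {A B : Type} [CommRing A] [IsLocalRing A] [CommRing B]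
    [IsLocalRing B] (φ : A →+* B) (hφ : IsLocalHom φ) {ρ ρ' : GaloisRepAdic A}
    (h : ρ.IsEquiv ρ') : (ρ.baseChangeAlong φ hφ).IsEquiv (ρ'.baseChangeAlong φ hφ) :=
  let ⟨e⟩ := h; ⟨e.baseChangeAlong φ hφ⟩

theorem ofMat_isEquiv_of_eq {A : Type} [CommRing A] [IsLocalRing A]
    {M M' : GQ → Matrix (Fin 2) (Fin 2) A} (h : M = M') (hM : IsMatRep A M)
    (hM' : IsMatRep A M') : (ofMat M hM).IsEquiv (ofMat M' hM') := by
  subst h
  exact ⟨GaloisRepAdic.Equiv.refl _⟩

theorem eq_zero_of_forall_mem_pow {A : Type} [CommRing A] [IsLocalRing A]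
    [IsAdicComplete (maximalIdeal A) A] (x : A) (h : ∀ n : ℕ, x ∈ maximalIdeal A ^ (n + 1)) :
    x = 0 := by
  refine IsHausdorff.haus (inferInstance : IsHausdorff (maximalIdeal A) A) x fun n => ?_
  rw [SModEq.zero, smul_eq_mul, Ideal.mul_top]
  rcases n with _ | n
  · simp
  · exact h n

/-- The truncations `A ⧸ 𝔪^(n+1)` of a Noetherian local `𝒪`-algebra are Artinian test algebras. -/
theorem quotPow_testAlgebra [Finite (ResidueField 𝒪)] (A : Type) [CommRing A] [IsLocalRing A]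
    [IsNoetherianRing A] [Algebra 𝒪 A] [IsLocalHom (algebraMap 𝒪 A)]
    (hsurj : Function.Surjective (residue A ∘ algebraMap 𝒪 A)) (n : ℕ) :
    ∃ (_ : IsLocalRing (A ⧸ maximalIdeal A ^ (n + 1))),
      GaloisRep.IsArtinianTestAlgebra 𝒪 (A ⧸ maximalIdeal A ^ (n + 1)) ∧
      IsLocalHom (Ideal.Quotient.mkₐ 𝒪 (maximalIdeal A ^ (n + 1)) :
        A →+* A ⧸ maximalIdeal A ^ (n + 1)) := by
  have hne : maximalIdeal A ^ (n + 1) ≠ ⊤ := fun h =>
    (Ideal.IsMaximal.ne_top (inferInstance : (maximalIdeal A).IsMaximal))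
      (top_le_iff.mp (h ▸ Ideal.pow_le_self (Nat.succ_ne_zero n)))
  haveI : Nontrivial (A ⧸ maximalIdeal A ^ (n + 1)) := Ideal.Quotient.nontrivial_iff.mpr hne
  haveI hloc : IsLocalRing (A ⧸ maximalIdeal A ^ (n + 1)) :=
    IsLocalRing.of_surjective' (Ideal.Quotient.mk _) Ideal.Quotient.mk_surjective
  have hmk : IsLocalHom (Ideal.Quotient.mk (maximalIdeal A ^ (n + 1))) :=
    IsLocalHom.of_surjective _ Ideal.Quotient.mk_surjective
  haveI : Finite (ResidueField A) :=
    Finite.of_surjective (ResidueField.map (algebraMap 𝒪 A)) (by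
      intro y
      obtain ⟨x, hx⟩ := hsurj y
      exact ⟨residue 𝒪 x, by simpa using hx⟩)
  haveI : Finite (A ⧸ maximalIdeal A) := ‹Finite (ResidueField A)›
  haveI : Finite (A ⧸ maximalIdeal A ^ (n + 1)) :=
    Ideal.finite_quotient_pow (IsNoetherian.noetherian (maximalIdeal A)) (n + 1)
  refine ⟨hloc, ⟨⟨fun x hx => ?_⟩, ?_, inferInstance⟩, hmk⟩
  · have h1 : IsUnit (Ideal.Quotient.mk (maximalIdeal A ^ (n + 1)) (algebraMap 𝒪 A x)) := hx
    exact IsUnit.of_map (algebraMap 𝒪 A) x (hmk.map_nonunit _ h1)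
  · intro y
    obtain ⟨q, rfl⟩ := residue_surjective y
    obtain ⟨b, rfl⟩ := Ideal.Quotient.mk_surjective q
    obtain ⟨x, hx⟩ := hsurj (residue A b)
    refine ⟨x, ?_⟩
    have h2 : algebraMap 𝒪 A x - b ∈ maximalIdeal A := by
      rw [← residue_eq_zero_iff, map_sub, sub_eq_zero]
      exact hx
    have h3 : Ideal.Quotient.mk (maximalIdeal A ^ (n + 1)) (algebraMap 𝒪 A x - b) ∈
        maximalIdeal (A ⧸ maximalIdeal A ^ (n + 1)) := by
      intro hu
      exact h2 (hmk.map_nonunit _ hu)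
    rw [map_sub, ← residue_eq_zero_iff, map_sub, sub_eq_zero] at h3
    exact h3

end

section main
variable {𝒪 : Type} [CommRing 𝒪] [IsDomain 𝒪] [IsDiscreteValuationRing 𝒪]
  [Finite (ResidueField 𝒪)]
  {ρbar : ResidualGaloisRep (ResidueField 𝒪)}
  {𝒟 : ∀ ⦃A : Type⦄ [CommRing A] [IsLocalRing A] [Algebra 𝒪 A], GaloisRepAdic A → Prop}

/-- For a normalized lift of type `𝒟` over a complete Noetherian local `𝒪`-algebra, all
truncations are admissible. -/
theorem comap_mem_adm_of_normLift (F : Frame 𝒪 ρbar) (h𝒟 : GaloisRep.IsDeformationCondition 𝒪 𝒟)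
    (A : Type) [CommRing A] [IsLocalRing A] [IsNoetherianRing A]
    [IsAdicComplete (maximalIdeal A) A] [Algebra 𝒪 A] [IsLocalHom (algebraMap 𝒪 A)]
    (hsurj : Function.Surjective (residue A ∘ algebraMap 𝒪 A))
    (a : Idx → A) (hN : F.IsNormLift A (matOf a)) (ρA : GaloisRepAdic A) (hD : 𝒟 ρA)
    (he : ρA.IsEquiv (ofMat (matOf a) hN.isMatRep)) (n : ℕ) :
    Ideal.comap (aeval a : MvPolynomial Idx 𝒪 →ₐ[𝒪] A) (maximalIdeal A ^ (n + 1)) ∈ adm F 𝒟 := by
  obtain ⟨hloc, hB, hmk⟩ := quotPow_testAlgebra (𝒪 := 𝒪) A hsurj n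
  have hNq := hN.map (Ideal.Quotient.mkₐ 𝒪 (maximalIdeal A ^ (n + 1))) hmk
  have hfun : (fun σ => (matOf a σ).map (Ideal.Quotient.mkₐ 𝒪 (maximalIdeal A ^ (n + 1)))) =
      matOf (fun x => Ideal.Quotient.mk (maximalIdeal A ^ (n + 1)) (a x)) := by
    funext σ; ext i j; rfl
  have hD1 : 𝒟 (ρA.baseChangeAlong
      (Ideal.Quotient.mkₐ 𝒪 (maximalIdeal A ^ (n + 1)) : A →+* A ⧸ maximalIdeal A ^ (n + 1)) hmk) :=
    (h𝒟.iff_forall_surjective (inferInstance : IsLocalHom (algebraMap 𝒪 A)) hsurj ρA).mp hD hB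
      (Ideal.Quotient.mkₐ 𝒪 (maximalIdeal A ^ (n + 1))) hmk
      (Ideal.Quotient.mkₐ_surjective 𝒪 _)
  have hD2 : 𝒟 (ofMat _ hNq.isMatRep) :=
    h𝒟.of_isEquiv hB (isEquiv_trans (isEquiv_baseChangeAlong _ hmk he)
      (ofMat_baseChangeAlong_isEquiv _ hmk hN.isMatRep)) hD1
  have hNq' : F.IsNormLift (A ⧸ maximalIdeal A ^ (n + 1))
      (matOf (fun x => Ideal.Quotient.mk (maximalIdeal A ^ (n + 1)) (a x))) := hfun ▸ hNq
  have hD3 : 𝒟 (ofMat _ hNq'.isMatRep) := (D_congr hfun hNq.isMatRep hNq'.isMatRep).mp hD2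
  have key := ker_aeval_mem_adm h𝒟 hB _ hNq' hD3
  have hker : RingHom.ker (aeval (fun x => Ideal.Quotient.mk (maximalIdeal A ^ (n + 1)) (a x)) :
      MvPolynomial Idx 𝒪 →ₐ[𝒪] A ⧸ maximalIdeal A ^ (n + 1)) =
      Ideal.comap (aeval a : MvPolynomial Idx 𝒪 →ₐ[𝒪] A) (maximalIdeal A ^ (n + 1)) := by
    have hc : (aeval (fun x => Ideal.Quotient.mk (maximalIdeal A ^ (n + 1)) (a x)) :
        MvPolynomial Idx 𝒪 →ₐ[𝒪] A ⧸ maximalIdeal A ^ (n + 1)) =
        (Ideal.Quotient.mkₐ 𝒪 (maximalIdeal A ^ (n + 1))).comp (aeval a) := by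
      apply MvPolynomial.algHom_ext
      intro x
      simp
    ext p
    rw [RingHom.mem_ker, hc, Ideal.mem_comap, AlgHom.comp_apply, Ideal.Quotient.mkₐ_eq_mk,
      Ideal.Quotient.eq_zero_iff_mem]
  rw [← hker]
  exact key

/-- The universal deformation ring exists, given a frame. -/
theorem nonempty_deformationRingData_of_frame
    [IsAdicComplete (maximalIdeal 𝒪) 𝒪] (F : Frame 𝒪 ρbar)
    (habs : ρbar.IsAbsolutelyIrreducible)
    (h𝒟 : GaloisRep.IsDeformationCondition 𝒪 𝒟)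
    (hbar : 𝒟 (GaloisRepAdic.ofResidualGaloisRep ρbar))
    (hfin : GaloisRep.TangentFinite 𝒪 ρbar 𝒟) :
    Nonempty (GaloisRep.DeformationRingData 𝒪 ρbar 𝒟) := by
  letI := dualAlg 𝒪
  obtain ⟨t, ht⟩ := exists_tangent_bound h𝒟 hfin F
  obtain ⟨R, iCR, iLR, iNR, iAC, iAlg, iLH, x, hsurj, hx, huniv⟩ :=
    exists_prorepresenting 𝒪 (dualAlg_algebraMap 𝒪) Idx F.c (adm F 𝒟)
      (fun I hI => adm_le hI) (fun I hI => adm_pow hI) (fun I hI => adm_finite hI)
      (baseIdeal_mem_adm h𝒟 hbar) (fun I hI J hJ => adm_inf h𝒟 hI hJ)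
      (fun I hI J hIJ hJ => adm_up h𝒟 hI J hIJ hJ) t ht
  have hsep : ∀ r : R, (∀ n : ℕ, r ∈ maximalIdeal R ^ (n + 1)) → r = 0 :=
    fun r hr => eq_zero_of_forall_mem_pow r hr
  have hMu : IsMatRep R (matOf x) := isMatRep_of_forall_hasRels x hsep fun n => (hx n).2.2.2.1
  have hnorm : F.Normalized R (matOf x) :=
    F.normalized_of_forall_normRels x hsep fun n => (hx n).2.2.2.2.1
  have hlifts : F.Lifts R (matOf x) := by
    rw [F.lifts_iff]
    intro i
    have h0 := hx 0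
    rw [zero_add, pow_one] at h0
    obtain ⟨n, hn⟩ := adm_pow h0
    have hprime : (Ideal.comap (aeval x : MvPolynomial Idx 𝒪 →ₐ[𝒪] R) (maximalIdeal R)).IsPrime :=
      Ideal.comap_isPrime _ _
    have h1 := hprime.le_of_pow_le hn (X_sub_C_mem_baseIdeal F.c i)
    simpa [Ideal.mem_comap] using h1
  have hNu : F.IsNormLift R (matOf x) := ⟨hMu, hlifts, hnorm⟩
  refine ⟨{ R := R, instCommRing := iCR, instIsLocalRing := iLR, instIsNoetherianRing := iNR,
            instIsAdicComplete := iAC, instAlgebra := iAlg, instIsLocalHom := iLH,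
            residue_surjective := hsurj, absIrr := habs, ρ := ofMat (matOf x) hMu,
            isOfType := ?_, residual_isEquiv := ?_, universal := ?_ }⟩
  · -- the universal lift is of type `𝒟`
    refine (h𝒟.iff_forall_surjective iLH hsurj (ofMat (matOf x) hMu)).mpr ?_
    intro B _ _ _ hB q hq _
    obtain ⟨n, hn⟩ := exists_maximalIdeal_pow_eq_bot hB
    have hNq := hNu.map q hq
    have hfun : (fun σ => (matOf x σ).map q) = matOf (fun i => q (x i)) := by
      funext σ; ext i j; rfl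
    have hNq' : F.IsNormLift B (matOf (fun i => q (x i))) := hfun ▸ hNq
    have hlift := (F.lifts_iff _).mp hNq'.lifts
    have hKle : RingHom.ker (aeval (fun i => q (x i)) : MvPolynomial Idx 𝒪 →ₐ[𝒪] B) ≤
        baseIdeal F.c := by
      rw [← comap_aeval_maximalIdeal F.c hB.isLocalHom _ hlift]
      intro p hp
      rw [Ideal.mem_comap, (RingHom.mem_ker).mp hp]
      exact Ideal.zero_mem _
    have hc : (aeval (fun i => q (x i)) : MvPolynomial Idx 𝒪 →ₐ[𝒪] B) = q.comp (aeval x) := by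
      apply MvPolynomial.algHom_ext
      intro i
      simp
    have hIK : Ideal.comap (aeval x : MvPolynomial Idx 𝒪 →ₐ[𝒪] R) (maximalIdeal R ^ (n + 1)) ≤
        RingHom.ker (aeval (fun i => q (x i)) : MvPolynomial Idx 𝒪 →ₐ[𝒪] B) := by
      intro p hp
      rw [RingHom.mem_ker, hc, AlgHom.comp_apply]
      have h1 : q (aeval x p) ∈ (maximalIdeal R ^ (n + 1)).map (q : R →+* B) :=
        Ideal.mem_map_of_mem _ hp
      have h2 : (maximalIdeal R ^ (n + 1)).map (q : R →+* B) ≤ maximalIdeal B ^ (n + 1) := by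
        rw [Ideal.map_pow]
        refine Ideal.pow_right_mono ?_ _
        rw [Ideal.map_le_iff_le_comap]
        intro r hr
        rw [Ideal.mem_comap]
        intro hu
        exact hr (hq.map_nonunit _ hu)
      have h3 := h2 h1
      rw [pow_succ, hn, Ideal.bot_mul] at h3
      exact h3
    have hK := adm_up h𝒟 (hx n) _ hIK hKle
    haveI := adm_isLocalRing hK
    have hA := adm_testAlgebra hK
    have hφ := isLocalHom_algHom hB.residue_surjective
      (Ideal.kerLiftAlg (aeval (fun i => q (x i)) : MvPolynomial Idx 𝒪 →ₐ[𝒪] B))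
    have hMK := (adm_isNormLift hK).isMatRep
    have hD1 := D_map h𝒟 hA hB _ hφ hMK (hMK.map _ hφ) (adm_D hK hMK)
    have hmap : (fun σ => (matOf (taut (RingHom.ker
        (aeval (fun i => q (x i)) : MvPolynomial Idx 𝒪 →ₐ[𝒪] B))) σ).map
        (Ideal.kerLiftAlg (aeval (fun i => q (x i)) : MvPolynomial Idx 𝒪 →ₐ[𝒪] B))) =
        (fun σ => (matOf x σ).map q) := by
      funext σ
      ext i j
      simp [taut]
    have hD2 : 𝒟 (ofMat (fun σ => (matOf x σ).map q) (hMu.map _ hq)) :=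
      (D_congr hmap _ _).mp hD1
    exact h𝒟.of_isEquiv hB (isEquiv_symm (ofMat_baseChangeAlong_isEquiv _ hq hMu)) hD2
  · -- residual representation
    letI : Algebra (ResidueField 𝒪) (ResidueField R) :=
      (ResidueField.map (algebraMap 𝒪 R)).toAlgebra
    exact F.residual_isEquiv R (fun y => by
      rw [RingHom.algebraMap_toAlgebra, ResidueField.map_residue]) hMu hlifts
  · -- universal property
    intro A _ _ _ _ _ _ hsurjA ρA hDA hresA
    letI : Algebra (ResidueField 𝒪) (ResidueField A) :=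
      (ResidueField.map (algebraMap 𝒪 A)).toAlgebra
    have hcompat : ∀ y : 𝒪, algebraMap (ResidueField 𝒪) (ResidueField A) (residue 𝒪 y) =
        residue A (algebraMap 𝒪 A y) := fun y => by
      rw [RingHom.algebraMap_toAlgebra, ResidueField.map_residue]
    obtain ⟨M0, hM0, hl0, he0⟩ := F.exists_lift_of_residual A hcompat ρA hresA
    obtain ⟨M, hMN, Q, hQ, hQM⟩ := F.exists_normalize A hM0 hl0
    have he : ρA.IsEquiv (ofMat M hMN.isMatRep) :=
      isEquiv_trans he0 (ofMat_isEquiv_of_conj hM0 hMN.isMatRep Q hQ hQM)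
    have hent : matOf (fun i : Idx => M i.1 i.2.1 i.2.2) = M := matOf_entries M
    have hN' : F.IsNormLift A (matOf (fun i : Idx => M i.1 i.2.1 i.2.2)) := hent.symm ▸ hMN
    have he' : ρA.IsEquiv (ofMat _ hN'.isMatRep) :=
      isEquiv_trans he (ofMat_isEquiv_of_eq hent.symm _ _)
    have hadm := comap_mem_adm_of_normLift F h𝒟 A hsurjA _ hN' ρA hDA he'
    obtain ⟨φ, hφ, hφuniq⟩ := huniv A hsurjA _ hadm
    have hφloc : IsLocalHom (φ : R →+* A) := isLocalHom_algHom hsurjA φ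
    have hfunφ : (fun σ => (matOf x σ).map φ) = M := by
      funext σ; ext i j
      exact hφ (σ, i, j)
    refine ⟨φ, ⟨hφloc, ?_⟩, ?_⟩
    · exact isEquiv_trans (ofMat_baseChangeAlong_isEquiv _ hφloc hMu)
        (isEquiv_trans (ofMat_isEquiv_of_eq hfunφ _ _) (isEquiv_symm he))
    · rintro φ' ⟨hφ', heq'⟩
      apply hφuniq
      have h1 : (ofMat (fun σ => (matOf x σ).map φ') (hMu.map _ hφ')).IsEquiv
          (ofMat M hMN.isMatRep) :=
        isEquiv_trans (isEquiv_symm (ofMat_baseChangeAlong_isEquiv _ hφ' hMu))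
          (isEquiv_trans heq' he)
      obtain ⟨Q', hQ', hQM'⟩ := exists_conj_of_isEquiv _ _ h1
      have h2 := F.normLift_unique A (hNu.map φ' hφ') hMN Q' hQ' hQM'
      intro i
      have h3 := congrFun (congrFun (congrFun h2 i.1) i.2.1) i.2.2
      simpa using h3

end main

end Fermat.Agent.S53
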