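import Fermat.Agent.S53.Defs

/-!
# S53: an absolutely irreducible residual representation admits a frame
-/

set_option autoImplicit false

namespace Fermat.Agent.S53

open IsLocalRing

namespace FrameExists

open scoped TensorProduct

/-- If the first column of `C` is `(0, 1)` and the first column of the commutator `[C, Y]`
vanishes, then `C` and `Y` commute. -/
theorem comm_of_col_zero {k : Type} [CommRing k] (C Y : Matrix (Fin 2) (Fin 2) k)
    (h0 : C 0 0 = 0) (h1 : C 1 0 = 1)
    (c0 : (C * Y - Y * C) 0 0 = 0) (c1 : (C * Y - Y * C) 1 0 = 0) : C * Y = Y * C := by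
  simp only [Matrix.sub_apply, Matrix.mul_apply, Fin.sum_univ_two, h0, h1] at c0 c1
  ext i j
  fin_cases i <;> fin_cases j
  · simp only [Fin.zero_eta, Matrix.mul_apply, Fin.sum_univ_two, h0, h1]
    linear_combination c0
  · simp only [Fin.zero_eta, Fin.mk_one, Matrix.mul_apply, Fin.sum_univ_two, h0]
    linear_combination (C 1 1) * c0 - (C 0 1) * c1
  · simp only [Fin.zero_eta, Fin.mk_one, Matrix.mul_apply, Fin.sum_univ_two, h0, h1]
    linear_combination c1
  · simp only [Fin.mk_one, Matrix.mul_apply, Fin.sum_univ_two, h1]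
    linear_combination (-1 : k) * c0

/-- An absolutely irreducible two-dimensional representation has non-commuting image. -/
theorem exists_not_commute {k : Type} [Field k] (ρbar : ResidualGaloisRep k)
    (habs : ρbar.IsAbsolutelyIrreducible) :
    ∃ g h : GQ, ρbar.ρ g * ρbar.ρ h ≠ ρbar.ρ h * ρbar.ρ g := by
  by_contra hcon
  push Not at hcon
  have hfin : Module.finrank (AlgebraicClosure k) (AlgebraicClosure k ⊗[k] ρbar.V) = 2 := by
    rw [Module.finrank_baseChange, ρbar.finrank_eq]
  have : Module.Finite (AlgebraicClosure k) (AlgebraicClosure k ⊗[k] ρbar.V) :=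
    Module.finite_of_finrank_eq_succ hfin
  have : Nontrivial (AlgebraicClosure k ⊗[k] ρbar.V) :=
    Module.nontrivial_of_finrank_eq_succ hfin
  have hTcomm : ∀ σ τ : GQ, (ρbar.ρ σ).baseChange (AlgebraicClosure k) *
      (ρbar.ρ τ).baseChange (AlgebraicClosure k) =
      (ρbar.ρ τ).baseChange (AlgebraicClosure k) * (ρbar.ρ σ).baseChange (AlgebraicClosure k) := by
    intro σ τ
    rw [← LinearMap.baseChange_mul, ← LinearMap.baseChange_mul, hcon σ τ]
  -- every `T σ` is a scalar
  have hscal : ∀ σ : GQ, ∃ μ : AlgebraicClosure k, ∀ x : AlgebraicClosure k ⊗[k] ρbar.V,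
      (ρbar.ρ σ).baseChange (AlgebraicClosure k) x = μ • x := by
    intro σ
    obtain ⟨μ, hμ⟩ := Module.End.exists_eigenvalue ((ρbar.ρ σ).baseChange (AlgebraicClosure k))
    refine ⟨μ, ?_⟩
    have hE := habs (Module.End.eigenspace ((ρbar.ρ σ).baseChange (AlgebraicClosure k)) μ) ?_
    · rcases hE with hE | hE
      · exact absurd hE hμ
      · intro x
        have hx : x ∈ Module.End.eigenspace ((ρbar.ρ σ).baseChange (AlgebraicClosure k)) μ :=
          hE ▸ Submodule.mem_top
        exact Module.End.mem_eigenspace_iff.mp hx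
    · intro τ x hx
      rw [Module.End.mem_eigenspace_iff] at hx ⊢
      show (ρbar.ρ σ).baseChange (AlgebraicClosure k)
        ((ρbar.ρ τ).baseChange (AlgebraicClosure k) x) =
        μ • (ρbar.ρ τ).baseChange (AlgebraicClosure k) x
      have h2 := congrArg (fun f => f x) (hTcomm σ τ)
      simp only [Module.End.mul_apply] at h2
      rw [h2, hx, map_smul]
  obtain ⟨v, hv⟩ := exists_ne (0 : AlgebraicClosure k ⊗[k] ρbar.V)
  have hW := habs (Submodule.span (AlgebraicClosure k) {v}) ?_
  · rcases hW with hW | hW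
    · rw [Submodule.span_singleton_eq_bot] at hW
      exact hv hW
    · have h1 := finrank_span_singleton (K := AlgebraicClosure k) hv
      rw [hW, finrank_top, hfin] at h1
      omega
  · intro τ x hx
    obtain ⟨μ, hμ⟩ := hscal τ
    show (ρbar.ρ τ).baseChange (AlgebraicClosure k) x ∈ _
    rw [hμ x]
    exact Submodule.smul_mem _ _ hx

end FrameExists

theorem exists_frame (𝒪 : Type) [CommRing 𝒪] [IsLocalRing 𝒪]
    (ρbar : ResidualGaloisRep (ResidueField 𝒪)) (habs : ρbar.IsAbsolutelyIrreducible) :
    Nonempty (Frame 𝒪 ρbar) := by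
  obtain ⟨g, h, hgh⟩ := FrameExists.exists_not_commute ρbar habs
  -- `ρbar.ρ g` is not a scalar
  have hns : ¬ ∃ a : ResidueField 𝒪, ρbar.ρ g = a • 1 := by
    rintro ⟨a, ha⟩
    apply hgh
    rw [ha]
    ext x
    simp
  have hex : ∃ v, LinearIndependent (ResidueField 𝒪) ![v, ρbar.ρ g v] := by
    by_contra hcon
    push Not at hcon
    exact hns (LinearMap.exists_eq_smul_id_of_forall_notLinearIndependent hcon)
  obtain ⟨v, hv⟩ := hex
  let b : Module.Basis (Fin 2) (ResidueField 𝒪) ρbar.V :=
    basisOfLinearIndependentOfCardEqFinrank hv (by simp [ρbar.finrank_eq])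
  have hb0 : b 0 = v := by simp [b]
  have hb1 : b 1 = ρbar.ρ g v := by simp [b]
  have hgb : ρbar.ρ g (b 0) = b 1 := by rw [hb0, hb1]
  have hg0 : LinearMap.toMatrix b b (ρbar.ρ g) 0 0 = 0 := by
    rw [LinearMap.toMatrix_apply, hgb]
    simp
  have hg1 : LinearMap.toMatrix b b (ρbar.ρ g) 1 0 = 1 := by
    rw [LinearMap.toMatrix_apply, hgb]
    simp
  have hi0 : ∃ i0 : Fin 2, (LinearMap.toMatrix b b (ρbar.ρ g) * LinearMap.toMatrix b b (ρbar.ρ h) -
      LinearMap.toMatrix b b (ρbar.ρ h) * LinearMap.toMatrix b b (ρbar.ρ g)) i0 0 ≠ 0 := by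
    by_contra hcon
    push Not at hcon
    have hc := FrameExists.comm_of_col_zero _ _ hg0 hg1 (hcon 0) (hcon 1)
    apply hgh
    rw [← LinearMap.toMatrix_mul, ← LinearMap.toMatrix_mul] at hc
    exact (LinearMap.toMatrix b b).injective hc
  obtain ⟨i0, hi0⟩ := hi0
  exact ⟨{ b := b
           g := g
           h := h
           i0 := i0
           cl := fun σ => Matrix.of fun i j =>
             Function.surjInv IsLocalRing.residue_surjective
               (LinearMap.toMatrix b b (ρbar.ρ σ) i j)
           cl_spec := fun σ i j => Function.surjInv_eq IsLocalRing.residue_surjective _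
           hg0 := hg0
           hg1 := hg1
           hcomm := hi0 }⟩

end Fermat.Agent.S53
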