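import Fermat.Agent.S53.Defs

/-!
# S53 plumbing: matrix representations versus `GaloisRepAdic`
-/

set_option autoImplicit false

namespace Fermat.Agent.S53

open IsLocalRing

namespace Plumbing

theorem map_maximalIdeal_pow_le {A B : Type} [CommRing A] [IsLocalRing A] [CommRing B]
    [IsLocalRing B] (φ : A →+* B) (hφ : IsLocalHom φ) (n : ℕ) {a : A}
    (ha : a ∈ maximalIdeal A ^ n) : φ a ∈ maximalIdeal B ^ n := by
  have hmap : (maximalIdeal A ^ n).map φ ≤ maximalIdeal B ^ n := by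
    rw [Ideal.map_pow]
    exact Ideal.pow_right_mono (Ideal.map_le_iff_le_comap.mpr fun a ha =>
      Ideal.mem_comap.mpr (haveI := hφ; map_nonunit φ a ha)) n
  exact hmap (Ideal.mem_map_of_mem φ ha)

theorem repr_mem_of_mem_smul_top {A V : Type} [CommRing A] [AddCommGroup V] [Module A V]
    (I : Ideal A) (b : Module.Basis (Fin 2) A V) {x : V}
    (hx : x ∈ I • (⊤ : Submodule A V)) (i : Fin 2) : b.repr x i ∈ I := by
  refine Submodule.smul_induction_on (p := fun x => b.repr x i ∈ I) hx ?_ ?_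
  · intro a ha w _
    rw [map_smul, Finsupp.smul_apply, smul_eq_mul]
    exact Ideal.mul_mem_right _ _ ha
  · intro x y hx hy
    rw [map_add, Finsupp.add_apply]
    exact Ideal.add_mem _ hx hy

end Plumbing

section
variable {A : Type} [CommRing A] [IsLocalRing A]

theorem IsMatRep.map {B : Type} [CommRing B] [IsLocalRing B] (φ : A →+* B) (hφ : IsLocalHom φ)
    {M : GQ → Matrix (Fin 2) (Fin 2) A} (hM : IsMatRep A M) :
    IsMatRep B (fun σ => (M σ).map φ) := by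
  refine ⟨?_, ?_, ?_⟩
  · show (M 1).map φ = 1
    rw [hM.map_one]
    exact Matrix.map_one φ (_root_.map_zero φ) (_root_.map_one φ)
  · intro σ τ
    show (M (σ * τ)).map φ = (M σ).map φ * (M τ).map φ
    rw [hM.map_mul, Matrix.map_mul]
  · intro n
    obtain ⟨L, hL, h⟩ := hM.cont n
    refine ⟨L, hL, fun σ hσ i j => ?_⟩
    have h1 : ((M σ).map φ - 1) i j = φ ((M σ - 1) i j) := by
      rw [Matrix.sub_apply, Matrix.sub_apply, Matrix.map_apply, map_sub, Matrix.one_apply,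
        Matrix.one_apply]
      split_ifs <;> simp
    rw [h1]
    exact Plumbing.map_maximalIdeal_pow_le φ hφ n (h σ hσ i j)

theorem IsMatRep.conj {M M' : GQ → Matrix (Fin 2) (Fin 2) A} (hM : IsMatRep A M)
    (Q : Matrix (Fin 2) (Fin 2) A) (hQ : IsUnit Q) (h : ∀ σ, Q * M σ = M' σ * Q) :
    IsMatRep A M' := by
  refine ⟨?_, ?_, ?_⟩
  · have h1 := h 1
    rw [hM.map_one, mul_one] at h1
    exact (hQ.mul_left_inj.mp (by rw [one_mul, ← h1])).symm
  · intro σ τ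
    refine hQ.mul_left_inj.mp ?_
    rw [← h, hM.map_mul, ← mul_assoc, h, mul_assoc, h, mul_assoc]
  · intro n
    obtain ⟨L, hL, hc⟩ := hM.cont n
    refine ⟨L, hL, fun σ hσ i j => ?_⟩
    obtain ⟨u, rfl⟩ := hQ
    have h2 : M' σ - 1 = (u : Matrix (Fin 2) (Fin 2) A) * (M σ - 1) *
        ((u⁻¹ : (Matrix (Fin 2) (Fin 2) A)ˣ) : Matrix (Fin 2) (Fin 2) A) := by
      rw [mul_sub, sub_mul, mul_one, u.mul_inv, h, mul_assoc, u.mul_inv, mul_one]
    rw [h2, Matrix.mul_apply]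
    refine Ideal.sum_mem _ fun k _ => Ideal.mul_mem_right _ _ ?_
    rw [Matrix.mul_apply]
    exact Ideal.sum_mem _ fun l _ => Ideal.mul_mem_left _ _ (hc σ hσ l k)

theorem ofMat_isEquiv_of_conj {M M' : GQ → Matrix (Fin 2) (Fin 2) A} (hM : IsMatRep A M)
    (hM' : IsMatRep A M') (Q : Matrix (Fin 2) (Fin 2) A) (hQ : IsUnit Q)
    (h : ∀ σ, Q * M σ = M' σ * Q) : (ofMat M hM).IsEquiv (ofMat M' hM') := by
  obtain ⟨u, rfl⟩ := hQ
  let e : (Fin 2 → A) ≃ₗ[A] (Fin 2 → A) :=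
    LinearEquiv.ofLinearMap (Matrix.toLin' (u : Matrix (Fin 2) (Fin 2) A))
      (Matrix.toLin' ((u⁻¹ : (Matrix (Fin 2) (Fin 2) A)ˣ) : Matrix (Fin 2) (Fin 2) A))
      (by rw [← Matrix.toLin'_mul, u.mul_inv, Matrix.toLin'_one])
      (by rw [← Matrix.toLin'_mul, u.inv_mul, Matrix.toLin'_one])
  have key : ∀ (σ : GQ) (x : Fin 2 → A),
      Matrix.toLin' (u : Matrix (Fin 2) (Fin 2) A) (Matrix.toLin' (M σ) x) =
        Matrix.toLin' (M' σ) (Matrix.toLin' (u : Matrix (Fin 2) (Fin 2) A) x) := by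
    intro σ x
    rw [← Matrix.toLin'_mul_apply, ← Matrix.toLin'_mul_apply, h]
  exact ⟨⟨e, fun σ x => key σ x⟩⟩

theorem exists_conj_of_isEquiv {M M' : GQ → Matrix (Fin 2) (Fin 2) A} (hM : IsMatRep A M)
    (hM' : IsMatRep A M') (h : (ofMat M hM).IsEquiv (ofMat M' hM')) :
    ∃ Q : Matrix (Fin 2) (Fin 2) A, IsUnit Q ∧ ∀ σ, Q * M σ = M' σ * Q := by
  obtain ⟨e⟩ := h
  let f : (Fin 2 → A) ≃ₗ[A] (Fin 2 → A) := e.toLinearEquiv
  have hf : ∀ σ x, f (Matrix.toLin' (M σ) x) = Matrix.toLin' (M' σ) (f x) := e.map_apply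
  have hu1 : LinearMap.toMatrix' (f : (Fin 2 → A) →ₗ[A] (Fin 2 → A)) *
      LinearMap.toMatrix' (f.symm : (Fin 2 → A) →ₗ[A] (Fin 2 → A)) = 1 := by
    rw [← LinearMap.toMatrix'_comp, LinearEquiv.comp_symm, LinearMap.toMatrix'_id]
  have hu2 : LinearMap.toMatrix' (f.symm : (Fin 2 → A) →ₗ[A] (Fin 2 → A)) *
      LinearMap.toMatrix' (f : (Fin 2 → A) →ₗ[A] (Fin 2 → A)) = 1 := by
    rw [← LinearMap.toMatrix'_comp, LinearEquiv.symm_comp, LinearMap.toMatrix'_id]
  refine ⟨LinearMap.toMatrix' (f : (Fin 2 → A) →ₗ[A] (Fin 2 → A)), ⟨⟨_, _, hu1, hu2⟩, rfl⟩,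
    fun σ => ?_⟩
  have h1 : (f : (Fin 2 → A) →ₗ[A] (Fin 2 → A)) ∘ₗ Matrix.toLin' (M σ) =
      Matrix.toLin' (M' σ) ∘ₗ (f : (Fin 2 → A) →ₗ[A] (Fin 2 → A)) :=
    LinearMap.ext (hf σ)
  have h2 := congrArg LinearMap.toMatrix' h1
  rw [LinearMap.toMatrix'_comp, LinearMap.toMatrix'_comp, LinearMap.toMatrix'_toLin',
    LinearMap.toMatrix'_toLin'] at h2
  exact h2

theorem ofMat_baseChangeAlong_isEquiv {B : Type} [CommRing B] [IsLocalRing B] (φ : A →+* B)
    (hφ : IsLocalHom φ) {M : GQ → Matrix (Fin 2) (Fin 2) A} (hM : IsMatRep A M) :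
    ((ofMat M hM).baseChangeAlong φ hφ).IsEquiv (ofMat (fun σ => (M σ).map φ) (hM.map φ hφ)) := by
  let _ : Algebra A B := φ.toAlgebra
  let e : TensorProduct A B (Fin 2 → A) ≃ₗ[B] (Fin 2 → B) :=
    TensorProduct.piScalarRight A B B (Fin 2)
  have key : ∀ (σ : GQ) (x : TensorProduct A B (Fin 2 → A)),
      e ((Matrix.toLin' (M σ)).baseChange B x) = Matrix.toLin' ((M σ).map φ) (e x) := by
    intro σ x
    induction x using TensorProduct.induction_on with
    | zero => rw [map_zero, map_zero, map_zero]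
    | tmul b v =>
      rw [LinearMap.baseChange_tmul]
      show TensorProduct.piScalarRight A B B (Fin 2) (b ⊗ₜ[A] (Matrix.toLin' (M σ) v)) =
        Matrix.toLin' ((M σ).map φ) (TensorProduct.piScalarRight A B B (Fin 2) (b ⊗ₜ[A] v))
      rw [TensorProduct.piScalarRight_apply, TensorProduct.piScalarRightHom_tmul,
        TensorProduct.piScalarRight_apply, TensorProduct.piScalarRightHom_tmul]
      funext i
      simp only [Matrix.toLin'_apply, Matrix.mulVec, dotProduct, Matrix.map_apply,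
        Algebra.smul_def, RingHom.algebraMap_toAlgebra, map_sum, map_mul, Finset.sum_mul,
        mul_assoc]
    | add x y hx hy => rw [map_add, map_add, map_add, map_add, hx, hy]
  exact ⟨⟨e, fun σ x => key σ x⟩⟩

theorem exists_ofMat_isEquiv (ρ : GaloisRepAdic A) (b : Module.Basis (Fin 2) A ρ.V) :
    ∃ hM : IsMatRep A (fun σ => LinearMap.toMatrix b b (ρ.ρ σ)), ρ.IsEquiv (ofMat _ hM) := by
  have hM : IsMatRep A (fun σ => LinearMap.toMatrix b b (ρ.ρ σ)) := by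
    refine ⟨?_, ?_, ?_⟩
    · show LinearMap.toMatrix b b (ρ.ρ 1) = 1
      rw [map_one]
      exact LinearMap.toMatrix_one b
    · intro σ τ
      show LinearMap.toMatrix b b (ρ.ρ (σ * τ)) =
        LinearMap.toMatrix b b (ρ.ρ σ) * LinearMap.toMatrix b b (ρ.ρ τ)
      rw [map_mul]
      exact LinearMap.toMatrix_mul b (ρ.ρ σ) (ρ.ρ τ)
    · intro n
      obtain ⟨L, hL, hc⟩ := ρ.isAdicContinuous n
      refine ⟨L, hL, fun σ hσ i j => ?_⟩
      have h1 : (LinearMap.toMatrix b b (ρ.ρ σ) - 1) i j = b.repr (ρ.ρ σ (b j) - b j) i := by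
        rw [Matrix.sub_apply, LinearMap.toMatrix_apply, map_sub, Finsupp.sub_apply,
          Module.Basis.repr_self, Matrix.one_apply, Finsupp.single_apply]
        simp only [eq_comm]
      rw [h1]
      exact Plumbing.repr_mem_of_mem_smul_top _ b (hc σ hσ (b j)) i
  refine ⟨hM, ⟨⟨b.equivFun, fun σ x => ?_⟩⟩⟩
  show b.equivFun (ρ.ρ σ x) = Matrix.toLin' (LinearMap.toMatrix b b (ρ.ρ σ)) (b.equivFun x)
  rw [Matrix.toLin'_apply]
  exact (LinearMap.toMatrix_mulVec_repr b b (ρ.ρ σ) x).symm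

end

end Fermat.Agent.S53
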