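import Fermat.Agent.S53.Rels
import Fermat.Agent.S53.Plumbing

/-!
# S53: admissible ideals, part 1 (normalization relations, lifts, local homs)
-/

set_option autoImplicit false

namespace Fermat.Agent.S53

open IsLocalRing MvPolynomial

section
variable {𝒪 : Type} [CommRing 𝒪] [IsLocalRing 𝒪]

/-- An `𝒪`-algebra hom between local `𝒪`-algebras is local as soon as the residue field of the
target is generated by `𝒪`. -/
theorem isLocalHom_algHom {A B : Type} [CommRing A] [IsLocalRing A] [Algebra 𝒪 A]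
    [CommRing B] [IsLocalRing B] [Algebra 𝒪 B]
    (hsurj : Function.Surjective (residue B ∘ algebraMap 𝒪 B)) (φ : A →ₐ[𝒪] B) :
    IsLocalHom (φ : A →+* B) := by
  refine ⟨fun a ha => ?_⟩
  by_contra hna
  have hψ : Function.Surjective ((residue B).comp (φ : A →+* B)) := by
    intro y
    obtain ⟨x, hx⟩ := hsurj y
    refine ⟨algebraMap 𝒪 A x, ?_⟩
    simpa using hx
  have hmax := RingHom.ker_isMaximal_of_surjective _ hψ
  have h1 : a ∈ RingHom.ker ((residue B).comp (φ : A →+* B)) := by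
    rw [IsLocalRing.eq_maximalIdeal hmax]
    exact hna
  have h2 : residue B (φ a) = 0 := h1
  exact (residue_eq_zero_iff _).mp h2 ha

/-- An Artinian test algebra over a ring with finite residue field is finite. -/
theorem finite_of_isArtinianTestAlgebra [Finite (ResidueField 𝒪)] {B : Type} [CommRing B]
    [IsLocalRing B] [Algebra 𝒪 B] (hB : GaloisRep.IsArtinianTestAlgebra 𝒪 B) : Finite B := by
  have := hB.isArtinian
  have := hB.isLocalHom
  have : Finite (ResidueField B) :=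
    Finite.of_surjective (ResidueField.map (algebraMap 𝒪 B)) (by
      intro y
      obtain ⟨x, hx⟩ := hB.residue_surjective y
      exact ⟨residue 𝒪 x, by simpa using hx⟩)
  obtain ⟨n, hn⟩ := (isArtinianRing_iff_isNilpotent_maximalIdeal B).mp inferInstance
  have : Finite (B ⧸ (⊥ : Ideal B)) :=
    IsLocalRing.finite_quotient_iff.mpr ⟨n, by rw [hn]; exact le_refl _⟩
  exact Finite.of_equiv _ (RingEquiv.quotientBot B).toEquiv

theorem exists_maximalIdeal_pow_eq_bot {B : Type} [CommRing B]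
    [IsLocalRing B] [Algebra 𝒪 B] (hB : GaloisRep.IsArtinianTestAlgebra 𝒪 B) :
    ∃ n : ℕ, maximalIdeal B ^ n = ⊥ := by
  have := hB.isArtinian
  exact (isArtinianRing_iff_isNilpotent_maximalIdeal B).mp inferInstance

variable {ι : Type} (c : ι → 𝒪)

/-- If `a` lifts the base point, the preimage of the maximal ideal under `aeval a` is the base
ideal. -/
theorem comap_aeval_maximalIdeal {A : Type} [CommRing A] [IsLocalRing A] [Algebra 𝒪 A]
    (hloc : IsLocalHom (algebraMap 𝒪 A)) (a : ι → A)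
    (ha : ∀ i, a i - algebraMap 𝒪 A (c i) ∈ maximalIdeal A) :
    Ideal.comap (aeval a : MvPolynomial ι 𝒪 →ₐ[𝒪] A) (maximalIdeal A) = baseIdeal c := by
  haveI := hloc
  have hf : (residue A).comp ((aeval a : MvPolynomial ι 𝒪 →ₐ[𝒪] A) : MvPolynomial ι 𝒪 →+* A) =
      (ResidueField.map (algebraMap 𝒪 A)).comp
        ((evk c : MvPolynomial ι 𝒪 →ₐ[𝒪] ResidueField 𝒪) : MvPolynomial ι 𝒪 →+* ResidueField 𝒪) := by
    apply MvPolynomial.ringHom_ext
    · intro x
      simp [ResidueField.algebraMap_eq]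
    · intro i
      have h1 := (residue_eq_zero_iff _).mpr (ha i)
      rw [map_sub, sub_eq_zero] at h1
      simp [h1]
  have hle : baseIdeal c ≤ Ideal.comap (aeval a : MvPolynomial ι 𝒪 →ₐ[𝒪] A) (maximalIdeal A) := by
    intro p hp
    rw [Ideal.mem_comap, ← residue_eq_zero_iff]
    have h2 := congrArg (fun f => f p) hf
    simp only [RingHom.comp_apply, RingHom.coe_coe] at h2
    rw [h2, (mem_baseIdeal_iff c p).mp hp, map_zero]
  have hne : Ideal.comap (aeval a : MvPolynomial ι 𝒪 →ₐ[𝒪] A) (maximalIdeal A) ≠ ⊤ :=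
    Ideal.comap_ne_top _ (Ideal.IsMaximal.ne_top inferInstance)
  exact ((baseIdeal_isMaximal c).eq_of_le hne hle).symm

theorem baseIdeal_pow_le_comap {A : Type} [CommRing A] [IsLocalRing A] [Algebra 𝒪 A]
    (hloc : IsLocalHom (algebraMap 𝒪 A)) (a : ι → A)
    (ha : ∀ i, a i - algebraMap 𝒪 A (c i) ∈ maximalIdeal A) (n : ℕ) :
    baseIdeal c ^ n ≤ Ideal.comap (aeval a : MvPolynomial ι 𝒪 →ₐ[𝒪] A) (maximalIdeal A ^ n) := by
  rw [← comap_aeval_maximalIdeal c hloc a ha]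
  exact Ideal.le_comap_pow _ n

end

section
variable {𝒪 : Type} [CommRing 𝒪] [IsLocalRing 𝒪] {ρbar : ResidualGaloisRep (ResidueField 𝒪)}
  (F : Frame 𝒪 ρbar)

/-- The base point of the polynomial ring attached to a frame. -/
def Frame.c (x : Idx) : 𝒪 := F.cl x.1 x.2.1 x.2.2

/-- An ideal of `P` contains the normalization relations. -/
structure Frame.NormRels (I : Ideal (MvPolynomial Idx 𝒪)) : Prop where
  g0 : (X (F.g, 0, 0) : MvPolynomial Idx 𝒪) ∈ I
  g1 : (X (F.g, 1, 0) - 1 : MvPolynomial Idx 𝒪) ∈ I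
  h0 : (X (F.h, F.i0, 0) - C (F.cl F.h F.i0 0) : MvPolynomial Idx 𝒪) ∈ I

variable {F}

theorem Frame.NormRels.mono {I J : Ideal (MvPolynomial Idx 𝒪)} (h : F.NormRels I) (hIJ : I ≤ J) :
    F.NormRels J :=
  ⟨hIJ h.g0, hIJ h.g1, hIJ h.h0⟩

theorem Frame.NormRels.inf {I J : Ideal (MvPolynomial Idx 𝒪)} (hI : F.NormRels I)
    (hJ : F.NormRels J) : F.NormRels (I ⊓ J) :=
  ⟨⟨hI.g0, hJ.g0⟩, ⟨hI.g1, hJ.g1⟩, ⟨hI.h0, hJ.h0⟩⟩

variable (F)

theorem Frame.normRels_comap_iff {A : Type} [CommRing A] [Algebra 𝒪 A] (a : Idx → A)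
    (K : Ideal A) :
    F.NormRels (Ideal.comap (aeval a : MvPolynomial Idx 𝒪 →ₐ[𝒪] A) K) ↔
      (a (F.g, 0, 0) ∈ K ∧ a (F.g, 1, 0) - 1 ∈ K ∧
        a (F.h, F.i0, 0) - algebraMap 𝒪 A (F.cl F.h F.i0 0) ∈ K) := by
  constructor
  · rintro ⟨h1, h2, h3⟩
    simp only [Ideal.mem_comap, map_sub, aeval_X, map_one, aeval_C] at h1 h2 h3
    exact ⟨h1, h2, h3⟩
  · rintro ⟨h1, h2, h3⟩
    refine ⟨?_, ?_, ?_⟩ <;> simp only [Ideal.mem_comap, map_sub, aeval_X, map_one, aeval_C]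
    exacts [h1, h2, h3]

theorem Frame.normRels_comap_of_normalized {A : Type} [CommRing A] [Algebra 𝒪 A] (a : Idx → A)
    (h : F.Normalized A (matOf a)) (K : Ideal A) :
    F.NormRels (Ideal.comap (aeval a : MvPolynomial Idx 𝒪 →ₐ[𝒪] A) K) := by
  obtain ⟨h1, h2, h3⟩ := h
  rw [matOf_apply] at h1 h2 h3
  rw [F.normRels_comap_iff, h1, h2, h3, sub_self, sub_self]
  exact ⟨K.zero_mem, K.zero_mem, K.zero_mem⟩

theorem Frame.normalized_of_forall_normRels {A : Type} [CommRing A] [IsLocalRing A] [Algebra 𝒪 A]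
    (a : Idx → A) (hsep : ∀ x : A, (∀ n : ℕ, x ∈ maximalIdeal A ^ (n + 1)) → x = 0)
    (h : ∀ n : ℕ, F.NormRels (Ideal.comap (aeval a : MvPolynomial Idx 𝒪 →ₐ[𝒪] A)
      (maximalIdeal A ^ (n + 1)))) : F.Normalized A (matOf a) := by
  refine ⟨hsep _ fun n => ((F.normRels_comap_iff a _).mp (h n)).1, ?_, ?_⟩
  · exact sub_eq_zero.mp (hsep _ fun n => ((F.normRels_comap_iff a _).mp (h n)).2.1)
  · exact sub_eq_zero.mp (hsep _ fun n => ((F.normRels_comap_iff a _).mp (h n)).2.2)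

theorem Frame.normalized_taut {I : Ideal (MvPolynomial Idx 𝒪)} (h : F.NormRels I) :
    F.Normalized (MvPolynomial Idx 𝒪 ⧸ I) (matOf (taut I)) := by
  obtain ⟨h1, h2, h3⟩ := h
  rw [← Ideal.Quotient.eq_zero_iff_mem] at h1 h2 h3
  refine ⟨h1, ?_, ?_⟩
  · rw [map_sub, sub_eq_zero, map_one] at h2
    exact h2
  · rw [map_sub, sub_eq_zero] at h3
    exact h3

theorem Frame.lifts_taut {I : Ideal (MvPolynomial Idx 𝒪)} (hle : I ≤ baseIdeal F.c)
    [IsLocalRing (MvPolynomial Idx 𝒪 ⧸ I)] :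
    F.Lifts (MvPolynomial Idx 𝒪 ⧸ I) (matOf (taut I)) := by
  intro σ i j
  have h := X_sub_C_mem_baseIdeal F.c (σ, i, j)
  have h2 := (mk_mem_maximalIdeal_quot_iff hle _).mpr h
  rw [map_sub] at h2
  exact h2

theorem Frame.lifts_iff {A : Type} [CommRing A] [IsLocalRing A] [Algebra 𝒪 A] (a : Idx → A) :
    F.Lifts A (matOf a) ↔ ∀ x, a x - algebraMap 𝒪 A (F.c x) ∈ maximalIdeal A :=
  ⟨fun h x => h x.1 x.2.1 x.2.2, fun h σ i j => h (σ, i, j)⟩

variable {F} in
/-- Normalized lifts push forward along local `𝒪`-algebra homs. -/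
theorem Frame.IsNormLift.map {A B : Type} [CommRing A] [IsLocalRing A] [Algebra 𝒪 A]
    [CommRing B] [IsLocalRing B] [Algebra 𝒪 B] {M : GQ → Matrix (Fin 2) (Fin 2) A}
    (hM : F.IsNormLift A M) (φ : A →ₐ[𝒪] B) (hφ : IsLocalHom (φ : A →+* B)) :
    F.IsNormLift B (fun σ => (M σ).map φ) where
  isMatRep := hM.isMatRep.map (φ : A →+* B) hφ
  lifts := by
    intro σ i j
    have h := hM.lifts σ i j
    have h2 : φ (M σ i j - algebraMap 𝒪 A (F.cl σ i j)) ∈ maximalIdeal B := by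
      by_contra hn
      have hu : IsUnit ((φ : A →+* B) (M σ i j - algebraMap 𝒪 A (F.cl σ i j))) := by
        by_contra hnu
        exact hn hnu
      exact h (hφ.map_nonunit _ hu)
    simpa using h2
  norm := by
    obtain ⟨h1, h2, h3⟩ := hM.norm
    refine ⟨?_, ?_, ?_⟩
    · simp [Matrix.map_apply, h1]
    · simp [Matrix.map_apply, h2]
    · simp [Matrix.map_apply, h3]

end

end Fermat.Agent.S53
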