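import Fermat.Agent.S53.Adm1

/-!
# S53: admissible ideals, part 2 (the deformation condition)
-/

set_option autoImplicit false
set_option linter.unusedSectionVars false
set_option linter.style.haveILetI false

namespace Fermat.Agent.S53

open IsLocalRing MvPolynomial

section
variable {𝒪 : Type} [CommRing 𝒪] [IsLocalRing 𝒪]
  {𝒟 : ∀ ⦃A : Type⦄ [CommRing A] [IsLocalRing A] [Algebra 𝒪 A], GaloisRepAdic A → Prop}

theorem isEquiv_symm {A : Type} [CommRing A] [IsLocalRing A] {ρ ρ' : GaloisRepAdic A}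
    (h : ρ.IsEquiv ρ') : ρ'.IsEquiv ρ :=
  let ⟨e⟩ := h; ⟨e.symm⟩

theorem isEquiv_trans {A : Type} [CommRing A] [IsLocalRing A] {ρ ρ' ρ'' : GaloisRepAdic A}
    (h : ρ.IsEquiv ρ') (h' : ρ'.IsEquiv ρ'') : ρ.IsEquiv ρ'' :=
  let ⟨e⟩ := h; let ⟨e'⟩ := h'; ⟨e.trans e'⟩

theorem D_congr {A : Type} [CommRing A] [IsLocalRing A] [Algebra 𝒪 A]
    {M M' : GQ → Matrix (Fin 2) (Fin 2) A} (h : M = M') (hM : IsMatRep A M)
    (hM' : IsMatRep A M') : 𝒟 (ofMat M hM) ↔ 𝒟 (ofMat M' hM') := by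
  subst h; rfl

/-- Push forward of the deformation condition along a local hom of test algebras. -/
theorem D_map (h𝒟 : GaloisRep.IsDeformationCondition 𝒪 𝒟) {A B : Type} [CommRing A]
    [IsLocalRing A] [Algebra 𝒪 A] [CommRing B] [IsLocalRing B] [Algebra 𝒪 B]
    (hA : GaloisRep.IsArtinianTestAlgebra 𝒪 A) (hB : GaloisRep.IsArtinianTestAlgebra 𝒪 B)
    (φ : A →ₐ[𝒪] B) (hφ : IsLocalHom (φ : A →+* B)) {M : GQ → Matrix (Fin 2) (Fin 2) A}
    (hM : IsMatRep A M) (hM' : IsMatRep B (fun σ => (M σ).map φ))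
    (h : 𝒟 (ofMat M hM)) : 𝒟 (ofMat (fun σ => (M σ).map φ) hM') :=
  h𝒟.of_isEquiv hB (ofMat_baseChangeAlong_isEquiv (φ : A →+* B) hφ hM)
    (h𝒟.baseChangeAlong hA hB φ hφ h)

/-- Descent of the deformation condition along an injective local hom of test algebras. -/
theorem D_of_map_injective (h𝒟 : GaloisRep.IsDeformationCondition 𝒪 𝒟) {A B : Type} [CommRing A]
    [IsLocalRing A] [Algebra 𝒪 A] [CommRing B] [IsLocalRing B] [Algebra 𝒪 B]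
    (hA : GaloisRep.IsArtinianTestAlgebra 𝒪 A) (hB : GaloisRep.IsArtinianTestAlgebra 𝒪 B)
    (φ : A →ₐ[𝒪] B) (hφ : IsLocalHom (φ : A →+* B)) (hinj : Function.Injective φ)
    {M : GQ → Matrix (Fin 2) (Fin 2) A}
    (hM : IsMatRep A M) (hM' : IsMatRep B (fun σ => (M σ).map φ))
    (h : 𝒟 (ofMat (fun σ => (M σ).map φ) hM')) : 𝒟 (ofMat M hM) :=
  h𝒟.of_baseChangeAlong_injective hA hB φ hφ hinj
    (h𝒟.of_isEquiv hB (isEquiv_symm (ofMat_baseChangeAlong_isEquiv (φ : A →+* B) hφ hM)) h)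

end

section
variable {𝒪 : Type} [CommRing 𝒪] [IsLocalRing 𝒪] {ρbar : ResidualGaloisRep (ResidueField 𝒪)}
  (F : Frame 𝒪 ρbar)
  (𝒟 : ∀ ⦃A : Type⦄ [CommRing A] [IsLocalRing A] [Algebra 𝒪 A], GaloisRepAdic A → Prop)

/-- The admissible ideals of `P`: those `I` for which `P ⧸ I` is a finite local ring carrying a
normalized lift of type `𝒟` given by the images of the variables. -/
def adm : Set (Ideal (MvPolynomial Idx 𝒪)) :=
  {I | I ≤ baseIdeal F.c ∧ (∃ n : ℕ, baseIdeal F.c ^ n ≤ I) ∧ Finite (MvPolynomial Idx 𝒪 ⧸ I) ∧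
    HasRels I ∧ F.NormRels I ∧
    ∀ [IsLocalRing (MvPolynomial Idx 𝒪 ⧸ I)]
      (hM : IsMatRep (MvPolynomial Idx 𝒪 ⧸ I) (matOf (taut I))), 𝒟 (ofMat (matOf (taut I)) hM)}

variable {F 𝒟}

theorem adm_le {I : Ideal (MvPolynomial Idx 𝒪)} (h : I ∈ adm F 𝒟) : I ≤ baseIdeal F.c := h.1

theorem adm_pow {I : Ideal (MvPolynomial Idx 𝒪)} (h : I ∈ adm F 𝒟) :
    ∃ n : ℕ, baseIdeal F.c ^ n ≤ I := h.2.1

theorem adm_finite {I : Ideal (MvPolynomial Idx 𝒪)} (h : I ∈ adm F 𝒟) :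
    Finite (MvPolynomial Idx 𝒪 ⧸ I) := h.2.2.1

theorem adm_isLocalRing {I : Ideal (MvPolynomial Idx 𝒪)} (h : I ∈ adm F 𝒟) :
    IsLocalRing (MvPolynomial Idx 𝒪 ⧸ I) := isLocalRing_quot h.1 h.2.1

theorem adm_testAlgebra {I : Ideal (MvPolynomial Idx 𝒪)} (h : I ∈ adm F 𝒟)
    [IsLocalRing (MvPolynomial Idx 𝒪 ⧸ I)] :
    GaloisRep.IsArtinianTestAlgebra 𝒪 (MvPolynomial Idx 𝒪 ⧸ I) :=
  haveI := adm_finite h
  isArtinianTestAlgebra_quot h.1

theorem adm_isNormLift {I : Ideal (MvPolynomial Idx 𝒪)} (h : I ∈ adm F 𝒟)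
    [IsLocalRing (MvPolynomial Idx 𝒪 ⧸ I)] :
    F.IsNormLift (MvPolynomial Idx 𝒪 ⧸ I) (matOf (taut I)) :=
  ⟨isMatRep_taut h.2.2.2.1, F.lifts_taut h.1, F.normalized_taut h.2.2.2.2.1⟩

theorem adm_D {I : Ideal (MvPolynomial Idx 𝒪)} (h : I ∈ adm F 𝒟)
    [IsLocalRing (MvPolynomial Idx 𝒪 ⧸ I)]
    (hM : IsMatRep (MvPolynomial Idx 𝒪 ⧸ I) (matOf (taut I))) : 𝒟 (ofMat (matOf (taut I)) hM) :=
  h.2.2.2.2.2 hM

/-- Upward closure of the admissible ideals below the base ideal. -/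
theorem adm_up (h𝒟 : GaloisRep.IsDeformationCondition 𝒪 𝒟) {I : Ideal (MvPolynomial Idx 𝒪)}
    (hI : I ∈ adm F 𝒟) (J : Ideal (MvPolynomial Idx 𝒪)) (hIJ : I ≤ J)
    (hJ : J ≤ baseIdeal F.c) : J ∈ adm F 𝒟 := by
  obtain ⟨n, hn⟩ := adm_pow hI
  haveI := adm_finite hI
  haveI : Finite (MvPolynomial Idx 𝒪 ⧸ J) :=
    Finite.of_surjective _ (Ideal.Quotient.factor_surjective hIJ)
  refine ⟨hJ, ⟨n, hn.trans hIJ⟩, inferInstance, hI.2.2.2.1.mono hIJ, hI.2.2.2.2.1.mono hIJ, ?_⟩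
  intro _ hM
  haveI := adm_isLocalRing hI
  have hA := adm_testAlgebra hI
  have hB : GaloisRep.IsArtinianTestAlgebra 𝒪 (MvPolynomial Idx 𝒪 ⧸ J) :=
    isArtinianTestAlgebra_quot hJ
  have hφ := isLocalHom_algHom hB.residue_surjective (Ideal.Quotient.factorₐ 𝒪 hIJ)
  have hMI := (adm_isNormLift hI).isMatRep
  have key := D_map h𝒟 hA hB (Ideal.Quotient.factorₐ 𝒪 hIJ) hφ hMI (hMI.map _ hφ) (adm_D hI hMI)
  refine (D_congr ?_ _ _).mp key
  funext σ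
  ext i j
  simp [taut]

/-- The kernel of a normalized lift of type `𝒟` to an Artinian test algebra is admissible. -/
theorem ker_aeval_mem_adm [Finite (ResidueField 𝒪)] (h𝒟 : GaloisRep.IsDeformationCondition 𝒪 𝒟)
    {B : Type} [CommRing B] [IsLocalRing B] [Algebra 𝒪 B]
    (hB : GaloisRep.IsArtinianTestAlgebra 𝒪 B) (a : Idx → B) (hN : F.IsNormLift B (matOf a))
    (hD : 𝒟 (ofMat (matOf a) hN.isMatRep)) :
    RingHom.ker (aeval a : MvPolynomial Idx 𝒪 →ₐ[𝒪] B) ∈ adm F 𝒟 := by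
  have hlift := (F.lifts_iff a).mp hN.lifts
  have hcomap := comap_aeval_maximalIdeal F.c hB.isLocalHom a hlift
  have hle : RingHom.ker (aeval a : MvPolynomial Idx 𝒪 →ₐ[𝒪] B) ≤ baseIdeal F.c := by
    rw [← hcomap]
    intro p hp
    rw [Ideal.mem_comap, (RingHom.mem_ker).mp hp]
    exact Ideal.zero_mem _
  obtain ⟨n, hn⟩ := exists_maximalIdeal_pow_eq_bot hB
  have hpow : baseIdeal F.c ^ n ≤ RingHom.ker (aeval a : MvPolynomial Idx 𝒪 →ₐ[𝒪] B) := by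
    intro p hp
    have := baseIdeal_pow_le_comap F.c hB.isLocalHom a hlift n hp
    rw [Ideal.mem_comap, hn] at this
    exact this
  haveI := finite_of_isArtinianTestAlgebra hB
  haveI : Finite (MvPolynomial Idx 𝒪 ⧸ RingHom.ker (aeval a : MvPolynomial Idx 𝒪 →ₐ[𝒪] B)) :=
    Finite.of_injective _ (Ideal.kerLiftAlg_injective (aeval a : MvPolynomial Idx 𝒪 →ₐ[𝒪] B))
  have hker : RingHom.ker (aeval a : MvPolynomial Idx 𝒪 →ₐ[𝒪] B) =
      Ideal.comap (aeval a : MvPolynomial Idx 𝒪 →ₐ[𝒪] B) ⊥ := by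
    ext p; simp [RingHom.mem_ker]
  have hrels : HasRels (RingHom.ker (aeval a : MvPolynomial Idx 𝒪 →ₐ[𝒪] B)) := by
    rw [hker]
    exact hasRels_comap_of_isMatRep a hN.isMatRep n ⊥ (by rw [hn])
  have hnorm : F.NormRels (RingHom.ker (aeval a : MvPolynomial Idx 𝒪 →ₐ[𝒪] B)) := by
    rw [hker]
    exact F.normRels_comap_of_normalized a hN.norm ⊥
  refine ⟨hle, ⟨n, hpow⟩, inferInstance, hrels, hnorm, ?_⟩
  intro _ hM
  have hA : GaloisRep.IsArtinianTestAlgebra 𝒪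
      (MvPolynomial Idx 𝒪 ⧸ RingHom.ker (aeval a : MvPolynomial Idx 𝒪 →ₐ[𝒪] B)) :=
    isArtinianTestAlgebra_quot hle
  have hφ := isLocalHom_algHom hB.residue_surjective
    (Ideal.kerLiftAlg (aeval a : MvPolynomial Idx 𝒪 →ₐ[𝒪] B))
  have hmap : (fun σ => (matOf (taut (RingHom.ker (aeval a : MvPolynomial Idx 𝒪 →ₐ[𝒪] B))) σ).map
      (Ideal.kerLiftAlg (aeval a : MvPolynomial Idx 𝒪 →ₐ[𝒪] B))) = matOf a := by
    funext σ
    ext i j
    simp [taut]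
  refine D_of_map_injective h𝒟 hA hB _ hφ (Ideal.kerLiftAlg_injective _) hM (hM.map _ hφ) ?_
  exact (D_congr hmap _ hN.isMatRep).mpr hD

end

end Fermat.Agent.S53
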