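import Fermat.Agent.S53.Plumbing

/-!
# S53 plumbing, residual part: matrix lifts of a frame versus the residual representation
-/

set_option autoImplicit false

namespace Fermat.Agent.S53

open IsLocalRing
open scoped TensorProduct

namespace PlumbingRes

/-- Two endomorphisms with the same matrix in two bases are intertwined by the linear
equivalence identifying the bases. -/
theorem equiv_apply_of_toMatrix_eq {R V W : Type*} [CommRing R] [AddCommGroup V] [Module R V]
    [AddCommGroup W] [Module R W] (b₁ : Module.Basis (Fin 2) R V) (b₂ : Module.Basis (Fin 2) R W)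
    (f : V →ₗ[R] V) (g : W →ₗ[R] W)
    (h : LinearMap.toMatrix b₁ b₁ f = LinearMap.toMatrix b₂ b₂ g) (x : V) :
    b₁.equiv b₂ (Equiv.refl _) (f x) = g (b₁.equiv b₂ (Equiv.refl _) x) := by
  have key : ((b₁.equiv b₂ (Equiv.refl _)).toLinearMap ∘ₗ f) =
      (g ∘ₗ (b₁.equiv b₂ (Equiv.refl _)).toLinearMap) := by
    refine b₁.ext fun j => ?_
    simp only [LinearMap.coe_comp, LinearEquiv.coe_coe, Function.comp_apply,
      Module.Basis.equiv_apply, Equiv.refl_apply]
    rw [← b₁.sum_repr (f (b₁ j)), map_sum, ← b₂.sum_repr (g (b₂ j))]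
    refine Finset.sum_congr rfl fun i _ => ?_
    rw [map_smul, Module.Basis.equiv_apply, Equiv.refl_apply]
    have h1 := congrFun (congrFun h i) j
    rw [LinearMap.toMatrix_apply, LinearMap.toMatrix_apply] at h1
    rw [h1]
  exact LinearMap.congr_fun key x

/-- The matrix of an endomorphism in a basis transported along an intertwining equivalence. -/
theorem toMatrix_map_symm_eq {R V W : Type*} [CommRing R] [AddCommGroup V] [Module R V]
    [AddCommGroup W] [Module R W] (b₂ : Module.Basis (Fin 2) R W) (e : V ≃ₗ[R] W)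
    (f : V →ₗ[R] V) (g : W →ₗ[R] W) (h : ∀ x, e (f x) = g (e x)) :
    LinearMap.toMatrix (b₂.map e.symm) (b₂.map e.symm) f = LinearMap.toMatrix b₂ b₂ g := by
  ext i j
  simp [LinearMap.toMatrix_apply, h]

end PlumbingRes

section
variable {𝒪 : Type} [CommRing 𝒪] [IsLocalRing 𝒪] {ρbar : ResidualGaloisRep (ResidueField 𝒪)}

/-- A matrix lift of the frame has residual representation `ρbar` (base changed). The algebra
structure on the residue field of `A` is arbitrary but compatible with the `𝒪`-algebra structure. -/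
theorem Frame.residual_isEquiv (F : Frame 𝒪 ρbar) (A : Type) [CommRing A] [IsLocalRing A]
    [Algebra 𝒪 A] [Algebra (ResidueField 𝒪) (ResidueField A)]
    (hcompat : ∀ x : 𝒪, algebraMap (ResidueField 𝒪) (ResidueField A) (residue 𝒪 x) =
      residue A (algebraMap 𝒪 A x))
    {M : GQ → Matrix (Fin 2) (Fin 2) A} (hM : IsMatRep A M) (hl : F.Lifts A M) :
    (ofMat M hM).residual.IsEquiv (ρbar.baseChange (ResidueField A)) := by
  refine ⟨⟨(Algebra.TensorProduct.basis (ResidueField A) (Pi.basisFun A (Fin 2))).equiv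
    (Algebra.TensorProduct.basis (ResidueField A) F.b) (Equiv.refl _), fun σ x => ?_⟩⟩
  refine PlumbingRes.equiv_apply_of_toMatrix_eq _ _ _ _ ?_ x
  show LinearMap.toMatrix (Algebra.TensorProduct.basis (ResidueField A) (Pi.basisFun A (Fin 2)))
      (Algebra.TensorProduct.basis (ResidueField A) (Pi.basisFun A (Fin 2)))
      ((Matrix.toLin' (M σ)).baseChange (ResidueField A)) =
    LinearMap.toMatrix (Algebra.TensorProduct.basis (ResidueField A) F.b) (Algebra.TensorProduct.basis (ResidueField A) F.b)
      ((ρbar.ρ σ).baseChange (ResidueField A))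
  rw [LinearMap.toMatrix_baseChange, LinearMap.toMatrix_baseChange]
  ext i j
  simp only [Matrix.map_apply]
  rw [LinearMap.toMatrix_eq_toMatrix', LinearMap.toMatrix'_toLin', ← F.cl_spec σ i j, hcompat,
    IsLocalRing.ResidueField.algebraMap_eq]
  exact Ideal.Quotient.eq.mpr (hl σ i j)

/-- Conversely every deformation is given by a matrix lift of the frame. -/
theorem Frame.exists_lift_of_residual (F : Frame 𝒪 ρbar) (A : Type) [CommRing A] [IsLocalRing A]
    [Algebra 𝒪 A] [Algebra (ResidueField 𝒪) (ResidueField A)]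
    (hcompat : ∀ x : 𝒪, algebraMap (ResidueField 𝒪) (ResidueField A) (residue 𝒪 x) =
      residue A (algebraMap 𝒪 A x))
    (ρA : GaloisRepAdic A) (hres : ρA.residual.IsEquiv (ρbar.baseChange (ResidueField A))) :
    ∃ (M : GQ → Matrix (Fin 2) (Fin 2) A) (hM : IsMatRep A M),
      F.Lifts A M ∧ ρA.IsEquiv (ofMat M hM) := by
  obtain ⟨e⟩ := hres
  have he : ∀ (σ : GQ) (x : ResidueField A ⊗[A] ρA.V),
      e.toLinearEquiv ((ρA.ρ σ).baseChange (ResidueField A) x) =
        (ρbar.ρ σ).baseChange (ResidueField A) (e.toLinearEquiv x) := fun σ x => e.map_apply σ x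
  obtain ⟨E, hE⟩ : ∃ E : (ResidueField A ⊗[A] ρA.V) ≃ₗ[ResidueField A]
      (ResidueField A ⊗[ResidueField 𝒪] ρbar.V), ∀ (σ : GQ) (x : ResidueField A ⊗[A] ρA.V),
      E ((ρA.ρ σ).baseChange (ResidueField A) x) =
        (ρbar.ρ σ).baseChange (ResidueField A) (E x) := ⟨e.toLinearEquiv, he⟩
  have hsurj : Function.Surjective (TensorProduct.mk A (ResidueField A) ρA.V 1) :=
    TensorProduct.mk_surjective A ρA.V (ResidueField A) IsLocalRing.residue_surjective
  choose v hv using fun i : Fin 2 =>
    hsurj (((Algebra.TensorProduct.basis (ResidueField A) F.b).map E.symm) i)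
  have hspan : Submodule.span A (Set.range v) = ⊤ :=
    IsLocalRing.span_eq_top_of_tmul_eq_basis v
      ((Algebra.TensorProduct.basis (ResidueField A) F.b).map E.symm) hv
  have hcard : Fintype.card (Fin 2) = Module.finrank A ρA.V := by
    rw [ρA.finrank_eq, Fintype.card_fin]
  obtain ⟨bv, hbv⟩ : ∃ bv : Module.Basis (Fin 2) A ρA.V, ∀ i, bv i = v i :=
    ⟨basisOfTopLeSpanOfCardEqFinrank v hspan.ge hcard,
      fun i => congrFun (coe_basisOfTopLeSpanOfCardEqFinrank v hspan.ge hcard) i⟩
  have hB : Algebra.TensorProduct.basis (ResidueField A) bv =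
      (Algebra.TensorProduct.basis (ResidueField A) F.b).map E.symm := by
    refine Module.Basis.eq_of_apply_eq fun i => ?_
    rw [Algebra.TensorProduct.basis_apply, hbv, ← hv i]
    rfl
  obtain ⟨hM, hequiv⟩ := exists_ofMat_isEquiv ρA bv
  refine ⟨_, hM, ?_, hequiv⟩
  intro σ i j
  have h1 := LinearMap.toMatrix_baseChange (ResidueField A) (ρA.ρ σ) bv bv
  rw [hB, PlumbingRes.toMatrix_map_symm_eq _ E _ _ (hE σ),
    LinearMap.toMatrix_baseChange] at h1
  have h2 := congrFun (congrFun h1 i) j
  simp only [Matrix.map_apply] at h2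
  rw [← F.cl_spec σ i j, hcompat, IsLocalRing.ResidueField.algebraMap_eq] at h2
  exact Ideal.Quotient.eq.mp h2.symm

/-- The residual representation itself, viewed as a `GaloisRepAdic` over the residue field,
is given by the residual matrices of the frame. -/
theorem Frame.ofResidual_isEquiv (F : Frame 𝒪 ρbar) :
    ∃ hM : IsMatRep (ResidueField 𝒪) F.Mbar,
      (GaloisRepAdic.ofResidualGaloisRep ρbar).IsEquiv (ofMat F.Mbar hM) :=
  exists_ofMat_isEquiv (GaloisRepAdic.ofResidualGaloisRep ρbar) F.b

end

end Fermat.Agent.S53
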