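import Fermat.Agent.S53.Adm2
import Fermat.Agent.S53.PlumbingRes

/-!
# S53: admissible ideals, part 3 (base ideal, intersections, tangent bound)
-/

set_option autoImplicit false
set_option linter.unusedSectionVars false
set_option linter.style.haveILetI false

namespace Fermat.Agent.S53

open IsLocalRing MvPolynomial

section
variable {𝒪 : Type} [CommRing 𝒪] [IsLocalRing 𝒪] {ρbar : ResidualGaloisRep (ResidueField 𝒪)}
  {F : Frame 𝒪 ρbar}
  {𝒟 : ∀ ⦃A : Type⦄ [CommRing A] [IsLocalRing A] [Algebra 𝒪 A], GaloisRepAdic A → Prop}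

/-- The residue field is an Artinian test algebra. -/
theorem residueField_testAlgebra :
    GaloisRep.IsArtinianTestAlgebra 𝒪 (ResidueField 𝒪) where
  isLocalHom := by
    refine ⟨fun x hx => ?_⟩
    rw [ResidueField.algebraMap_eq] at hx
    exact (residue_ne_zero_iff_isUnit x).mp hx.ne_zero
  residue_surjective := by
    refine Function.Surjective.comp residue_surjective ?_
    rw [ResidueField.algebraMap_eq]
    exact residue_surjective
  isArtinian := inferInstance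

/-- The base ideal is admissible (this uses that `ρbar` itself is of type `𝒟`). -/
theorem baseIdeal_mem_adm [Finite (ResidueField 𝒪)] (h𝒟 : GaloisRep.IsDeformationCondition 𝒪 𝒟)
    (hbar : 𝒟 (GaloisRepAdic.ofResidualGaloisRep ρbar)) : baseIdeal F.c ∈ adm F 𝒟 := by
  obtain ⟨hMbar, hequiv⟩ := F.ofResidual_isEquiv
  have hB := residueField_testAlgebra (𝒪 := 𝒪)
  have hmat : matOf (fun x : Idx => residue 𝒪 (F.c x)) = F.Mbar := by
    funext σ
    ext i j
    exact F.cl_spec σ i j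
  have hN : F.IsNormLift (ResidueField 𝒪) (matOf (fun x : Idx => residue 𝒪 (F.c x))) := by
    refine ⟨hmat ▸ hMbar, ?_, ?_⟩
    · intro σ i j
      rw [matOf_apply, ResidueField.algebraMap_eq]
      show residue 𝒪 (F.cl σ i j) - residue 𝒪 (F.cl σ i j) ∈ _
      rw [sub_self]
      exact Ideal.zero_mem _
    · refine ⟨?_, ?_, ?_⟩
      · rw [hmat]; exact F.hg0
      · rw [hmat]; exact F.hg1
      · rw [matOf_apply, ResidueField.algebraMap_eq]; rfl
  have hD : 𝒟 (ofMat (matOf (fun x : Idx => residue 𝒪 (F.c x))) hN.isMatRep) :=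
    (D_congr hmat hN.isMatRep hMbar).mpr (h𝒟.of_isEquiv hB hequiv hbar)
  exact ker_aeval_mem_adm h𝒟 hB _ hN hD

/-- Admissible ideals are closed under finite intersections. -/
theorem adm_inf (h𝒟 : GaloisRep.IsDeformationCondition 𝒪 𝒟) {I J : Ideal (MvPolynomial Idx 𝒪)}
    (hI : I ∈ adm F 𝒟) (hJ : J ∈ adm F 𝒟) : I ⊓ J ∈ adm F 𝒟 := by
  obtain ⟨n, hn⟩ := adm_pow hI
  obtain ⟨m, hm⟩ := adm_pow hJ
  have hle : I ⊓ J ≤ baseIdeal F.c := inf_le_left.trans (adm_le hI)
  have hpow : baseIdeal F.c ^ (n + m) ≤ I ⊓ J :=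
    le_inf ((Ideal.pow_le_pow_right (Nat.le_add_right n m)).trans hn)
      ((Ideal.pow_le_pow_right (Nat.le_add_left m n)).trans hm)
  haveI := adm_finite hI
  haveI := adm_finite hJ
  have hinj : Function.Injective (fun x : MvPolynomial Idx 𝒪 ⧸ (I ⊓ J) =>
      (Ideal.Quotient.factorₐ 𝒪 (inf_le_left : I ⊓ J ≤ I) x,
        Ideal.Quotient.factorₐ 𝒪 (inf_le_right : I ⊓ J ≤ J) x)) := by
    intro x y hxy
    obtain ⟨p, rfl⟩ := Ideal.Quotient.mk_surjective x
    obtain ⟨q, rfl⟩ := Ideal.Quotient.mk_surjective y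
    simp only [Prod.mk.injEq] at hxy
    have h1 : Ideal.Quotient.mk I p = Ideal.Quotient.mk I q := hxy.1
    have h2 : Ideal.Quotient.mk J p = Ideal.Quotient.mk J q := hxy.2
    rw [Ideal.Quotient.eq] at h1 h2 ⊢
    exact ⟨h1, h2⟩
  haveI : Finite (MvPolynomial Idx 𝒪 ⧸ (I ⊓ J)) := Finite.of_injective _ hinj
  refine ⟨hle, ⟨n + m, hpow⟩, inferInstance, hI.2.2.2.1.inf hJ.2.2.2.1,
    hI.2.2.2.2.1.inf hJ.2.2.2.2.1, ?_⟩
  intro _ hM
  haveI := adm_isLocalRing hI
  haveI := adm_isLocalRing hJ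
  have hA := adm_testAlgebra hI
  have hB := adm_testAlgebra hJ
  have hSle : I ⊔ J ≤ baseIdeal F.c := sup_le (adm_le hI) (adm_le hJ)
  haveI : IsLocalRing (MvPolynomial Idx 𝒪 ⧸ (I ⊔ J)) :=
    isLocalRing_quot hSle ⟨n, hn.trans le_sup_left⟩
  haveI : Finite (MvPolynomial Idx 𝒪 ⧸ (I ⊔ J)) :=
    Finite.of_surjective _ (Ideal.Quotient.factor_surjective (le_sup_left : I ≤ I ⊔ J))
  have hC : GaloisRep.IsArtinianTestAlgebra 𝒪 (MvPolynomial Idx 𝒪 ⧸ (I ⊔ J)) :=
    isArtinianTestAlgebra_quot hSle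
  have hP : GaloisRep.IsArtinianTestAlgebra 𝒪 (MvPolynomial Idx 𝒪 ⧸ (I ⊓ J)) :=
    isArtinianTestAlgebra_quot hle
  have hpA := isLocalHom_algHom hA.residue_surjective
    (Ideal.Quotient.factorₐ 𝒪 (inf_le_left : I ⊓ J ≤ I))
  have hpB := isLocalHom_algHom hB.residue_surjective
    (Ideal.Quotient.factorₐ 𝒪 (inf_le_right : I ⊓ J ≤ J))
  have hMI := (adm_isNormLift hI).isMatRep
  have hMJ := (adm_isNormLift hJ).isMatRep
  refine h𝒟.of_fibreProduct hA hB hC hP
    (Ideal.Quotient.factorₐ 𝒪 (le_sup_left : I ≤ I ⊔ J))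
    (Ideal.Quotient.factorₐ 𝒪 (le_sup_right : J ≤ I ⊔ J))
    (Ideal.Quotient.factorₐ 𝒪 (inf_le_left : I ⊓ J ≤ I))
    (Ideal.Quotient.factorₐ 𝒪 (inf_le_right : I ⊓ J ≤ J)) hpA hpB ?_ hinj ?_ ?_ ?_
  · apply Ideal.Quotient.algHom_ext
    ext x
    simp
  · intro a b hab
    obtain ⟨p, rfl⟩ := Ideal.Quotient.mk_surjective a
    obtain ⟨q, rfl⟩ := Ideal.Quotient.mk_surjective b
    have h1 : Ideal.Quotient.mk (I ⊔ J) p = Ideal.Quotient.mk (I ⊔ J) q := hab
    rw [Ideal.Quotient.eq, Submodule.mem_sup] at h1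
    obtain ⟨i, hi, j, hj, hij⟩ := h1
    refine ⟨Ideal.Quotient.mk (I ⊓ J) (p - i), ?_, ?_⟩
    · show Ideal.Quotient.mk I (p - i) = Ideal.Quotient.mk I p
      rw [Ideal.Quotient.eq]
      simpa using I.neg_mem hi
    · show Ideal.Quotient.mk J (p - i) = Ideal.Quotient.mk J q
      rw [Ideal.Quotient.eq]
      have : p - i - q = j := by linear_combination (-1 : MvPolynomial Idx 𝒪) * hij
      rw [this]; exact hj
  · refine h𝒟.of_isEquiv hA (isEquiv_symm (ofMat_baseChangeAlong_isEquiv _ hpA hM)) ?_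
    refine (D_congr ?_ (hM.map _ hpA) hMI).mpr (adm_D hI hMI)
    funext σ; ext i j; simp [taut]
  · refine h𝒟.of_isEquiv hB (isEquiv_symm (ofMat_baseChangeAlong_isEquiv _ hpB hM)) ?_
    refine (D_congr ?_ (hM.map _ hpB) hMJ).mpr (adm_D hJ hMJ)
    funext σ; ext i j; simp [taut]

end

section tangent
variable (𝒪 : Type) [CommRing 𝒪] [IsLocalRing 𝒪]

/-- The `𝒪`-algebra structure on the dual numbers used in `GaloisRep.TangentFinite`. -/
@[reducible] noncomputable def dualAlg : Algebra 𝒪 (DualNumber (ResidueField 𝒪)) :=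
  ((algebraMap (ResidueField 𝒪) (DualNumber (ResidueField 𝒪))).comp
    (algebraMap 𝒪 (ResidueField 𝒪))).toAlgebra

/-- The algebra structure on the residue field of the dual numbers used in
`GaloisRep.TangentFinite`. -/
@[reducible] noncomputable def dualResAlg :
    Algebra (ResidueField 𝒪) (ResidueField (DualNumber (ResidueField 𝒪))) :=
  ((IsLocalRing.residue (DualNumber (ResidueField 𝒪))).comp
    (algebraMap (ResidueField 𝒪) (DualNumber (ResidueField 𝒪)))).toAlgebra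

theorem dualAlg_algebraMap (x : 𝒪) :
    letI := dualAlg 𝒪
    algebraMap 𝒪 (DualNumber (ResidueField 𝒪)) x = TrivSqZeroExt.inl (residue 𝒪 x) := rfl

theorem dual_testAlgebra [Finite (ResidueField 𝒪)] :
    letI := dualAlg 𝒪
    GaloisRep.IsArtinianTestAlgebra 𝒪 (DualNumber (ResidueField 𝒪)) := by
  letI := dualAlg 𝒪
  refine ⟨⟨fun x hx => ?_⟩, ?_, ?_⟩
  · rw [dualAlg_algebraMap, TrivSqZeroExt.isUnit_inl_iff] at hx
    exact (residue_ne_zero_iff_isUnit x).mp hx.ne_zero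
  · intro y
    obtain ⟨e, rfl⟩ := residue_surjective y
    obtain ⟨x, hx⟩ := residue_surjective (TrivSqZeroExt.fst e)
    refine ⟨x, ?_⟩
    rw [Function.comp_apply, dualAlg_algebraMap, hx, ← sub_eq_zero, ← map_sub,
      residue_eq_zero_iff]
    have h1 : TrivSqZeroExt.inl (TrivSqZeroExt.fst e) - e =
        TrivSqZeroExt.inr (-(TrivSqZeroExt.snd e)) := by
      ext <;> simp
    rw [h1]
    intro hu
    rw [TrivSqZeroExt.isUnit_inr_iff] at hu
    exact not_subsingleton _ hu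
  · haveI : Finite (DualNumber (ResidueField 𝒪)) :=
      inferInstanceAs (Finite (ResidueField 𝒪 × ResidueField 𝒪))
    infer_instance

end tangent

end Fermat.Agent.S53
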