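import Mathlib
import Fermat.Prelude.Def_GaloisRep_DeformationRingData
import Fermat.Prelude.Def_GaloisRep_DeformationCondition

/-!
# S53: basic definitions (matrix-valued Galois representations, frames, normal forms)
-/

set_option autoImplicit false

namespace Fermat.Agent.S53

open IsLocalRing

/-- The absolute Galois group of `ℚ` (as an abstract group). -/
abbrev GQ : Type := AlgebraicClosure ℚ ≃ₐ[ℚ] AlgebraicClosure ℚ

/-- `M : GQ → M₂(A)` is a (continuous) matrix representation. -/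
structure IsMatRep (A : Type) [CommRing A] [IsLocalRing A]
    (M : GQ → Matrix (Fin 2) (Fin 2) A) : Prop where
  map_one : M 1 = 1
  map_mul : ∀ σ τ : GQ, M (σ * τ) = M σ * M τ
  cont : ∀ n : ℕ, ∃ L : IntermediateField ℚ (AlgebraicClosure ℚ), FiniteDimensional ℚ L ∧
    ∀ σ : GQ, (∀ x ∈ L, σ x = x) → ∀ i j, (M σ - 1) i j ∈ maximalIdeal A ^ n

theorem mem_smul_top_of_forall_mem {A : Type} [CommRing A] (I : Ideal A) (w : Fin 2 → A)
    (hw : ∀ i, w i ∈ I) : w ∈ I • (⊤ : Submodule A (Fin 2 → A)) := by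
  have h : w = ∑ i, w i • (Pi.single i 1 : Fin 2 → A) := by
    ext j
    simp [Finset.sum_apply, Pi.single_apply]
  rw [h]
  exact Submodule.sum_mem _ fun i _ => Submodule.smul_mem_smul (hw i) Submodule.mem_top

/-- The `GaloisRepAdic` attached to a matrix representation (on `A²`). -/
noncomputable def ofMat {A : Type} [CommRing A] [IsLocalRing A]
    (M : GQ → Matrix (Fin 2) (Fin 2) A) (hM : IsMatRep A M) : GaloisRepAdic A where
  V := Fin 2 → A
  finrank_eq := by simp
  ρ :=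
    { toFun := fun σ => Matrix.toLin' (M σ)
      map_one' := by rw [hM.map_one, Matrix.toLin'_one]; rfl
      map_mul' := fun σ τ => by rw [hM.map_mul, Matrix.toLin'_mul]; rfl }
  isAdicContinuous := by
    intro n
    obtain ⟨L, hL, h⟩ := hM.cont n
    refine ⟨L, hL, fun σ hσ v => ?_⟩
    have hv : Matrix.toLin' (M σ) v - v = (M σ - 1).mulVec v := by
      rw [Matrix.sub_mulVec, Matrix.one_mulVec, Matrix.toLin'_apply]
    show Matrix.toLin' (M σ) v - v ∈ _
    rw [hv]
    refine mem_smul_top_of_forall_mem _ _ fun i => ?_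
    rw [Matrix.mulVec, dotProduct]
    exact Ideal.sum_mem _ fun j _ => Ideal.mul_mem_right _ _ (h σ hσ i j)

@[simp] theorem ofMat_V {A : Type} [CommRing A] [IsLocalRing A]
    (M : GQ → Matrix (Fin 2) (Fin 2) A) (hM : IsMatRep A M) : (ofMat M hM).V = (Fin 2 → A) := rfl

theorem ofMat_ρ_apply {A : Type} [CommRing A] [IsLocalRing A]
    (M : GQ → Matrix (Fin 2) (Fin 2) A) (hM : IsMatRep A M) (σ : GQ) :
    (ofMat M hM).ρ σ = Matrix.toLin' (M σ) := rfl

/-- A *frame* for a residual representation: a basis in which `ρbar g` is a companion matrix,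
an element `h` and a row index `i0` such that the commutator `[ρbar g, ρbar h]` has a nonzero
`(i0, 0)` entry, and a (set-theoretic) lift `cl` of the matrix coefficients to `𝒪`. -/
structure Frame (𝒪 : Type) [CommRing 𝒪] [IsLocalRing 𝒪]
    (ρbar : ResidualGaloisRep (ResidueField 𝒪)) where
  b : Module.Basis (Fin 2) (ResidueField 𝒪) ρbar.V
  g : GQ
  h : GQ
  i0 : Fin 2
  cl : GQ → Matrix (Fin 2) (Fin 2) 𝒪
  cl_spec : ∀ σ i j, residue 𝒪 (cl σ i j) = LinearMap.toMatrix b b (ρbar.ρ σ) i j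
  hg0 : LinearMap.toMatrix b b (ρbar.ρ g) 0 0 = 0
  hg1 : LinearMap.toMatrix b b (ρbar.ρ g) 1 0 = 1
  hcomm : (LinearMap.toMatrix b b (ρbar.ρ g) * LinearMap.toMatrix b b (ρbar.ρ h) -
    LinearMap.toMatrix b b (ρbar.ρ h) * LinearMap.toMatrix b b (ρbar.ρ g)) i0 0 ≠ 0

variable {𝒪 : Type} [CommRing 𝒪] [IsLocalRing 𝒪] {ρbar : ResidualGaloisRep (ResidueField 𝒪)}

/-- The residual matrix representation of a frame. -/
noncomputable def Frame.Mbar (F : Frame 𝒪 ρbar) (σ : GQ) : Matrix (Fin 2) (Fin 2) (ResidueField 𝒪) :=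
  LinearMap.toMatrix F.b F.b (ρbar.ρ σ)

/-- `M` lifts the residual matrix representation of the frame `F`. -/
def Frame.Lifts (F : Frame 𝒪 ρbar) (A : Type) [CommRing A] [IsLocalRing A] [Algebra 𝒪 A]
    (M : GQ → Matrix (Fin 2) (Fin 2) A) : Prop :=
  ∀ σ i j, M σ i j - algebraMap 𝒪 A (F.cl σ i j) ∈ maximalIdeal A

/-- `M` is in normal form with respect to the frame `F`. -/
def Frame.Normalized (F : Frame 𝒪 ρbar) (A : Type) [CommRing A] [Algebra 𝒪 A]
    (M : GQ → Matrix (Fin 2) (Fin 2) A) : Prop :=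
  M F.g 0 0 = 0 ∧ M F.g 1 0 = 1 ∧ M F.h F.i0 0 = algebraMap 𝒪 A (F.cl F.h F.i0 0)

/-- `M` is a normalized lift of the residual representation. -/
structure Frame.IsNormLift (F : Frame 𝒪 ρbar) (A : Type) [CommRing A] [IsLocalRing A] [Algebra 𝒪 A]
    (M : GQ → Matrix (Fin 2) (Fin 2) A) : Prop where
  isMatRep : IsMatRep A M
  lifts : F.Lifts A M
  norm : F.Normalized A M

/-- The "base point" maximal ideal of the polynomial ring `𝒪[Xᵢ]`: the kernel of the evaluation
`Xᵢ ↦ residue (c i)` to the residue field. -/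
noncomputable def baseIdeal {𝒪 : Type} [CommRing 𝒪] [IsLocalRing 𝒪] {ι : Type} (c : ι → 𝒪) :
    Ideal (MvPolynomial ι 𝒪) :=
  RingHom.ker (MvPolynomial.aeval (fun i => residue 𝒪 (c i)) :
    MvPolynomial ι 𝒪 →ₐ[𝒪] ResidueField 𝒪)

end Fermat.Agent.S53
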