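import Mathlib

/-!
# S53: generators of the maximal ideal generate the algebra (nilpotent Nakayama)
-/

set_option autoImplicit false

namespace Fermat.Agent.S53

open IsLocalRing

/-- If the maximal ideal of a local `𝒪`-algebra `A` (with residue field surjected onto by `𝒪`)
is nilpotent and generated by the image of `𝔪_𝒪` and a family `y`, then `A = 𝒪[y]`. -/
theorem aeval_surjective_of_maximalIdeal_eq {𝒪 : Type} [CommRing 𝒪] [IsLocalRing 𝒪]
    (A : Type) [CommRing A] [IsLocalRing A] [Algebra 𝒪 A]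
    (hsurj : Function.Surjective (residue A ∘ algebraMap 𝒪 A))
    (hnil : ∃ n : ℕ, maximalIdeal A ^ n = ⊥) {ι : Type} (y : ι → A)
    (hy : maximalIdeal A =
      Ideal.map (algebraMap 𝒪 A) (maximalIdeal 𝒪) ⊔ Ideal.span (Set.range y)) :
    Function.Surjective (MvPolynomial.aeval y : MvPolynomial ι 𝒪 →ₐ[𝒪] A) := by
  obtain ⟨n, hn⟩ := hnil
  let φ : MvPolynomial ι 𝒪 →+* A := (MvPolynomial.aeval y : MvPolynomial ι 𝒪 →ₐ[𝒪] A)
  let _ : Algebra (MvPolynomial ι 𝒪) A := φ.toAlgebra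
  have halgmap : algebraMap (MvPolynomial ι 𝒪) A = φ := RingHom.algebraMap_toAlgebra φ
  let 𝔟 : Ideal (MvPolynomial ι 𝒪) :=
    Ideal.map MvPolynomial.C (maximalIdeal 𝒪) ⊔ Ideal.span (Set.range MvPolynomial.X)
  have h𝔟 : 𝔟.map φ = maximalIdeal A := by
    rw [hy, Ideal.map_sup, Ideal.map_map, Ideal.map_span, ← Set.range_comp]
    have h1 : φ.comp (MvPolynomial.C : 𝒪 →+* MvPolynomial ι 𝒪) = algebraMap 𝒪 A := by
      ext c
      simp [φ]
    have h2 : (φ ∘ (MvPolynomial.X : ι → MvPolynomial ι 𝒪)) = y := by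
      funext i
      simp [φ]
    rw [h1, h2]
  have key : ∀ j : ℕ, (⊤ : Submodule (MvPolynomial ι 𝒪) A) ≤
      Submodule.span (MvPolynomial ι 𝒪) {(1 : A)} ⊔ 𝔟 ^ j • ⊤ := by
    have h1 : (⊤ : Submodule (MvPolynomial ι 𝒪) A) ≤
        Submodule.span (MvPolynomial ι 𝒪) {(1 : A)} ⊔ 𝔟 • ⊤ := by
      intro a _
      obtain ⟨c, hc⟩ := hsurj (residue A a)
      have hu : a - algebraMap 𝒪 A c ∈ maximalIdeal A := by
        rw [← residue_eq_zero_iff, map_sub, sub_eq_zero]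
        exact hc.symm
      rw [← h𝔟] at hu
      have h2 : a = (MvPolynomial.C c : MvPolynomial ι 𝒪) • (1 : A) +
          (a - algebraMap 𝒪 A c) := by
        rw [Algebra.smul_def, halgmap]
        simp [φ]
      rw [h2]
      refine Submodule.add_mem_sup
        (Submodule.smul_mem _ _ (Submodule.mem_span_singleton_self 1)) ?_
      rw [Ideal.smul_top_eq_map, halgmap]
      exact hu
    intro j
    induction j with
    | zero =>
      rw [pow_zero, Ideal.one_eq_top, Submodule.top_smul]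
      exact le_sup_right
    | succ j ih =>
      calc (⊤ : Submodule (MvPolynomial ι 𝒪) A)
          ≤ Submodule.span (MvPolynomial ι 𝒪) {(1 : A)} ⊔ 𝔟 • ⊤ := h1
        _ ≤ Submodule.span (MvPolynomial ι 𝒪) {(1 : A)} ⊔
            𝔟 • (Submodule.span (MvPolynomial ι 𝒪) {(1 : A)} ⊔ 𝔟 ^ j • ⊤) :=
          sup_le_sup_left (Submodule.smul_mono le_rfl ih) _
        _ = Submodule.span (MvPolynomial ι 𝒪) {(1 : A)} ⊔
            (𝔟 • Submodule.span (MvPolynomial ι 𝒪) {(1 : A)} ⊔ 𝔟 • 𝔟 ^ j • ⊤) := by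
          rw [Submodule.smul_sup]
        _ ≤ Submodule.span (MvPolynomial ι 𝒪) {(1 : A)} ⊔ 𝔟 ^ (j + 1) • ⊤ := by
          refine sup_le le_sup_left (sup_le (le_sup_of_le_left Submodule.smul_le_right) ?_)
          rw [← Submodule.mul_smul, ← pow_succ']
          exact le_sup_right
  have hbot : 𝔟 ^ n • (⊤ : Submodule (MvPolynomial ι 𝒪) A) = ⊥ := by
    rw [Ideal.smul_top_eq_map, halgmap, Ideal.map_pow, h𝔟, hn]
    rfl
  intro a
  have h3 := key n (Submodule.mem_top : a ∈ ⊤)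
  rw [hbot, sup_bot_eq, Submodule.mem_span_singleton] at h3
  obtain ⟨p, hp⟩ := h3
  refine ⟨p, ?_⟩
  rw [← hp, Algebra.smul_def, mul_one, halgmap]
  rfl

/-- Nilpotent Nakayama for ideals: if `𝔪 = N ⊔ 𝔪 ^ 2` with `𝔪` nilpotent then `𝔪 = N`. -/
theorem eq_of_eq_sup_sq_of_nilpotent {A : Type*} [CommRing A] (m N : Ideal A) (hN : N ≤ m)
    (hnil : ∃ n : ℕ, m ^ n = ⊥) (h : m ≤ N ⊔ m ^ 2) : m = N := by
  obtain ⟨n, hn⟩ := hnil
  have key : ∀ j : ℕ, m ≤ N ⊔ m ^ (j + 1) := by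
    intro j
    induction j with
    | zero => simp
    | succ j ih =>
      have h1 : m ^ (j + 1) ≤ N ⊔ m ^ (j + 2) := by
        calc m ^ (j + 1) = m ^ j * m := pow_succ m j
          _ ≤ m ^ j * (N ⊔ m ^ 2) := Ideal.mul_mono_right h
          _ = m ^ j * N ⊔ m ^ j * m ^ 2 := Ideal.mul_sup _ _ _
          _ ≤ N ⊔ m ^ (j + 2) := sup_le_sup Ideal.mul_le_right (by rw [← pow_add])
      exact ih.trans (sup_le le_sup_left h1)
  apply le_antisymm _ hN
  cases n with
  | zero =>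
    intro x _
    have h2 : (⊤ : Ideal A) = ⊥ := by rw [← hn, pow_zero, Ideal.one_eq_top]
    have hx : x ∈ (⊥ : Ideal A) := h2 ▸ Submodule.mem_top
    rw [Ideal.mem_bot] at hx
    rw [hx]
    exact N.zero_mem
  | succ n =>
    have h3 := key n
    rwa [hn, sup_bot_eq] at h3

end Fermat.Agent.S53
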