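import Fermat.Agent.S53.Defs

/-!
# S53: uniqueness of normal forms (matrix level)
-/

set_option autoImplicit false

namespace Fermat.Agent.S53

open IsLocalRing

variable {𝒪 : Type} [CommRing 𝒪] [IsLocalRing 𝒪] {ρbar : ResidualGaloisRep (ResidueField 𝒪)}

namespace NormalFormU

/-- The residue of an entry of a lift is the image of the residual matrix entry. -/
theorem residue_lift (F : Frame 𝒪 ρbar) (A : Type) [CommRing A] [IsLocalRing A]
    [Algebra 𝒪 A] [IsLocalHom (algebraMap 𝒪 A)]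
    {M : GQ → Matrix (Fin 2) (Fin 2) A} (hM : F.Lifts A M) (σ : GQ) (i j : Fin 2) :
    residue A (M σ i j) =
      ResidueField.map (algebraMap 𝒪 A) (LinearMap.toMatrix F.b F.b (ρbar.ρ σ) i j) := by
  have h1 : residue A (M σ i j - algebraMap 𝒪 A (F.cl σ i j)) = 0 :=
    (residue_eq_zero_iff _).mpr (hM σ i j)
  rw [map_sub, sub_eq_zero] at h1
  rw [h1, ← F.cl_spec σ i j, ResidueField.map_residue]

/-- The `(i0, 0)` entry of the "mixed commutator" of two normalized lifts is a unit. -/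
theorem isUnit_comm (F : Frame 𝒪 ρbar) (A : Type) [CommRing A] [IsLocalRing A]
    [Algebra 𝒪 A] [IsLocalHom (algebraMap 𝒪 A)]
    {M M' : GQ → Matrix (Fin 2) (Fin 2) A} (hM : F.Lifts A M) (hM' : F.Lifts A M') :
    IsUnit ((M F.g * M F.h - M' F.h * M F.g) F.i0 0) := by
  rw [← residue_ne_zero_iff_isUnit]
  have key : residue A ((M F.g * M F.h - M' F.h * M F.g) F.i0 0) =
      ResidueField.map (algebraMap 𝒪 A)
        ((LinearMap.toMatrix F.b F.b (ρbar.ρ F.g) * LinearMap.toMatrix F.b F.b (ρbar.ρ F.h) -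
          LinearMap.toMatrix F.b F.b (ρbar.ρ F.h) * LinearMap.toMatrix F.b F.b (ρbar.ρ F.g))
            F.i0 0) := by
    simp only [Matrix.sub_apply, Matrix.mul_apply, Fin.sum_univ_two, map_sub, map_add, map_mul,
      residue_lift F A hM, residue_lift F A hM']
  rw [key]
  intro h0
  exact F.hcomm ((map_eq_zero _).mp h0)

/-- The residue of the commutator entry of the lifted coefficient matrices is the commutator
entry of the residual matrices, hence nonzero. (helper9's lemma, kept under its original name.) -/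
theorem isUnit_comm_entry (F : Frame 𝒪 ρbar) :
    IsUnit ((F.cl F.g * F.cl F.h - F.cl F.h * F.cl F.g) F.i0 0) := by
  rw [← IsLocalRing.notMem_maximalIdeal, ← IsLocalRing.residue_eq_zero_iff]
  have h := F.hcomm
  simp only [Matrix.sub_apply, Matrix.mul_apply, map_sub, map_sum, map_mul, F.cl_spec] at h ⊢
  exact h

end NormalFormU

/-- Two conjugate normalized lifts are equal. -/
theorem Frame.normLift_unique (F : Frame 𝒪 ρbar) (A : Type) [CommRing A] [IsLocalRing A]
    [Algebra 𝒪 A] [IsLocalHom (algebraMap 𝒪 A)]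
    {M M' : GQ → Matrix (Fin 2) (Fin 2) A} (hM : F.IsNormLift A M) (hM' : F.IsNormLift A M')
    (Q : Matrix (Fin 2) (Fin 2) A) (hQ : IsUnit Q) (h : ∀ σ, Q * M σ = M' σ * Q) : M = M' := by
  obtain ⟨hg00, hg10, hh⟩ := hM.norm
  obtain ⟨hg00', hg10', hh'⟩ := hM'.norm
  have hdet : IsUnit (Q 0 0 * Q 1 1 - Q 0 1 * Q 1 0) := by
    have h1 := (Matrix.isUnit_iff_isUnit_det Q).mp hQ
    rwa [Matrix.det_fin_two] at h1
  -- entries of `Q * C = C' * Q`
  have hg := h F.g
  have e00 := congrFun (congrFun hg 0) 0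
  have e10 := congrFun (congrFun hg 1) 0
  have e01 := congrFun (congrFun hg 0) 1
  have e11 := congrFun (congrFun hg 1) 1
  simp only [Matrix.mul_apply, Fin.sum_univ_two, hg00, hg10, hg00', hg10'] at e00 e10 e01 e11
  have hq01 : Q 0 1 = M' F.g 0 1 * Q 1 0 := by linear_combination e00
  have hq11 : Q 1 1 = Q 0 0 + M' F.g 1 1 * Q 1 0 := by linear_combination e10
  rw [hq01, hq11] at e01 e11 hdet
  -- `C = C'`
  have hc : (Q 0 0 * (Q 0 0 + M' F.g 1 1 * Q 1 0) - M' F.g 0 1 * Q 1 0 * Q 1 0) *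
      (M F.g 0 1 - M' F.g 0 1) = 0 := by
    linear_combination (Q 0 0 + M' F.g 1 1 * Q 1 0) * e01 - (M' F.g 0 1 * Q 1 0) * e11
  have hd : (Q 0 0 * (Q 0 0 + M' F.g 1 1 * Q 1 0) - M' F.g 0 1 * Q 1 0 * Q 1 0) *
      (M F.g 1 1 - M' F.g 1 1) = 0 := by
    linear_combination (Q 0 0) * e11 - (Q 1 0) * e01
  have hc' : M F.g 0 1 = M' F.g 0 1 := sub_eq_zero.mp (hdet.mul_right_eq_zero.mp hc)
  have hd' : M F.g 1 1 = M' F.g 1 1 := sub_eq_zero.mp (hdet.mul_right_eq_zero.mp hd)
  have hq01' : Q 0 1 = M F.g 0 1 * Q 1 0 := by rw [hq01, hc']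
  have hq11' : Q 1 1 = Q 0 0 + M F.g 1 1 * Q 1 0 := by rw [hq11, hd']
  -- `Q 1 0 = 0`
  have hu := NormalFormU.isUnit_comm F A hM.lifts hM'.lifts
  have hYY : M F.h F.i0 0 = M' F.h F.i0 0 := hh.trans hh'.symm
  have hb : Q 1 0 * ((M F.g * M F.h - M' F.h * M F.g) F.i0 0) = 0 := by
    have e := congrFun (congrFun (h F.h) F.i0) 0
    simp only [Matrix.sub_apply, Matrix.mul_apply, Fin.sum_univ_two, hg00, hg10] at e ⊢
    generalize F.i0 = i at hYY e ⊢
    fin_cases i
    · simp only [Fin.zero_eta, hg00] at e hYY ⊢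
      rw [hq01'] at e
      linear_combination e - Q 0 0 * hYY
    · simp only [Fin.mk_one, hg10] at e hYY ⊢
      rw [hq11'] at e
      linear_combination e - Q 0 0 * hYY
  have hb0 : Q 1 0 = 0 := hu.mul_left_eq_zero.mp hb
  have hQ01 : Q 0 1 = 0 := by rw [hq01', hb0, mul_zero]
  have hQ11 : Q 1 1 = Q 0 0 := by rw [hq11', hb0, mul_zero, add_zero]
  have ha : IsUnit (Q 0 0) := by
    rw [hb0] at hdet
    simp only [mul_zero, add_zero, sub_zero] at hdet
    exact isUnit_of_mul_isUnit_left hdet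
  funext σ
  ext i j
  have e := congrFun (congrFun (h σ) i) j
  simp only [Matrix.mul_apply, Fin.sum_univ_two] at e
  have hz : Q 0 0 * (M σ i j - M' σ i j) = 0 := by
    fin_cases i <;> fin_cases j <;>
      simp only [Fin.zero_eta, Fin.mk_one, hb0, hQ01, hQ11, mul_zero, zero_mul, add_zero,
        zero_add] at e ⊢ <;>
      linear_combination e
  exact sub_eq_zero.mp (ha.mul_right_eq_zero.mp hz)

end Fermat.Agent.S53
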