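import Mathlib
import Fermat.Agent.S57.PowerSeries

set_option autoImplicit false

namespace Fermat.Agent.S53.PSC

open MvPowerSeries IsLocalRing Fermat.Agent.S57

section coeffIdeal

variable (σ : Type) (𝒪 : Type) [CommRing 𝒪] [IsLocalRing 𝒪]

/-- Power series whose coefficient at a monomial of degree `e` lies in `𝔪 ^ (n - e)`.
This will be shown to be the `n`-th power of the maximal ideal of the power series ring. -/
def coeffIdeal (n : ℕ) : Ideal (MvPowerSeries σ 𝒪) where
  carrier := {f | ∀ m : σ →₀ ℕ, coeff m f ∈ maximalIdeal 𝒪 ^ (n - Finsupp.degree m)}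
  add_mem' := by
    intro f g hf hg m
    rw [map_add]
    exact Ideal.add_mem _ (hf m) (hg m)
  zero_mem' := by
    intro m
    simp
  smul_mem' := by
    classical
    intro c f hf m
    rw [smul_eq_mul, coeff_mul]
    refine Ideal.sum_mem _ fun p hp => ?_
    have hp' : p.1 + p.2 = m := Finset.HasAntidiagonal.mem_antidiagonal.mp hp
    have hdeg : Finsupp.degree p.2 ≤ Finsupp.degree m := by
      rw [← hp', map_add]
      exact Nat.le_add_left _ _
    exact Ideal.mul_mem_left _ _ (Ideal.pow_le_pow_right (by omega) (hf p.2))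

variable {σ 𝒪}

theorem mem_coeffIdeal {n : ℕ} {f : MvPowerSeries σ 𝒪} :
    f ∈ coeffIdeal σ 𝒪 n ↔
      ∀ m : σ →₀ ℕ, coeff m f ∈ maximalIdeal 𝒪 ^ (n - Finsupp.degree m) := Iff.rfl

theorem mem_maximalIdeal_iff {f : MvPowerSeries σ 𝒪} :
    f ∈ maximalIdeal (MvPowerSeries σ 𝒪) ↔ constantCoeff f ∈ maximalIdeal 𝒪 := by
  rw [mem_maximalIdeal, mem_nonunits_iff, MvPowerSeries.isUnit_iff_constantCoeff,
    mem_maximalIdeal, mem_nonunits_iff]

theorem X_mem_maximalIdeal (i : σ) :
    (X i : MvPowerSeries σ 𝒪) ∈ maximalIdeal (MvPowerSeries σ 𝒪) := by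
  rw [mem_maximalIdeal_iff, constantCoeff_X]
  exact Ideal.zero_mem _

theorem C_mem_maximalIdeal_pow {a : 𝒪} {n : ℕ} (ha : a ∈ maximalIdeal 𝒪 ^ n) :
    (C a : MvPowerSeries σ 𝒪) ∈ maximalIdeal (MvPowerSeries σ 𝒪) ^ n := by
  have h1 : (maximalIdeal 𝒪).map (C : 𝒪 →+* MvPowerSeries σ 𝒪) ≤
      maximalIdeal (MvPowerSeries σ 𝒪) := by
    rw [Ideal.map_le_iff_le_comap]
    intro b hb
    rw [Ideal.mem_comap, mem_maximalIdeal_iff, constantCoeff_C]
    exact hb
  have h2 : (C a : MvPowerSeries σ 𝒪) ∈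
      ((maximalIdeal 𝒪) ^ n).map (C : 𝒪 →+* MvPowerSeries σ 𝒪) := Ideal.mem_map_of_mem _ ha
  rw [Ideal.map_pow] at h2
  exact Ideal.pow_right_mono h1 n h2

/-- `𝔐 * coeffIdeal n ≤ coeffIdeal (n + 1)`. -/
theorem maximalIdeal_mul_coeffIdeal_le (n : ℕ) :
    maximalIdeal (MvPowerSeries σ 𝒪) * coeffIdeal σ 𝒪 n ≤ coeffIdeal σ 𝒪 (n + 1) := by
  classical
  rw [Ideal.mul_le]
  intro g hg f hf m
  rw [coeff_mul]
  refine Ideal.sum_mem _ fun p hp => ?_
  have hp' : p.1 + p.2 = m := Finset.HasAntidiagonal.mem_antidiagonal.mp hp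
  have hdeg : Finsupp.degree p.1 + Finsupp.degree p.2 = Finsupp.degree m := by
    rw [← hp', map_add]
  by_cases h0 : p.1 = 0
  · have hg0 : coeff p.1 g ∈ maximalIdeal 𝒪 := by
      rw [h0]
      exact mem_maximalIdeal_iff.mp hg
    have hf' := hf p.2
    have hd0 : Finsupp.degree p.1 = 0 := by rw [h0]; simp
    by_cases hle : Finsupp.degree m ≤ n
    · have : n + 1 - Finsupp.degree m = (n - Finsupp.degree p.2) + 1 := by omega
      rw [this, pow_succ']
      exact Ideal.mul_mem_mul hg0 hf'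
    · have : n + 1 - Finsupp.degree m = 0 := by omega
      rw [this, pow_zero, Ideal.one_eq_top]
      exact Submodule.mem_top (R := 𝒪) (M := 𝒪)
  · have hd1 : 1 ≤ Finsupp.degree p.1 := by
      rw [Nat.one_le_iff_ne_zero, Ne, Finsupp.degree_eq_zero_iff]
      exact h0
    exact Ideal.mul_mem_left _ _ (Ideal.pow_le_pow_right (by omega) (hf p.2))

theorem maximalIdeal_pow_le_coeffIdeal (n : ℕ) :
    maximalIdeal (MvPowerSeries σ 𝒪) ^ n ≤ coeffIdeal σ 𝒪 n := by
  induction n with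
  | zero =>
    intro f _ m
    simp
  | succ n ih =>
    rw [pow_succ']
    exact (Ideal.mul_mono_right ih).trans (maximalIdeal_mul_coeffIdeal_le n)

/-- Key decomposition step. -/
theorem mem_pow_succ_of_mem_coeffIdeal_of_mem_coordIdeal (n : ℕ)
    (ih : coeffIdeal σ 𝒪 n ≤ maximalIdeal (MvPowerSeries σ 𝒪) ^ n) (J : Finset σ) :
    ∀ f : MvPowerSeries σ 𝒪, f ∈ coeffIdeal σ 𝒪 (n + 1) → f ∈ coordIdeal J →
      f ∈ maximalIdeal (MvPowerSeries σ 𝒪) ^ (n + 1) := by
  classical
  induction J using Finset.induction_on with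
  | empty =>
    intro f _ hf
    have : f = 0 := by
      ext m
      simpa using hf m (by simp)
    rw [this]
    exact Ideal.zero_mem _
  | insert i J hi ihJ =>
    intro f hf1 hf2
    let g : MvPowerSeries σ 𝒪 := fun m => coeff (m + Finsupp.single i 1) f
    have hg : ∀ m, coeff m g = coeff (m + Finsupp.single i 1) f := fun m => rfl
    have hgmem : g ∈ coeffIdeal σ 𝒪 n := by
      intro m
      rw [hg]
      have h1 := hf1 (m + Finsupp.single i 1)
      rw [map_add, Finsupp.degree_single] at h1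
      have : n + 1 - (Finsupp.degree m + 1) = n - Finsupp.degree m := by omega
      rw [this] at h1
      exact h1
    have hXg : X i * g ∈ maximalIdeal (MvPowerSeries σ 𝒪) ^ (n + 1) := by
      rw [pow_succ']
      exact Ideal.mul_mem_mul (X_mem_maximalIdeal i) (ih hgmem)
    have h1 : f - X i * g ∈ coordIdeal J := by
      intro m hm
      rw [map_sub, X_def, coeff_monomial_mul]
      by_cases hmi : m i = 0
      · have hle : ¬ (Finsupp.single i 1 ≤ m) := by
          intro hle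
          have := hle i
          simp [hmi] at this
        rw [if_neg hle, sub_zero]
        apply hf2
        intro j hj
        rcases Finset.mem_insert.mp hj with rfl | hj'
        · exact hmi
        · exact hm j hj'
      · have hle : Finsupp.single i 1 ≤ m := by
          intro j
          by_cases hji : j = i
          · subst hji
            simp only [Finsupp.single_eq_same]
            omega
          · simp [Finsupp.single_eq_of_ne hji]
        rw [if_pos hle, one_mul, hg, tsub_add_cancel_of_le hle, sub_self]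
    have h2 : f - X i * g ∈ coeffIdeal σ 𝒪 (n + 1) :=
      Ideal.sub_mem _ hf1 (maximalIdeal_pow_le_coeffIdeal (n + 1) hXg)
    have h3 : f = (f - X i * g) + X i * g := by ring
    rw [h3]
    exact Ideal.add_mem _ (ihJ _ h2 h1) hXg

theorem coeffIdeal_le_maximalIdeal_pow [Fintype σ] (n : ℕ) :
    coeffIdeal σ 𝒪 n ≤ maximalIdeal (MvPowerSeries σ 𝒪) ^ n := by
  induction n with
  | zero => simp
  | succ n ih =>
    intro f hf
    have hc : (C (constantCoeff f) : MvPowerSeries σ 𝒪) ∈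
        maximalIdeal (MvPowerSeries σ 𝒪) ^ (n + 1) := by
      apply C_mem_maximalIdeal_pow
      have := hf 0
      simpa using this
    have h1 : f - C (constantCoeff f) ∈ coordIdeal (Finset.univ : Finset σ) := by
      intro m hm
      have hm0 : m = 0 := by
        ext j
        exact hm j (Finset.mem_univ j)
      subst hm0
      simp
    have h2 : f - C (constantCoeff f) ∈ coeffIdeal σ 𝒪 (n + 1) :=
      Ideal.sub_mem _ hf (maximalIdeal_pow_le_coeffIdeal (n + 1) hc)
    have h3 : f = (f - C (constantCoeff f)) + C (constantCoeff f) := by ring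
    rw [h3]
    exact Ideal.add_mem _
      (mem_pow_succ_of_mem_coeffIdeal_of_mem_coordIdeal n ih Finset.univ _ h2 h1) hc

/-- (E1b) Coefficientwise description of the powers of the maximal ideal of `𝒪⟦X₁, …, X_d⟧`. -/
theorem mem_maximalIdeal_pow_iff [Fintype σ] {n : ℕ} {f : MvPowerSeries σ 𝒪} :
    f ∈ maximalIdeal (MvPowerSeries σ 𝒪) ^ n ↔
      ∀ m : σ →₀ ℕ, coeff m f ∈ maximalIdeal 𝒪 ^ (n - Finsupp.degree m) :=
  ⟨fun h => maximalIdeal_pow_le_coeffIdeal n h, fun h => coeffIdeal_le_maximalIdeal_pow n h⟩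

end coeffIdeal

section complete

variable {σ : Type} [Fintype σ] {𝒪 : Type} [CommRing 𝒪] [IsLocalRing 𝒪]

theorem isHausdorff_mvPowerSeries [IsHausdorff (maximalIdeal 𝒪) 𝒪] :
    IsHausdorff (maximalIdeal (MvPowerSeries σ 𝒪)) (MvPowerSeries σ 𝒪) := by
  refine ⟨fun f hf => ?_⟩
  ext m
  rw [map_zero]
  apply IsHausdorff.haus (inferInstance : IsHausdorff (maximalIdeal 𝒪) 𝒪)
  intro n
  have h1 := hf (n + Finsupp.degree m)
  rw [SModEq.zero, smul_eq_mul, Ideal.mul_top, mem_maximalIdeal_pow_iff] at h1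
  have h2 := h1 m
  rw [Nat.add_sub_cancel] at h2
  rw [SModEq.zero, smul_eq_mul, Ideal.mul_top]
  exact h2

theorem isPrecomplete_mvPowerSeries [IsPrecomplete (maximalIdeal 𝒪) 𝒪] :
    IsPrecomplete (maximalIdeal (MvPowerSeries σ 𝒪)) (MvPowerSeries σ 𝒪) := by
  refine ⟨fun f hf => ?_⟩
  have hC : ∀ m : σ →₀ ℕ, ∃ c : 𝒪, ∀ n, coeff m (f (n + Finsupp.degree m)) ≡ c
      [SMOD (maximalIdeal 𝒪 ^ n • ⊤ : Submodule 𝒪 𝒪)] := by
    intro m
    apply IsPrecomplete.prec (inferInstance : IsPrecomplete (maximalIdeal 𝒪) 𝒪)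
    intro a b hab
    have h1 := hf (show a + Finsupp.degree m ≤ b + Finsupp.degree m by omega)
    rw [SModEq.sub_mem, smul_eq_mul, Ideal.mul_top, mem_maximalIdeal_pow_iff] at h1
    have h2 := h1 m
    rw [Nat.add_sub_cancel, map_sub] at h2
    rw [SModEq.sub_mem, smul_eq_mul, Ideal.mul_top]
    exact h2
  choose c hc using hC
  refine ⟨fun m => c m, fun n => ?_⟩
  rw [SModEq.sub_mem, smul_eq_mul, Ideal.mul_top, mem_maximalIdeal_pow_iff]
  intro m
  rw [map_sub]
  by_cases hle : Finsupp.degree m ≤ n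
  · obtain ⟨n0, rfl⟩ : ∃ n0, n = n0 + Finsupp.degree m := ⟨n - Finsupp.degree m, by omega⟩
    rw [Nat.add_sub_cancel]
    have h3 := hc m n0
    rw [SModEq.sub_mem, smul_eq_mul, Ideal.mul_top] at h3
    exact h3
  · have h4 : n - Finsupp.degree m = 0 := by omega
    rw [h4, pow_zero, Ideal.one_eq_top]
    exact Submodule.mem_top (R := 𝒪) (M := 𝒪)

/-- (E1) The power series ring over a complete local ring is complete for its maximal ideal. -/
theorem isAdicComplete_mvPowerSeries' [IsAdicComplete (maximalIdeal 𝒪) 𝒪] :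
    IsAdicComplete (maximalIdeal (MvPowerSeries σ 𝒪)) (MvPowerSeries σ 𝒪) :=
  { toIsHausdorff := isHausdorff_mvPowerSeries
    toIsPrecomplete := isPrecomplete_mvPowerSeries }

end complete

/-- (E1) in the announced form. -/
theorem isAdicComplete_mvPowerSeries (d : ℕ) (𝒪 : Type) [CommRing 𝒪] [IsLocalRing 𝒪]
    [IsAdicComplete (maximalIdeal 𝒪) 𝒪] :
    IsAdicComplete (maximalIdeal (MvPowerSeries (Fin d) 𝒪)) (MvPowerSeries (Fin d) 𝒪) :=
  isAdicComplete_mvPowerSeries'

/-- (E4) Finiteness of the quotients by powers of the maximal ideal. -/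
theorem finite_quotient_maximalIdeal_pow {σ : Type} [Finite σ] {𝒪 : Type} [CommRing 𝒪]
    [IsLocalRing 𝒪] [IsNoetherianRing 𝒪] [Finite (ResidueField 𝒪)] (n : ℕ) :
    Finite (MvPowerSeries σ 𝒪 ⧸ maximalIdeal (MvPowerSeries σ 𝒪) ^ n) := by
  let q : 𝒪 →+* MvPowerSeries σ 𝒪 ⧸ maximalIdeal (MvPowerSeries σ 𝒪) :=
    (Ideal.Quotient.mk (maximalIdeal (MvPowerSeries σ 𝒪))).comp (C : 𝒪 →+* MvPowerSeries σ 𝒪)
  have hq : ∀ a ∈ maximalIdeal 𝒪, q a = 0 := by
    intro a ha
    rw [RingHom.comp_apply, Ideal.Quotient.eq_zero_iff_mem, mem_maximalIdeal_iff, constantCoeff_C]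
    exact ha
  have h1 : Function.Surjective (Ideal.Quotient.lift (maximalIdeal 𝒪) q hq) := by
    intro x
    obtain ⟨f, rfl⟩ := Ideal.Quotient.mk_surjective x
    refine ⟨Ideal.Quotient.mk _ (constantCoeff f), ?_⟩
    rw [Ideal.Quotient.lift_mk, RingHom.comp_apply, Ideal.Quotient.eq, mem_maximalIdeal_iff]
    simp
  have h2 : Finite (𝒪 ⧸ maximalIdeal 𝒪) := ‹Finite (ResidueField 𝒪)›
  have h4 : Finite (MvPowerSeries σ 𝒪 ⧸ maximalIdeal (MvPowerSeries σ 𝒪)) :=
    Finite.of_surjective _ h1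
  exact Ideal.finite_quotient_pow (IsNoetherian.noetherian _) n

end Fermat.Agent.S53.PSC
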