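import Mathlib
import Fermat.Agent.S57.PowerSeries

/-!
# S53: evaluating power series at nilpotent elements
-/

set_option autoImplicit false

namespace Fermat.Agent.S53

namespace PowerSeriesEval

open MvPowerSeries Fermat.Agent.S57

variable {σ : Type} {𝒪 : Type} [CommRing 𝒪]

/-- Inner induction for `mem_span_X_pow_of_coeff_eq_zero`. -/
theorem mem_span_X_pow_succ_of_mem_coordIdeal (N : ℕ)
    (ih : ∀ f : MvPowerSeries σ 𝒪, (∀ x, Finsupp.degree x < N → coeff x f = 0) →
      f ∈ (Ideal.span (Set.range (X : σ → MvPowerSeries σ 𝒪))) ^ N) (J : Finset σ) :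
    ∀ f : MvPowerSeries σ 𝒪, (∀ x, Finsupp.degree x < N + 1 → coeff x f = 0) →
      f ∈ coordIdeal J →
      f ∈ (Ideal.span (Set.range (X : σ → MvPowerSeries σ 𝒪))) ^ (N + 1) := by
  classical
  induction J using Finset.induction_on with
  | empty =>
    intro f _ hf
    have : f = 0 := by
      ext m
      simpa using hf m (by simp)
    rw [this]
    exact Ideal.zero_mem _
  | insert i J hi ihJ =>
    intro f hf1 hf2
    let g : MvPowerSeries σ 𝒪 := fun m => coeff (m + Finsupp.single i 1) f
    have hg : ∀ m, coeff m g = coeff (m + Finsupp.single i 1) f := fun m => rfl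
    have hgmem : g ∈ (Ideal.span (Set.range (X : σ → MvPowerSeries σ 𝒪))) ^ N := by
      apply ih
      intro x hx
      rw [hg]
      apply hf1
      rw [map_add, Finsupp.degree_single]
      omega
    have hXg : X i * g ∈ (Ideal.span (Set.range (X : σ → MvPowerSeries σ 𝒪))) ^ (N + 1) := by
      rw [pow_succ']
      exact Ideal.mul_mem_mul (Ideal.subset_span ⟨i, rfl⟩) hgmem
    have hcoef : ∀ m, coeff m (f - X i * g) = if m i = 0 then coeff m f else 0 := by
      intro m
      rw [map_sub, X_def, coeff_monomial_mul]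
      by_cases hmi : m i = 0
      · have hle : ¬ (Finsupp.single i 1 ≤ m) := by
          intro hle
          have := hle i
          simp [hmi] at this
        rw [if_neg hle, sub_zero, if_pos hmi]
      · have hle : Finsupp.single i 1 ≤ m := by
          intro j
          by_cases hji : j = i
          · subst hji
            simp only [Finsupp.single_eq_same]
            omega
          · simp [Finsupp.single_eq_of_ne hji]
        rw [if_pos hle, one_mul, hg, tsub_add_cancel_of_le hle, sub_self, if_neg hmi]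
    have h1 : f - X i * g ∈ coordIdeal J := by
      intro m hm
      rw [hcoef]
      split_ifs with hmi
      · apply hf2
        intro j hj
        rcases Finset.mem_insert.mp hj with rfl | hj'
        · exact hmi
        · exact hm j hj'
      · rfl
    have h2 : ∀ x, Finsupp.degree x < N + 1 → coeff x (f - X i * g) = 0 := by
      intro x hx
      rw [hcoef]
      split_ifs
      · exact hf1 x hx
      · rfl
    have h3 : f = (f - X i * g) + X i * g := by ring
    rw [h3]
    exact Ideal.add_mem _ (ihJ _ h2 h1) hXg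

/-- A power series all of whose coefficients of total degree `< N` vanish lies in the `N`-th
power of the ideal generated by the variables (finitely many variables). -/
theorem mem_span_X_pow_of_coeff_eq_zero [Fintype σ] (N : ℕ) :
    ∀ f : MvPowerSeries σ 𝒪, (∀ x, Finsupp.degree x < N → coeff x f = 0) →
      f ∈ (Ideal.span (Set.range (X : σ → MvPowerSeries σ 𝒪))) ^ N := by
  induction N with
  | zero =>
    intro f _
    simp
  | succ N ih =>
    intro f hf
    refine mem_span_X_pow_succ_of_mem_coordIdeal N ih Finset.univ f hf ?_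
    intro m hm
    have hm0 : m = 0 := by
      ext j
      exact hm j (Finset.mem_univ j)
    subst hm0
    exact hf 0 (by simp)

end PowerSeriesEval

/-- Polynomials are dense in power series for the adic topology of the ideal of variables. -/
theorem exists_poly_sub_mem {𝒪 : Type} [CommRing 𝒪] {m : ℕ} (s : MvPowerSeries (Fin m) 𝒪)
    (N : ℕ) : ∃ p : MvPolynomial (Fin m) 𝒪, s - (p : MvPowerSeries (Fin m) 𝒪) ∈
      (Ideal.span (Set.range (MvPowerSeries.X : Fin m → MvPowerSeries (Fin m) 𝒪))) ^ N := by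
  refine ⟨MvPowerSeries.truncTotal N s, ?_⟩
  apply PowerSeriesEval.mem_span_X_pow_of_coeff_eq_zero
  intro x hx
  rw [map_sub, MvPolynomial.coeff_coe, MvPowerSeries.coeff_truncTotal _ hx, sub_self]

/-- Evaluation of power series at a family generating a nilpotent ideal. -/
theorem exists_powerSeries_eval {𝒪 : Type} [CommRing 𝒪] (A : Type) [CommRing A] [Algebra 𝒪 A]
    {m : ℕ} (y : Fin m → A) (n : ℕ) (hy : Ideal.span (Set.range y) ^ n = ⊥) :
    ∃ ψ : MvPowerSeries (Fin m) 𝒪 →ₐ[𝒪] A,
      (∀ p : MvPolynomial (Fin m) 𝒪, ψ (p : MvPowerSeries (Fin m) 𝒪) = MvPolynomial.aeval y p) ∧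
      (Ideal.span (Set.range (MvPowerSeries.X : Fin m → MvPowerSeries (Fin m) 𝒪))) ^ n ≤
        RingHom.ker (ψ : MvPowerSeries (Fin m) 𝒪 →+* A) := by
  have hkill : ∀ p ∈ MvPolynomial.idealOfVars (Fin m) 𝒪 ^ n,
      (MvPolynomial.aeval y : MvPolynomial (Fin m) 𝒪 →ₐ[𝒪] A).toRingHom p = 0 := by
    intro p hp
    have h1 : (MvPolynomial.aeval y : MvPolynomial (Fin m) 𝒪 →ₐ[𝒪] A).toRingHom p ∈
        Ideal.map (MvPolynomial.aeval y : MvPolynomial (Fin m) 𝒪 →ₐ[𝒪] A).toRingHom
          (MvPolynomial.idealOfVars (Fin m) 𝒪 ^ n) := Ideal.mem_map_of_mem _ hp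
    rw [Ideal.map_pow, MvPolynomial.idealOfVars, Ideal.map_span, ← Set.range_comp] at h1
    have h2 : ((MvPolynomial.aeval y : MvPolynomial (Fin m) 𝒪 →ₐ[𝒪] A).toRingHom ∘
        MvPolynomial.X) = y := by
      funext i
      simp
    rw [h2, hy] at h1
    exact h1
  let L : MvPolynomial (Fin m) 𝒪 ⧸ MvPolynomial.idealOfVars (Fin m) 𝒪 ^ n →+* A :=
    Ideal.Quotient.lift _ (MvPolynomial.aeval y : MvPolynomial (Fin m) 𝒪 →ₐ[𝒪] A).toRingHom hkill
  let ψ0 : MvPowerSeries (Fin m) 𝒪 →+* A :=
    L.comp (MvPowerSeries.truncTotalAlgHom (Fin m) 𝒪 n).toRingHom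
  have hψ0 : ∀ p : MvPolynomial (Fin m) 𝒪,
      ψ0 (p : MvPowerSeries (Fin m) 𝒪) = MvPolynomial.aeval y p := by
    intro p
    have h1 : (MvPowerSeries.truncTotalAlgHom (Fin m) 𝒪 n) (p : MvPowerSeries (Fin m) 𝒪) =
        Ideal.Quotient.mk _ p :=
      (MvPowerSeries.truncTotalAlgHom (Fin m) 𝒪 n).commutes p
    show L ((MvPowerSeries.truncTotalAlgHom (Fin m) 𝒪 n) (p : MvPowerSeries (Fin m) 𝒪)) = _
    rw [h1]
    rfl
  have hX : ∀ i, ψ0 (MvPowerSeries.X i) = y i := by
    intro i
    rw [← MvPolynomial.coe_X, hψ0, MvPolynomial.aeval_X]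
  refine ⟨{ ψ0 with commutes' := ?_ }, ?_, ?_⟩
  · intro c
    show ψ0 (algebraMap 𝒪 (MvPowerSeries (Fin m) 𝒪) c) = algebraMap 𝒪 A c
    have h1 : algebraMap 𝒪 (MvPowerSeries (Fin m) 𝒪) c =
        ((MvPolynomial.C c : MvPolynomial (Fin m) 𝒪) : MvPowerSeries (Fin m) 𝒪) := by
      rw [MvPolynomial.coe_C]
      rfl
    rw [h1, hψ0, MvPolynomial.aeval_C]
  · intro p
    exact hψ0 p
  · intro f hf
    have h1 : ψ0 f ∈ Ideal.map ψ0
        ((Ideal.span (Set.range (MvPowerSeries.X : Fin m → MvPowerSeries (Fin m) 𝒪))) ^ n) :=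
      Ideal.mem_map_of_mem _ hf
    rw [Ideal.map_pow, Ideal.map_span, ← Set.range_comp] at h1
    have h2 : (ψ0 ∘ (MvPowerSeries.X : Fin m → MvPowerSeries (Fin m) 𝒪)) = y := by
      funext i
      exact hX i
    rw [h2, hy] at h1
    exact h1

end Fermat.Agent.S53
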