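import Mathlib

/-!
# Pro-limit core lemma for S53

A commutative `O`-algebra `R` which is "the inverse limit" of a directed family of finite local
quotients `π j : R → A j` with uniformly bounded tangent dimension is a complete Noetherian
local ring.
-/

namespace Fermat.Agent.S53.ProCore

open IsLocalRing CategoryTheory

universe u v w w'

set_option linter.unusedSectionVars false

section PowerSeries

variable {O : Type u} [CommRing O] {R : Type v} [CommRing R] [Algebra O R]
  {σ : Type w} [Finite σ]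

/-- Evaluation of power series at a family generating an ideal for which the target is
adically complete. -/
theorem exists_algHom_mvPowerSeries (x : σ → R) [IsAdicComplete (Ideal.span (Set.range x)) R] :
    ∃ Φ : MvPowerSeries σ O →ₐ[O] R,
      ∀ p : MvPolynomial σ O, Φ (p : MvPowerSeries σ O) = MvPolynomial.aeval x p := by
  have hI : ∀ n, MvPolynomial.idealOfVars σ O ^ n ≤
      Ideal.comap (MvPolynomial.aeval x : MvPolynomial σ O →ₐ[O] R)
        (Ideal.span (Set.range x) ^ n) := by
    intro n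
    rw [← Ideal.map_le_iff_le_comap, Ideal.map_pow]
    refine Ideal.pow_right_mono ?_ n
    rw [Ideal.map_span, ← Set.range_comp]
    refine Ideal.span_mono ?_
    rintro _ ⟨i, rfl⟩
    exact ⟨i, by simp⟩
  let f : ∀ n, MvPowerSeries σ O →ₐ[O] R ⧸ Ideal.span (Set.range x) ^ n := fun n =>
    (Ideal.quotientMapₐ (Ideal.span (Set.range x) ^ n)
      (MvPolynomial.aeval x : MvPolynomial σ O →ₐ[O] R) (hI n)).comp
      ((MvPowerSeries.truncTotalAlgHom σ O n).restrictScalars O)
  have hfapp : ∀ n (s : MvPowerSeries σ O), f n s =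
      Ideal.Quotient.mk (Ideal.span (Set.range x) ^ n)
        (MvPolynomial.aeval x (MvPowerSeries.truncTotal n s)) := fun n s => rfl
  have hf : ∀ {m n : ℕ} (hle : m ≤ n),
      (Ideal.Quotient.factorₐ O (Ideal.pow_le_pow_right hle)).comp (f n) = f m := by
    intro m n hle
    refine AlgHom.ext fun s => ?_
    rw [AlgHom.comp_apply, hfapp, hfapp, Ideal.Quotient.factorₐ_apply_mk,
      Ideal.Quotient.eq, ← map_sub]
    exact hI m (MvPowerSeries.truncTotal_sub_truncTotal_mem_pow_idealOfVars hle le_rfl s)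
  refine ⟨IsAdicComplete.liftAlgHom (Ideal.span (Set.range x)) f hf, fun p => ?_⟩
  rw [← sub_eq_zero]
  refine IsHausdorff.haus (inferInstance : IsHausdorff (Ideal.span (Set.range x)) R) _ fun n => ?_
  rw [SModEq.zero, smul_eq_mul, Ideal.mul_top, ← Ideal.Quotient.eq,
    IsAdicComplete.mk_liftAlgHom, hfapp, Ideal.Quotient.eq, ← map_sub]
  refine hI n ?_
  rw [MvPolynomial.mem_pow_idealOfVars_iff']
  intro y hy
  rw [MvPolynomial.coeff_sub, MvPowerSeries.coeff_truncTotal _ hy, MvPolynomial.coeff_coe,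
    sub_self]

/-- A map out of a power series ring is surjective as soon as it is surjective modulo the
images of the variables, provided the target is separated for the ideal they generate. -/
theorem surjective_of_mvPowerSeries (x : σ → R) [IsHausdorff (Ideal.span (Set.range x)) R]
    (Φ : MvPowerSeries σ O →ₐ[O] R) (hΦ : ∀ i, Φ (MvPowerSeries.X i) = x i)
    (hsurj : Function.Surjective
      ((Ideal.Quotient.mk (Ideal.span (Set.range x))).comp (algebraMap O R))) :
    Function.Surjective Φ := by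
  have hmap : Ideal.map (Φ : MvPowerSeries σ O →+* R)
      (Ideal.span (Set.range (MvPowerSeries.X : σ → MvPowerSeries σ O))) =
      Ideal.span (Set.range x) := by
    rw [Ideal.map_span, ← Set.range_comp]
    congr 2
    funext i
    exact hΦ i
  have haus : IsHausdorff (Ideal.map (Φ : MvPowerSeries σ O →+* R)
      (Ideal.span (Set.range (MvPowerSeries.X : σ → MvPowerSeries σ O)))) R := by
    rw [hmap]
    infer_instance
  refine surjective_of_mk_map_comp_surjective (Φ : MvPowerSeries σ O →+* R)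
    (I := Ideal.span (Set.range (MvPowerSeries.X : σ → MvPowerSeries σ O))) ?_
  intro y
  obtain ⟨r, rfl⟩ := Ideal.Quotient.mk_surjective y
  obtain ⟨a, ha⟩ := hsurj (Ideal.Quotient.mk _ r)
  refine ⟨algebraMap O (MvPowerSeries σ O) a, ?_⟩
  rw [RingHom.comp_apply, Ideal.Quotient.eq] at ha ⊢
  rw [hmap]
  have e : (Φ : MvPowerSeries σ O →+* R) (algebraMap O (MvPowerSeries σ O) a) =
      algebraMap O R a := Φ.commutes a
  rw [e]
  exact ha

end PowerSeries

variable {O : Type u} [CommRing O] [IsLocalRing O] [IsNoetherianRing O]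
  {R : Type v} [CommRing R] [Algebra O R]
  {J : Type w} {A : J → Type w'} [∀ j, CommRing (A j)] [∀ j, Algebra O (A j)]
  [∀ j, Finite (A j)] [∀ j, IsLocalRing (A j)]

/-- The hypotheses: `R` is separated and complete for a directed family of surjections onto
finite local `O`-algebras with residue field generated by `O` and tangent dimension `≤ d`. -/
structure Hyp (π : ∀ j, R →ₐ[O] A j) (d : ℕ) : Prop where
  nonempty : Nonempty J
  surj : ∀ j, Function.Surjective (π j)
  dir : ∀ j j', ∃ l, RingHom.ker (π l) ≤ RingHom.ker (π j) ∧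
    RingHom.ker (π l) ≤ RingHom.ker (π j')
  sep : ∀ r : R, (∀ j, π j r = 0) → r = 0
  cpl : ∀ x : ∀ j, A j,
    (∀ j l, RingHom.ker (π l) ≤ RingHom.ker (π j) → ∀ r, π l r = x l → π j r = x j) →
      ∃ r, ∀ j, π j r = x j
  res : ∀ j, Function.Surjective (IsLocalRing.residue (A j) ∘ algebraMap O (A j))
  tan : ∀ j, ∃ s : Fin d → A j, (∀ i, s i ∈ maximalIdeal (A j)) ∧
    maximalIdeal (A j) ≤ Ideal.span (Set.range s) ⊔
      (maximalIdeal O).map (algebraMap O (A j)) ⊔ maximalIdeal (A j) ^ 2

variable {π : ∀ j, R →ₐ[O] A j} {d : ℕ}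

theorem eq_of_ker_le {j l : J} (hle : RingHom.ker (π l) ≤ RingHom.ker (π j)) {r r' : R}
    (h : π l r = π l r') : π j r = π j r' := by
  have h1 : r - r' ∈ RingHom.ker (π l) := by
    rw [RingHom.mem_ker, map_sub, h, sub_self]
  have h2 := hle h1
  rw [RingHom.mem_ker, map_sub, sub_eq_zero] at h2
  exact h2

/-- Compactness principle: a compatible family of nonempty subsets of the finite sets
`Fin n → A j` has a simultaneous lift to `R`. -/
theorem Hyp.exists_lift (h : Hyp π d) {n : ℕ} (X : ∀ j, Set (Fin n → A j))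
    (hne : ∀ j, (X j).Nonempty)
    (hcompat : ∀ j l, RingHom.ker (π l) ≤ RingHom.ker (π j) → ∀ y : Fin n → R,
      (fun i => π l (y i)) ∈ X l → (fun i => π j (y i)) ∈ X j) :
    ∃ y : Fin n → R, ∀ j, (fun i => π j (y i)) ∈ X j := by
  classical
  let _ : Preorder J := Preorder.lift (fun j => OrderDual.toDual (RingHom.ker (π j)))
  have hle_iff : ∀ j l : J, j ≤ l ↔ RingHom.ker (π l) ≤ RingHom.ker (π j) := fun j l => Iff.rfl
  have : IsDirectedOrder J := ⟨fun j j' => by
    obtain ⟨l, h1, h2⟩ := h.dir j j'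
    exact ⟨l, (hle_iff j l).mpr h1, (hle_iff j' l).mpr h2⟩⟩
  -- a set-theoretic section of each projection
  let σ : ∀ j, A j → R := fun j => Function.surjInv (h.surj j)
  have hσ : ∀ j a, π j (σ j a) = a := fun j a => Function.surjInv_eq (h.surj j) a
  let ρ : ∀ {j l : Jᵒᵖ}, (j ⟶ l) → {y : Fin n → A j.unop // y ∈ X j.unop} →
      {y : Fin n → A l.unop // y ∈ X l.unop} := fun {j l} f y =>
    ⟨fun i => π l.unop (σ j.unop (y.1 i)), by
      have hle : RingHom.ker (π j.unop) ≤ RingHom.ker (π l.unop) :=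
        (hle_iff l.unop j.unop).mp (leOfHom f.unop)
      refine hcompat l.unop j.unop hle (fun i => σ j.unop (y.1 i)) ?_
      have : (fun i => π j.unop (σ j.unop (y.1 i))) = y.1 := funext fun i => hσ _ _
      rw [this]
      exact y.2⟩
  let F : Jᵒᵖ ⥤ Type w' :=
    { obj := fun j => {y : Fin n → A j.unop // y ∈ X j.unop}
      map := fun {j l} f => TypeCat.ofHom (ρ f)
      map_id := fun j => by
        ext y i
        exact hσ _ _
      map_comp := fun {j l m} f g => by
        ext y i
        have hle : RingHom.ker (π l.unop) ≤ RingHom.ker (π m.unop) :=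
          (hle_iff m.unop l.unop).mp (leOfHom g.unop)
        show π m.unop (σ j.unop (y.1 i)) = π m.unop (σ l.unop (π l.unop (σ j.unop (y.1 i))))
        exact eq_of_ker_le hle (hσ _ _).symm }
  have : ∀ j : Jᵒᵖ, Finite (F.obj j) := fun j => by
    show Finite {y : Fin n → A j.unop // y ∈ X j.unop}
    infer_instance
  have : ∀ j : Jᵒᵖ, Nonempty (F.obj j) := fun j => by
    obtain ⟨y, hy⟩ := hne j.unop
    exact ⟨⟨y, hy⟩⟩
  obtain ⟨u, hu⟩ := nonempty_sections_of_finite_inverse_system F
  -- the coordinates of the section are compatible families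
  have hcoord : ∀ i : Fin n, ∃ r : R, ∀ j, π j r = (u (Opposite.op j)).1 i := by
    intro i
    refine h.cpl (fun j => (u (Opposite.op j)).1 i) ?_
    intro j l hle r hr
    have hjl : j ≤ l := (hle_iff j l).mpr hle
    have hsec := hu (homOfLE hjl).op
    have h2 : (u (Opposite.op j)).1 i = π j (σ l ((u (Opposite.op l)).1 i)) := by
      rw [← hsec]
      rfl
    rw [h2]
    exact eq_of_ker_le hle (by rw [hr, hσ])
  choose y hy using hcoord
  refine ⟨y, fun j => ?_⟩
  have : (fun i => π j (y i)) = (u (Opposite.op j)).1 := funext fun i => hy i j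
  rw [this]
  exact (u (Opposite.op j)).2

/-- Finitely generated ideals of `R` are closed. -/
theorem Hyp.mem_of_forall_mem_sup (h : Hyp π d) {𝔞 : Ideal R} (hfg : 𝔞.FG) {b : R}
    (hb : ∀ j, b ∈ 𝔞 ⊔ RingHom.ker (π j)) : b ∈ 𝔞 := by
  obtain ⟨n, a, rfl⟩ := Submodule.fg_iff_exists_fin_generating_family.mp hfg
  let X : ∀ j, Set (Fin n → A j) := fun j => {y | ∑ i, π j (a i) * y i = π j b}
  have hne : ∀ j, (X j).Nonempty := by
    intro j
    obtain ⟨α, hα, κ, hκ, hsum⟩ := Submodule.mem_sup.mp (hb j)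
    obtain ⟨c, hc⟩ := (Submodule.mem_span_range_iff_exists_fun R).mp hα
    refine ⟨fun i => π j (c i), ?_⟩
    show ∑ i, π j (a i) * π j (c i) = π j b
    rw [← hsum, map_add, (RingHom.mem_ker).mp hκ, add_zero, ← hc, map_sum]
    refine Finset.sum_congr rfl fun i _ => ?_
    rw [smul_eq_mul, map_mul, mul_comm]
  have hcompat : ∀ j l, RingHom.ker (π l) ≤ RingHom.ker (π j) → ∀ y : Fin n → R,
      (fun i => π l (y i)) ∈ X l → (fun i => π j (y i)) ∈ X j := by
    intro j l hle y hy
    have hy' : π l (∑ i, a i * y i) = π l b := by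
      rw [map_sum]
      have hy2 : ∑ i, π l (a i) * π l (y i) = π l b := hy
      simpa only [map_mul] using hy2
    have := eq_of_ker_le hle hy'
    show ∑ i, π j (a i) * π j (y i) = π j b
    rw [← this, map_sum]
    simp only [map_mul]
  obtain ⟨y, hy⟩ := h.exists_lift X hne hcompat
  have hby : b = ∑ i, a i * y i := by
    rw [← sub_eq_zero]
    refine h.sep _ fun j => ?_
    have := hy j
    rw [map_sub, map_sum, sub_eq_zero]
    simpa only [map_mul] using this.symm
  rw [hby]
  refine Ideal.sum_mem _ fun i _ => ?_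
  exact Ideal.mul_mem_right _ _ (Ideal.subset_span ⟨i, rfl⟩)

/-- The pullback of the maximal ideal of `A j`. -/
theorem Hyp.comap_isMaximal (h : Hyp π d) (j : J) :
    (Ideal.comap (π j) (maximalIdeal (A j))).IsMaximal :=
  Ideal.comap_isMaximal_of_surjective (π j) (h.surj j)

theorem Hyp.comap_le_comap (h : Hyp π d) {j l : J}
    (hle : RingHom.ker (π l) ≤ RingHom.ker (π j)) :
    Ideal.comap (π j) (maximalIdeal (A j)) ≤ Ideal.comap (π l) (maximalIdeal (A l)) := by
  intro r hr
  rw [Ideal.mem_comap, mem_maximalIdeal, mem_nonunits_iff] at hr ⊢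
  intro hu
  apply hr
  obtain ⟨b, hb⟩ := hu.exists_right_inv
  obtain ⟨s, rfl⟩ := h.surj l b
  have h1 : π l (r * s) = π l 1 := by rw [map_mul, hb, map_one]
  have h2 := eq_of_ker_le hle h1
  rw [map_mul, map_one] at h2
  exact IsUnit.of_mul_eq_one _ h2

theorem Hyp.comap_eq_comap (h : Hyp π d) (j j' : J) :
    Ideal.comap (π j) (maximalIdeal (A j)) = Ideal.comap (π j') (maximalIdeal (A j')) := by
  obtain ⟨l, h1, h2⟩ := h.dir j j'
  have e1 := (h.comap_isMaximal j).eq_of_le (h.comap_isMaximal l).ne_top (h.comap_le_comap h1)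
  have e2 := (h.comap_isMaximal j').eq_of_le (h.comap_isMaximal l).ne_top (h.comap_le_comap h2)
  rw [e1, e2]

theorem Hyp.isUnit_of_not_mem (h : Hyp π d) (j₀ : J) {r : R}
    (hr : r ∉ Ideal.comap (π j₀) (maximalIdeal (A j₀))) : IsUnit r := by
  have h1 : (1 : R) ∈ Ideal.span {r} := by
    refine h.mem_of_forall_mem_sup ⟨{r}, by simp⟩ fun j => ?_
    rw [h.comap_eq_comap j₀ j, Ideal.mem_comap, mem_maximalIdeal, mem_nonunits_iff, not_not] at hr
    obtain ⟨b, hb⟩ := hr.exists_right_inv
    obtain ⟨s, rfl⟩ := h.surj j b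
    have h2 : (1 : R) = r * s + (1 - r * s) := by ring
    rw [h2]
    refine Submodule.add_mem_sup (Ideal.mul_mem_right _ _ (Ideal.mem_span_singleton_self r)) ?_
    rw [RingHom.mem_ker, map_sub, map_mul, hb, map_one, sub_self]
  rw [← Ideal.span_singleton_eq_top, Ideal.eq_top_iff_one]
  exact h1

/-- `R` is a local ring. -/
theorem Hyp.isLocalRing (h : Hyp π d) : IsLocalRing R := by
  obtain ⟨j₀⟩ := h.nonempty
  have : Nontrivial R := (π j₀ : R →+* A j₀).domain_nontrivial
  refine IsLocalRing.of_nonunits_add fun a b ha hb => ?_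
  have ha' : a ∈ Ideal.comap (π j₀) (maximalIdeal (A j₀)) := by
    by_contra hcon
    exact ha (h.isUnit_of_not_mem j₀ hcon)
  have hb' : b ∈ Ideal.comap (π j₀) (maximalIdeal (A j₀)) := by
    by_contra hcon
    exact hb (h.isUnit_of_not_mem j₀ hcon)
  intro hu
  exact (h.comap_isMaximal j₀).ne_top (Ideal.eq_top_of_isUnit_mem _ (Ideal.add_mem _ ha' hb') hu)

section Local

variable [IsLocalRing R]

theorem Hyp.comap_maximalIdeal (h : Hyp π d) (j : J) :
    Ideal.comap (π j) (maximalIdeal (A j)) = maximalIdeal R :=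
  IsLocalRing.eq_maximalIdeal (h.comap_isMaximal j)

theorem Hyp.map_maximalIdeal (h : Hyp π d) (j : J) :
    Ideal.map (π j) (maximalIdeal R) = maximalIdeal (A j) := by
  rw [← h.comap_maximalIdeal j, Ideal.map_comap_of_surjective _ (h.surj j)]

theorem Hyp.ker_le_maximalIdeal (h : Hyp π d) (j : J) :
    RingHom.ker (π j) ≤ maximalIdeal R := by
  rw [← h.comap_maximalIdeal j]
  exact Ideal.comap_mono bot_le

theorem Hyp.proj_mem_maximalIdeal_iff (h : Hyp π d) (j : J) (r : R) :
    π j r ∈ maximalIdeal (A j) ↔ r ∈ maximalIdeal R := by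
  rw [← h.comap_maximalIdeal j, Ideal.mem_comap]

theorem Hyp.isUnit_proj_iff (h : Hyp π d) (j : J) (r : R) :
    IsUnit (π j r) ↔ IsUnit r := by
  have := h.proj_mem_maximalIdeal_iff j r
  rw [mem_maximalIdeal, mem_maximalIdeal, mem_nonunits_iff, mem_nonunits_iff] at this
  exact not_iff_not.mp this

theorem Hyp.isLocalHom_proj (h : Hyp π d) (j : J) : IsLocalHom (π j) :=
  ⟨fun r hr => (h.isUnit_proj_iff j r).mp hr⟩

theorem Hyp.residue_surjective (h : Hyp π d) :
    Function.Surjective (residue R ∘ algebraMap O R) := by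
  obtain ⟨j⟩ := h.nonempty
  intro y
  obtain ⟨r, rfl⟩ := IsLocalRing.residue_surjective y
  obtain ⟨a, ha⟩ := h.res j (residue (A j) (π j r))
  refine ⟨a, ?_⟩
  simp only [Function.comp_apply] at ha ⊢
  rw [← sub_eq_zero, ← map_sub, residue_eq_zero_iff] at ha ⊢
  rw [← h.proj_mem_maximalIdeal_iff j, map_sub, AlgHom.commutes]
  exact ha

theorem Hyp.algebraMap_mem_maximalIdeal (h : Hyp π d) {a : O} (ha : a ∈ maximalIdeal O) :
    algebraMap O R a ∈ maximalIdeal R := by
  have hker := IsLocalRing.ker_eq_maximalIdeal ((residue R).comp (algebraMap O R))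
    h.residue_surjective
  rw [← hker, RingHom.mem_ker, RingHom.comp_apply, residue_eq_zero_iff] at ha
  exact ha

theorem Hyp.isLocalHom_algebraMap (h : Hyp π d) : IsLocalHom (algebraMap O R) := by
  refine ⟨fun a ha => ?_⟩
  by_contra hcon
  have h1 : a ∈ maximalIdeal O := (mem_maximalIdeal a).mpr hcon
  exact (mem_maximalIdeal _).mp (h.algebraMap_mem_maximalIdeal h1) ha

theorem Hyp.map_maximalIdeal_le (h : Hyp π d) :
    (maximalIdeal O).map (algebraMap O R) ≤ maximalIdeal R :=
  Ideal.map_le_iff_le_comap.mpr fun _ ha => h.algebraMap_mem_maximalIdeal ha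

theorem map_span_sup (j : J) {n : ℕ} (y : Fin n → R) :
    Ideal.map (π j) (Ideal.span (Set.range y) ⊔ (maximalIdeal O).map (algebraMap O R)) =
      Ideal.span (Set.range fun i => π j (y i)) ⊔ (maximalIdeal O).map (algebraMap O (A j)) := by
  have e1 : Ideal.map (π j) (Ideal.span (Set.range y)) =
      Ideal.span (Set.range fun i => π j (y i)) := by
    rw [Ideal.map_span, ← Set.range_comp]
    rfl
  have e2 : Ideal.map (π j) ((maximalIdeal O).map (algebraMap O R)) =
      (maximalIdeal O).map (algebraMap O (A j)) := by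
    have := Ideal.map_map (I := maximalIdeal O) (algebraMap O R) (π j : R →+* A j)
    rw [AlgHom.comp_algebraMap] at this
    exact this
  rw [Ideal.map_sup, e1, e2]

theorem Hyp.le_map_iff (h : Hyp π d) (j : J) (K : Ideal R) :
    maximalIdeal (A j) ≤ Ideal.map (π j) K ↔ maximalIdeal R ≤ K ⊔ RingHom.ker (π j) := by
  constructor
  · intro hle
    rw [← h.comap_maximalIdeal j]
    refine (Ideal.comap_mono hle).trans ?_
    rw [Ideal.comap_map_of_surjective _ (h.surj j)]
    exact le_rfl
  · intro hle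
    rw [← h.map_maximalIdeal j]
    refine (Ideal.map_mono hle).trans ?_
    rw [Ideal.map_sup, (Ideal.map_eq_bot_iff_le_ker (π j)).mpr le_rfl, sup_bot_eq]

/-- `R`-level characterisation of the tangent condition. -/
theorem Hyp.tan_iff (h : Hyp π d) (j : J) {n : ℕ} (y : Fin n → R) :
    maximalIdeal (A j) ≤ Ideal.span (Set.range fun i => π j (y i)) ⊔
      (maximalIdeal O).map (algebraMap O (A j)) ⊔ maximalIdeal (A j) ^ 2 ↔
    maximalIdeal R ≤ Ideal.span (Set.range y) ⊔ (maximalIdeal O).map (algebraMap O R) ⊔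
      maximalIdeal R ^ 2 ⊔ RingHom.ker (π j) := by
  rw [← h.le_map_iff j, Ideal.map_sup, map_span_sup, Ideal.map_pow, h.map_maximalIdeal j]

/-- The maximal ideal of `R` is generated by `d` elements together with the maximal ideal
of `O`. -/
theorem Hyp.exists_generators (h : Hyp π d) :
    ∃ x : Fin d → R, (∀ i, x i ∈ maximalIdeal R) ∧
      maximalIdeal R = Ideal.span (Set.range x) ⊔ (maximalIdeal O).map (algebraMap O R) := by
  let X : ∀ j, Set (Fin d → A j) := fun j => {y | (∀ i, y i ∈ maximalIdeal (A j)) ∧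
    maximalIdeal (A j) ≤ Ideal.span (Set.range y) ⊔
      (maximalIdeal O).map (algebraMap O (A j)) ⊔ maximalIdeal (A j) ^ 2}
  have hne : ∀ j, (X j).Nonempty := fun j => h.tan j
  have hcompat : ∀ j l, RingHom.ker (π l) ≤ RingHom.ker (π j) → ∀ y : Fin d → R,
      (fun i => π l (y i)) ∈ X l → (fun i => π j (y i)) ∈ X j := by
    intro j l hle y hy
    refine ⟨fun i => (h.proj_mem_maximalIdeal_iff j _).mpr
      ((h.proj_mem_maximalIdeal_iff l _).mp (hy.1 i)), ?_⟩
    exact (h.tan_iff j y).mpr (((h.tan_iff l y).mp hy.2).trans (sup_le_sup_left hle _))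
  obtain ⟨x, hx⟩ := h.exists_lift X hne hcompat
  obtain ⟨j₀⟩ := h.nonempty
  have hxm : ∀ i, x i ∈ maximalIdeal R := fun i =>
    (h.proj_mem_maximalIdeal_iff j₀ _).mp ((hx j₀).1 i)
  refine ⟨x, hxm, ?_⟩
  have hfg : (Ideal.span (Set.range x) ⊔ (maximalIdeal O).map (algebraMap O R)).FG :=
    (Submodule.fg_span (Set.finite_range x)).sup
      (Ideal.FG.map (IsNoetherian.noetherian (maximalIdeal O)) _)
  have hle : Ideal.span (Set.range x) ⊔ (maximalIdeal O).map (algebraMap O R) ≤ maximalIdeal R :=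
    sup_le (Ideal.span_le.mpr (by rintro _ ⟨i, rfl⟩; exact hxm i)) h.map_maximalIdeal_le
  refine le_antisymm ?_ hle
  intro b hb
  refine h.mem_of_forall_mem_sup hfg fun j => ?_
  have h2 : maximalIdeal (A j) ≤ Ideal.map (π j) (Ideal.span (Set.range x) ⊔
      (maximalIdeal O).map (algebraMap O R)) ⊔ maximalIdeal (A j) • maximalIdeal (A j) := by
    rw [map_span_sup, smul_eq_mul, ← pow_two]
    exact (hx j).2
  have h3 : maximalIdeal (A j) ≤ Ideal.map (π j) (Ideal.span (Set.range x) ⊔
      (maximalIdeal O).map (algebraMap O R)) :=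
    Submodule.le_of_le_smul_of_le_jacobson_bot (IsNoetherian.noetherian _)
      (by rw [jacobson_eq_maximalIdeal ⊥ bot_ne_top]) h2
  exact (h.le_map_iff j _).mp h3 hb

theorem Hyp.fg_maximalIdeal (h : Hyp π d) : (maximalIdeal R).FG := by
  obtain ⟨x, -, hx⟩ := h.exists_generators
  rw [hx]
  exact (Submodule.fg_span (Set.finite_range x)).sup
    (Ideal.FG.map (IsNoetherian.noetherian (maximalIdeal O)) _)

/-- The kernels of the projections are open for the adic topology. -/
theorem Hyp.exists_pow_le_ker (h : Hyp π d) (j : J) :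
    ∃ n, maximalIdeal R ^ n ≤ RingHom.ker (π j) := by
  have hnil : IsNilpotent (maximalIdeal (A j)) := by
    have := IsArtinianRing.isNilpotent_jacobson_bot (R := A j)
    rwa [jacobson_eq_maximalIdeal ⊥ bot_ne_top] at this
  obtain ⟨n, hn⟩ := hnil
  refine ⟨n, ?_⟩
  rw [← Ideal.map_eq_bot_iff_le_ker, Ideal.map_pow, h.map_maximalIdeal j, hn]
  rfl

/-- `R` is adically complete with respect to any finitely generated ideal contained in the
maximal ideal. -/
theorem Hyp.isAdicComplete_of_fg (h : Hyp π d) {𝔞 : Ideal R} (hfg : 𝔞.FG)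
    (hle : 𝔞 ≤ maximalIdeal R) : IsAdicComplete 𝔞 R := by
  have hpow : ∀ j, ∃ n, 𝔞 ^ n ≤ RingHom.ker (π j) := fun j => by
    obtain ⟨n, hn⟩ := h.exists_pow_le_ker j
    exact ⟨n, (Ideal.pow_right_mono hle n).trans hn⟩
  choose N hN using hpow
  have haus : IsHausdorff 𝔞 R := by
    refine ⟨fun x hx => h.sep x fun j => ?_⟩
    have := hx (N j)
    rw [SModEq.zero, smul_eq_mul, Ideal.mul_top] at this
    exact (RingHom.mem_ker).mp (hN j this)
  have prec : IsPrecomplete 𝔞 R := by
    refine ⟨fun f hf => ?_⟩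
    have hf' : ∀ {m n}, m ≤ n → f m - f n ∈ 𝔞 ^ m := by
      intro m n hmn
      have := hf hmn
      rwa [SModEq.sub_mem, smul_eq_mul, Ideal.mul_top] at this
    have hstab : ∀ j n, N j ≤ n → π j (f n) = π j (f (N j)) := by
      intro j n hn
      have := (RingHom.mem_ker).mp (hN j (hf' hn))
      rw [map_sub, sub_eq_zero] at this
      exact this.symm
    obtain ⟨L, hL⟩ := h.cpl (fun j => π j (f (N j))) (by
      intro j l hle r hr
      have e1 : π j r = π j (f (N l)) := eq_of_ker_le hle hr
      have e2 : π l (f (max (N l) (N j))) = π l (f (N l)) := hstab l _ (le_max_left _ _)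
      have e3 := eq_of_ker_le hle e2
      rw [e1, ← e3, hstab j _ (le_max_right _ _)])
    refine ⟨L, fun n => ?_⟩
    rw [SModEq.sub_mem, smul_eq_mul, Ideal.mul_top]
    refine h.mem_of_forall_mem_sup hfg.pow fun j => ?_
    have e : f n - L = (f n - f (max n (N j))) + (f (max n (N j)) - L) := by ring
    rw [e]
    refine Submodule.add_mem_sup (hf' (le_max_left _ _)) ?_
    rw [RingHom.mem_ker, map_sub, hstab j _ (le_max_right _ _), hL j, sub_self]
  exact { toIsHausdorff := haus, toIsPrecomplete := prec }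

/-- `R` is complete for its maximal-adic topology. -/
theorem Hyp.isAdicComplete (h : Hyp π d) : IsAdicComplete (maximalIdeal R) R :=
  h.isAdicComplete_of_fg h.fg_maximalIdeal le_rfl

theorem Hyp.finite_residueField (h : Hyp π d) : Finite (R ⧸ maximalIdeal R) := by
  obtain ⟨j⟩ := h.nonempty
  have hinj : Function.Injective (Ideal.quotientMap (maximalIdeal (A j)) (π j : R →+* A j)
      (le_of_eq (h.comap_maximalIdeal j).symm)) :=
    Ideal.quotientMap_injective' (le_of_eq (h.comap_maximalIdeal j))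
  have : Finite (A j ⧸ maximalIdeal (A j)) :=
    Finite.of_surjective (Ideal.Quotient.mk _) Ideal.Quotient.mk_surjective
  exact Finite.of_injective _ hinj

theorem Hyp.finite_quotient_pow (h : Hyp π d) (n : ℕ) : Finite (R ⧸ maximalIdeal R ^ n) := by
  have := h.finite_residueField
  exact Ideal.finite_quotient_pow h.fg_maximalIdeal n

/-- The adic topology is coarser than the pro-finite topology: every power of the maximal
ideal contains the kernel of some projection. -/
theorem Hyp.exists_ker_le_pow (h : Hyp π d) (n : ℕ) :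
    ∃ j, RingHom.ker (π j) ≤ maximalIdeal R ^ n := by
  have hfin := h.finite_quotient_pow n
  obtain ⟨j₀⟩ := h.nonempty
  let q := Ideal.Quotient.mk (maximalIdeal R ^ n)
  let K : J → Ideal (R ⧸ maximalIdeal R ^ n) := fun j => Ideal.map q (RingHom.ker (π j))
  have hwf : WellFounded
      ((· < ·) : Ideal (R ⧸ maximalIdeal R ^ n) → Ideal (R ⧸ maximalIdeal R ^ n) → Prop) :=
    wellFounded_lt
  obtain ⟨_, ⟨j₁, rfl⟩, hmin⟩ := hwf.has_min (Set.range K) ⟨_, j₀, rfl⟩
  refine ⟨j₁, fun b hb => ?_⟩
  refine h.mem_of_forall_mem_sup h.fg_maximalIdeal.pow fun j => ?_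
  obtain ⟨l, hl1, hl2⟩ := h.dir j₁ j
  have e : K l = K j₁ := by
    by_contra hne
    exact hmin (K l) ⟨l, rfl⟩ (lt_of_le_of_ne (Ideal.map_mono hl1) hne)
  have hKle : K j₁ ≤ K j := e ▸ Ideal.map_mono hl2
  have hc : Ideal.comap q (K j₁) ≤ Ideal.comap q (K j) := Ideal.comap_mono hKle
  rw [Ideal.comap_map_of_surjective q Ideal.Quotient.mk_surjective,
    Ideal.comap_map_of_surjective q Ideal.Quotient.mk_surjective, ← RingHom.ker_eq_comap_bot,
    Ideal.mk_ker] at hc
  rw [sup_comm]
  exact hc (Ideal.mem_sup_left hb)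

/-- If `O` is complete, then `O → R ⧸ 𝔵` is surjective for any family `x` generating the
maximal ideal of `R` together with the maximal ideal of `O`. -/
theorem Hyp.surjective_mk_comp_algebraMap [IsAdicComplete (maximalIdeal O) O] (h : Hyp π d)
    {n : ℕ} (x : Fin n → R)
    (hx : maximalIdeal R = Ideal.span (Set.range x) ⊔ (maximalIdeal O).map (algebraMap O R)) :
    Function.Surjective
      ((Ideal.Quotient.mk (Ideal.span (Set.range x))).comp (algebraMap O R)) := by
  have hfg : (Ideal.span (Set.range x)).FG := Submodule.fg_span (Set.finite_range x)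
  have hmap : Ideal.map ((Ideal.Quotient.mk (Ideal.span (Set.range x))).comp (algebraMap O R))
      (maximalIdeal O) = Ideal.map (Ideal.Quotient.mk (Ideal.span (Set.range x)))
        ((maximalIdeal O).map (algebraMap O R)) := (Ideal.map_map _ _).symm
  have hmem : ∀ (K : Ideal R) (r : R), Ideal.Quotient.mk (Ideal.span (Set.range x)) r ∈
      Ideal.map (Ideal.Quotient.mk (Ideal.span (Set.range x))) K ↔
      r ∈ K ⊔ Ideal.span (Set.range x) := by
    intro K r
    rw [← Ideal.mem_comap, Ideal.comap_map_of_surjective _ Ideal.Quotient.mk_surjective,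
      ← RingHom.ker_eq_comap_bot, Ideal.mk_ker]
  have haus : IsHausdorff (Ideal.map
      ((Ideal.Quotient.mk (Ideal.span (Set.range x))).comp (algebraMap O R)) (maximalIdeal O))
      (R ⧸ Ideal.span (Set.range x)) := by
    refine ⟨fun t ht => ?_⟩
    obtain ⟨r, rfl⟩ := Ideal.Quotient.mk_surjective t
    rw [Ideal.Quotient.eq_zero_iff_mem]
    refine h.mem_of_forall_mem_sup hfg fun j => ?_
    obtain ⟨m, hm⟩ := h.exists_pow_le_ker j
    have h1 := ht m
    rw [SModEq.zero, smul_eq_mul, Ideal.mul_top, hmap, ← Ideal.map_pow, hmem] at h1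
    rw [sup_comm]
    exact sup_le_sup_right ((Ideal.pow_right_mono h.map_maximalIdeal_le m).trans hm) _ h1
  refine surjective_of_mk_map_comp_surjective
    ((Ideal.Quotient.mk (Ideal.span (Set.range x))).comp (algebraMap O R))
    (I := maximalIdeal O) ?_
  intro y
  obtain ⟨t, rfl⟩ := Ideal.Quotient.mk_surjective y
  obtain ⟨r, rfl⟩ := Ideal.Quotient.mk_surjective t
  obtain ⟨a, ha⟩ := h.residue_surjective (residue R r)
  refine ⟨a, ?_⟩
  simp only [Function.comp_apply] at ha
  rw [← sub_eq_zero, ← map_sub, residue_eq_zero_iff, hx] at ha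
  rw [RingHom.comp_apply, RingHom.comp_apply, Ideal.Quotient.eq, ← map_sub, hmap, hmem,
    sup_comm]
  exact ha

/-- If `O` is complete, `R` is a quotient of a power series ring over `O` in `d` variables. -/
theorem Hyp.exists_surjective_mvPowerSeries [IsAdicComplete (maximalIdeal O) O]
    (h : Hyp π d) : ∃ Φ : MvPowerSeries (Fin d) O →ₐ[O] R, Function.Surjective Φ := by
  obtain ⟨x, hxm, hx⟩ := h.exists_generators
  have hfg : (Ideal.span (Set.range x)).FG := Submodule.fg_span (Set.finite_range x)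
  have hle : Ideal.span (Set.range x) ≤ maximalIdeal R :=
    Ideal.span_le.mpr (by rintro _ ⟨i, rfl⟩; exact hxm i)
  have hcomp : IsAdicComplete (Ideal.span (Set.range x)) R := h.isAdicComplete_of_fg hfg hle
  obtain ⟨Φ, hΦ⟩ := exists_algHom_mvPowerSeries (O := O) x
  refine ⟨Φ, surjective_of_mvPowerSeries x Φ (fun i => ?_)
    (h.surjective_mk_comp_algebraMap x hx)⟩
  rw [← MvPolynomial.coe_X, hΦ, MvPolynomial.aeval_X]

/-- If `O` is complete, `R` is Noetherian. -/
theorem Hyp.isNoetherianRing [IsAdicComplete (maximalIdeal O) O] (h : Hyp π d) :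
    IsNoetherianRing R := by
  obtain ⟨Φ, hΦ⟩ := h.exists_surjective_mvPowerSeries
  exact isNoetherianRing_of_surjective _ _ (Φ : MvPowerSeries (Fin d) O →+* R) hΦ

end Local

end Fermat.Agent.S53.ProCore
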