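import Fermat.Agent.S53.Defs

/-!
# S53: quotients of the polynomial ring `P = 𝒪[Xᵢ]` by ideals between a power of the base ideal
and the base ideal are local Artinian test algebras
-/

set_option autoImplicit false

namespace Fermat.Agent.S53

open IsLocalRing

section
variable {𝒪 : Type} [CommRing 𝒪] [IsLocalRing 𝒪] {ι : Type} (c : ι → 𝒪)

/-- The evaluation `P → k` at the base point. -/
noncomputable abbrev evk : MvPolynomial ι 𝒪 →ₐ[𝒪] ResidueField 𝒪 :=
  MvPolynomial.aeval (fun i => residue 𝒪 (c i))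

theorem mem_baseIdeal_iff (p : MvPolynomial ι 𝒪) : p ∈ baseIdeal c ↔ evk c p = 0 := Iff.rfl

theorem evk_surjective : Function.Surjective (evk c) := by
  intro y
  obtain ⟨x, rfl⟩ := residue_surjective y
  exact ⟨MvPolynomial.C x, by simp [evk, ResidueField.algebraMap_eq]⟩

instance baseIdeal_isMaximal : (baseIdeal c).IsMaximal :=
  RingHom.ker_isMaximal_of_surjective _ (evk_surjective c)

theorem X_sub_C_mem_baseIdeal (i : ι) :
    (MvPolynomial.X i - MvPolynomial.C (c i) : MvPolynomial ι 𝒪) ∈ baseIdeal c := by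
  rw [mem_baseIdeal_iff]
  simp [evk, ResidueField.algebraMap_eq]

theorem C_mem_baseIdeal_iff (x : 𝒪) :
    (MvPolynomial.C x : MvPolynomial ι 𝒪) ∈ baseIdeal c ↔ x ∈ maximalIdeal 𝒪 := by
  rw [mem_baseIdeal_iff]
  simp [evk, ResidueField.algebraMap_eq]

theorem exists_sub_C_mem_baseIdeal (p : MvPolynomial ι 𝒪) :
    ∃ x : 𝒪, p - MvPolynomial.C x ∈ baseIdeal c := by
  obtain ⟨x, hx⟩ := residue_surjective (evk c p)
  refine ⟨x, ?_⟩
  rw [mem_baseIdeal_iff, map_sub, ← hx]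
  simp [evk, ResidueField.algebraMap_eq]

variable {c}

/-- A quotient of `P` by an ideal between a power of the base ideal and the base ideal is local. -/
theorem isLocalRing_quot {I : Ideal (MvPolynomial ι 𝒪)} (hle : I ≤ baseIdeal c)
    (hpow : ∃ n : ℕ, baseIdeal c ^ n ≤ I) : IsLocalRing (MvPolynomial ι 𝒪 ⧸ I) := by
  obtain ⟨n, hn⟩ := hpow
  have hmax : ((baseIdeal c).map (Ideal.Quotient.mk I)).IsMaximal :=
    Ideal.IsMaximal.map_of_surjective_of_ker_le Ideal.Quotient.mk_surjective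
      (by rw [Ideal.mk_ker]; exact hle)
  refine IsLocalRing.of_unique_max_ideal ⟨_, hmax, fun J hJ => ?_⟩
  have h1 : ((baseIdeal c).map (Ideal.Quotient.mk I)) ^ n ≤ J := by
    rw [← Ideal.map_pow]
    have : (baseIdeal c ^ n).map (Ideal.Quotient.mk I) = ⊥ := Ideal.map_mk_eq_bot_of_le hn
    rw [this]; exact bot_le
  exact (hmax.eq_of_le hJ.ne_top (hJ.isPrime.le_of_pow_le h1)).symm

theorem maximalIdeal_quot {I : Ideal (MvPolynomial ι 𝒪)} (hle : I ≤ baseIdeal c)
    [IsLocalRing (MvPolynomial ι 𝒪 ⧸ I)] :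
    maximalIdeal (MvPolynomial ι 𝒪 ⧸ I) = (baseIdeal c).map (Ideal.Quotient.mk I) := by
  have hmax : ((baseIdeal c).map (Ideal.Quotient.mk I)).IsMaximal :=
    Ideal.IsMaximal.map_of_surjective_of_ker_le Ideal.Quotient.mk_surjective
      (by rw [Ideal.mk_ker]; exact hle)
  exact (IsLocalRing.eq_maximalIdeal hmax).symm

theorem mk_mem_maximalIdeal_quot_iff {I : Ideal (MvPolynomial ι 𝒪)} (hle : I ≤ baseIdeal c)
    [IsLocalRing (MvPolynomial ι 𝒪 ⧸ I)] (p : MvPolynomial ι 𝒪) :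
    Ideal.Quotient.mk I p ∈ maximalIdeal (MvPolynomial ι 𝒪 ⧸ I) ↔ p ∈ baseIdeal c := by
  rw [maximalIdeal_quot hle]
  constructor
  · intro h
    have h2 := Ideal.mem_comap.mpr h
    rw [Ideal.comap_map_of_surjective _ Ideal.Quotient.mk_surjective, ← RingHom.ker_eq_comap_bot,
      Ideal.mk_ker, sup_eq_left.mpr hle] at h2
    exact h2
  · exact fun h => Ideal.mem_map_of_mem _ h

theorem maximalIdeal_quot_pow_eq_bot {I : Ideal (MvPolynomial ι 𝒪)} (hle : I ≤ baseIdeal c)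
    [IsLocalRing (MvPolynomial ι 𝒪 ⧸ I)] {n : ℕ} (hn : baseIdeal c ^ n ≤ I) :
    maximalIdeal (MvPolynomial ι 𝒪 ⧸ I) ^ n = ⊥ := by
  rw [maximalIdeal_quot hle, ← Ideal.map_pow]
  exact Ideal.map_mk_eq_bot_of_le hn

/-- Such a quotient, when finite, is an Artinian test algebra. -/
theorem isArtinianTestAlgebra_quot {I : Ideal (MvPolynomial ι 𝒪)} (hle : I ≤ baseIdeal c)
    [IsLocalRing (MvPolynomial ι 𝒪 ⧸ I)] [Finite (MvPolynomial ι 𝒪 ⧸ I)] :
    GaloisRep.IsArtinianTestAlgebra 𝒪 (MvPolynomial ι 𝒪 ⧸ I) where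
  isLocalHom := by
    refine ⟨fun x hx => ?_⟩
    by_contra hx'
    have h1 : (MvPolynomial.C x : MvPolynomial ι 𝒪) ∈ baseIdeal c :=
      (C_mem_baseIdeal_iff c x).mpr hx'
    have h2 := (mk_mem_maximalIdeal_quot_iff hle _).mpr h1
    exact h2 hx
  residue_surjective := by
    intro y
    obtain ⟨q, rfl⟩ := residue_surjective y
    obtain ⟨p, rfl⟩ := Ideal.Quotient.mk_surjective q
    obtain ⟨x, hx⟩ := exists_sub_C_mem_baseIdeal c p
    refine ⟨x, ?_⟩
    have h2 := (mk_mem_maximalIdeal_quot_iff hle _).mpr hx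
    rw [map_sub] at h2
    have h3 := (residue_eq_zero_iff _).mpr h2
    rw [map_sub, sub_eq_zero] at h3
    rw [Function.comp_apply, h3]
    rfl
  isArtinian := inferInstance

end

end Fermat.Agent.S53
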