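import Fermat.Agent.S53.Quot

/-!
# S53: the polynomial ring `P = 𝒪[X^σ_ij]`, the relation polynomials, and matrix families
-/

set_option autoImplicit false

namespace Fermat.Agent.S53

open IsLocalRing MvPolynomial

/-- The index type of the variables `X^σ_ij`. -/
abbrev Idx : Type := GQ × Fin 2 × Fin 2

/-- The matrix family attached to a family of ring elements indexed by `Idx`. -/
def matOf {A : Type} (a : Idx → A) (σ : GQ) : Matrix (Fin 2) (Fin 2) A :=
  Matrix.of fun i j => a (σ, i, j)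

@[simp] theorem matOf_apply {A : Type} (a : Idx → A) (σ : GQ) (i j : Fin 2) :
    matOf a σ i j = a (σ, i, j) := rfl

theorem matOf_comp {A B : Type} [CommRing A] [CommRing B] (φ : A →+* B) (a : Idx → A) :
    (fun σ => (matOf a σ).map φ) = matOf (fun x => φ (a x)) := by
  funext σ; ext i j; rfl

theorem matOf_entries {A : Type} (M : GQ → Matrix (Fin 2) (Fin 2) A) :
    matOf (fun x : Idx => M x.1 x.2.1 x.2.2) = M := by
  funext σ; ext i j; rfl

section
variable (𝒪 : Type) [CommRing 𝒪]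

/-- The relation `X^1 = 1`. -/
noncomputable def relOne (i j : Fin 2) : MvPolynomial Idx 𝒪 :=
  X (1, i, j) - C ((1 : Matrix (Fin 2) (Fin 2) 𝒪) i j)

/-- The relation `X^{στ} = X^σ X^τ`. -/
noncomputable def relMul (σ τ : GQ) (i j : Fin 2) : MvPolynomial Idx 𝒪 :=
  X (σ * τ, i, j) - ∑ l, X (σ, i, l) * X (τ, l, j)

/-- The polynomial `X^σ_ij - δ_ij`. -/
noncomputable def relTriv (σ : GQ) (i j : Fin 2) : MvPolynomial Idx 𝒪 :=
  X (σ, i, j) - C ((1 : Matrix (Fin 2) (Fin 2) 𝒪) i j)

variable {𝒪}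

theorem relOne_eq (i j : Fin 2) : relOne 𝒪 i j = relTriv 𝒪 1 i j := rfl

/-- An ideal of `P` contains the relations making `X` a matrix representation factoring through
a finite level. -/
structure HasRels (I : Ideal (MvPolynomial Idx 𝒪)) : Prop where
  one : ∀ i j, relOne 𝒪 i j ∈ I
  mul : ∀ σ τ i j, relMul 𝒪 σ τ i j ∈ I
  fin : ∃ L : IntermediateField ℚ (AlgebraicClosure ℚ), FiniteDimensional ℚ L ∧
    ∀ σ : GQ, (∀ x ∈ L, σ x = x) → ∀ i j, relTriv 𝒪 σ i j ∈ I

theorem HasRels.mono {I J : Ideal (MvPolynomial Idx 𝒪)} (h : HasRels I) (hIJ : I ≤ J) :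
    HasRels J :=
  ⟨fun i j => hIJ (h.one i j), fun σ τ i j => hIJ (h.mul σ τ i j),
    let ⟨L, hL, h1⟩ := h.fin; ⟨L, hL, fun σ hσ i j => hIJ (h1 σ hσ i j)⟩⟩

theorem HasRels.inf {I J : Ideal (MvPolynomial Idx 𝒪)} (hI : HasRels I) (hJ : HasRels J) :
    HasRels (I ⊓ J) := by
  refine ⟨fun i j => ⟨hI.one i j, hJ.one i j⟩, fun σ τ i j => ⟨hI.mul σ τ i j, hJ.mul σ τ i j⟩, ?_⟩
  obtain ⟨L₁, hL₁, h1⟩ := hI.fin
  obtain ⟨L₂, hL₂, h2⟩ := hJ.fin
  refine ⟨L₁ ⊔ L₂, IntermediateField.finiteDimensional_sup L₁ L₂, fun σ hσ i j => ⟨?_, ?_⟩⟩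
  · exact h1 σ (fun x hx => hσ x ((le_sup_left : L₁ ≤ L₁ ⊔ L₂) hx)) i j
  · exact h2 σ (fun x hx => hσ x ((le_sup_right : L₂ ≤ L₁ ⊔ L₂) hx)) i j

section aeval
variable {A : Type} [CommRing A] [Algebra 𝒪 A] (a : Idx → A)

theorem aeval_relTriv (σ : GQ) (i j : Fin 2) :
    aeval a (relTriv 𝒪 σ i j) = (matOf a σ - 1) i j := by
  simp only [relTriv, map_sub, aeval_X, aeval_C, Matrix.sub_apply, matOf_apply]
  congr 1
  by_cases h : i = j <;> simp [Matrix.one_apply, h]

theorem aeval_relOne (i j : Fin 2) : aeval a (relOne 𝒪 i j) = (matOf a 1 - 1) i j :=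
  aeval_relTriv a 1 i j

theorem aeval_relMul (σ τ : GQ) (i j : Fin 2) :
    aeval a (relMul 𝒪 σ τ i j) = (matOf a (σ * τ) - matOf a σ * matOf a τ) i j := by
  simp only [relMul, map_sub, aeval_X, map_sum, map_mul, Matrix.sub_apply, matOf_apply,
    Matrix.mul_apply]

end aeval

/-- A matrix family all of whose relations vanish modulo an ideal contained in all powers of the
maximal ideal needed is a matrix representation. -/
theorem isMatRep_of_forall_hasRels {A : Type} [CommRing A] [IsLocalRing A] [Algebra 𝒪 A]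
    (a : Idx → A) (hsep : ∀ x : A, (∀ n : ℕ, x ∈ maximalIdeal A ^ (n + 1)) → x = 0)
    (h : ∀ n : ℕ, HasRels (Ideal.comap (aeval a : MvPolynomial Idx 𝒪 →ₐ[𝒪] A)
      (maximalIdeal A ^ (n + 1)))) : IsMatRep A (matOf a) where
  map_one := by
    ext i j
    have : (matOf a 1 - 1) i j = 0 := hsep _ fun n => by
      have := (h n).one i j
      rwa [Ideal.mem_comap, aeval_relOne] at this
    rwa [Matrix.sub_apply, sub_eq_zero] at this
  map_mul := by
    intro σ τ
    ext i j
    have : (matOf a (σ * τ) - matOf a σ * matOf a τ) i j = 0 := hsep _ fun n => by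
      have := (h n).mul σ τ i j
      rwa [Ideal.mem_comap, aeval_relMul] at this
    rwa [Matrix.sub_apply, sub_eq_zero] at this
  cont := by
    intro n
    rcases n with _ | n
    · exact ⟨⊥, inferInstance, fun σ _ i j => by simp⟩
    · obtain ⟨L, hL, h1⟩ := (h n).fin
      refine ⟨L, hL, fun σ hσ i j => ?_⟩
      have := h1 σ hσ i j
      rwa [Ideal.mem_comap, aeval_relTriv] at this

/-- Conversely the kernel-type ideals of a matrix representation contain the relations. -/
theorem hasRels_comap_of_isMatRep {A : Type} [CommRing A] [IsLocalRing A] [Algebra 𝒪 A]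
    (a : Idx → A) (hM : IsMatRep A (matOf a)) (n : ℕ) (K : Ideal A)
    (hK : maximalIdeal A ^ n ≤ K) :
    HasRels (Ideal.comap (aeval a : MvPolynomial Idx 𝒪 →ₐ[𝒪] A) K) where
  one := fun i j => by
    rw [Ideal.mem_comap, aeval_relOne, hM.map_one, sub_self]
    exact Ideal.zero_mem _
  mul := fun σ τ i j => by
    rw [Ideal.mem_comap, aeval_relMul, hM.map_mul, sub_self]
    exact Ideal.zero_mem _
  fin := by
    obtain ⟨L, hL, h1⟩ := hM.cont n
    refine ⟨L, hL, fun σ hσ i j => ?_⟩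
    rw [Ideal.mem_comap, aeval_relTriv]
    exact hK (h1 σ hσ i j)

/-- The tautological family on a quotient of `P`. -/
noncomputable def taut (I : Ideal (MvPolynomial Idx 𝒪)) : Idx → MvPolynomial Idx 𝒪 ⧸ I :=
  fun x => Ideal.Quotient.mk I (X x)

theorem aeval_taut (I : Ideal (MvPolynomial Idx 𝒪)) (p : MvPolynomial Idx 𝒪) :
    aeval (taut I) p = Ideal.Quotient.mk I p := by
  have : (aeval (taut I) : MvPolynomial Idx 𝒪 →ₐ[𝒪] _) = Ideal.Quotient.mkₐ 𝒪 I := by
    apply MvPolynomial.algHom_ext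
    intro x
    simp [taut]
  rw [this]; rfl

theorem comap_aeval_taut (I K : Ideal (MvPolynomial Idx 𝒪)) (hK : I ≤ K) :
    Ideal.comap (aeval (taut I) : MvPolynomial Idx 𝒪 →ₐ[𝒪] _) (K.map (Ideal.Quotient.mk I)) =
      K := by
  ext p
  rw [Ideal.mem_comap, aeval_taut]
  constructor
  · intro h
    have h2 := Ideal.mem_comap.mpr h
    rw [Ideal.comap_map_of_surjective _ Ideal.Quotient.mk_surjective, ← RingHom.ker_eq_comap_bot,
      Ideal.mk_ker, sup_eq_left.mpr hK] at h2
    exact h2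
  · exact fun h => Ideal.mem_map_of_mem _ h

/-- If `I` contains the relations, the tautological family on `P ⧸ I` is a matrix
representation. -/
theorem isMatRep_taut {I : Ideal (MvPolynomial Idx 𝒪)} [IsLocalRing (MvPolynomial Idx 𝒪 ⧸ I)]
    (h : HasRels I) : IsMatRep (MvPolynomial Idx 𝒪 ⧸ I) (matOf (taut I)) where
  map_one := by
    ext i j
    have := h.one i j
    rw [← Ideal.Quotient.eq_zero_iff_mem, ← aeval_taut, aeval_relOne] at this
    rwa [Matrix.sub_apply, sub_eq_zero] at this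
  map_mul := by
    intro σ τ
    ext i j
    have := h.mul σ τ i j
    rw [← Ideal.Quotient.eq_zero_iff_mem, ← aeval_taut, aeval_relMul] at this
    rwa [Matrix.sub_apply, sub_eq_zero] at this
  cont := by
    intro n
    obtain ⟨L, hL, h1⟩ := h.fin
    refine ⟨L, hL, fun σ hσ i j => ?_⟩
    have := h1 σ hσ i j
    rw [← Ideal.Quotient.eq_zero_iff_mem, ← aeval_taut, aeval_relTriv] at this
    rw [this]
    exact Ideal.zero_mem _

end

end Fermat.Agent.S53
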