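import Fermat.Agent.S53.Adm3
import Fermat.Agent.S53.NormalFormU

/-!
# S53: the tangent bound for admissible ideals
-/

set_option autoImplicit false
set_option linter.unusedSectionVars false
set_option linter.style.haveILetI false

namespace Fermat.Agent.S53

open IsLocalRing MvPolynomial

section
variable {𝒪 : Type} [CommRing 𝒪] [IsLocalRing 𝒪] (ρbar : ResidualGaloisRep (ResidueField 𝒪))
  (𝒟 : ∀ ⦃A : Type⦄ [CommRing A] [IsLocalRing A] [Algebra 𝒪 A], GaloisRepAdic A → Prop)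

/-- The set of deformations of type `𝒟` to the dual numbers (as in `GaloisRep.TangentFinite`). -/
abbrev TanSub : Type 1 :=
  letI := dualAlg 𝒪
  letI := dualResAlg 𝒪
  {ρ : GaloisRepAdic (DualNumber (ResidueField 𝒪)) //
      𝒟 ρ ∧ ρ.residual.IsEquiv (ρbar.baseChange (ResidueField (DualNumber (ResidueField 𝒪))))}

/-- Equivalence of deformations to the dual numbers. -/
def tanSetoid : Setoid (TanSub ρbar 𝒟) :=
  ⟨fun ρ ρ' => ρ.1.IsEquiv ρ'.1, ⟨fun ρ => ⟨GaloisRepAdic.Equiv.refl ρ.1⟩,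
    fun ⟨e⟩ => ⟨e.symm⟩, fun ⟨e⟩ ⟨e'⟩ => ⟨e.trans e'⟩⟩⟩

theorem tangentFinite_iff :
    GaloisRep.TangentFinite 𝒪 ρbar 𝒟 ↔ Finite (Quotient (tanSetoid ρbar 𝒟)) := Iff.rfl

variable {ρbar 𝒟} {F : Frame 𝒪 ρbar}

/-- The deformation to the dual numbers attached to a map `P ⧸ I → k[ε]`, `I` admissible. -/
theorem exists_tan_of_algHom [Finite (ResidueField 𝒪)]
    (h𝒟 : GaloisRep.IsDeformationCondition 𝒪 𝒟) {I : Ideal (MvPolynomial Idx 𝒪)}
    (hI : I ∈ adm F 𝒟) :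
    letI := dualAlg 𝒪
    ∀ φ : (MvPolynomial Idx 𝒪 ⧸ I) →ₐ[𝒪] DualNumber (ResidueField 𝒪),
      ∃ (hN : F.IsNormLift (DualNumber (ResidueField 𝒪)) (fun σ => (matOf (taut I) σ).map φ))
        (T : TanSub ρbar 𝒟), T.1 = ofMat _ hN.isMatRep := by
  letI := dualAlg 𝒪
  letI := dualResAlg 𝒪
  intro φ
  haveI := adm_isLocalRing hI
  have hA := adm_testAlgebra hI
  have hE := dual_testAlgebra 𝒪
  have hφ := isLocalHom_algHom hE.residue_surjective φ
  have hN := (adm_isNormLift hI).map φ hφ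
  have hMI := (adm_isNormLift hI).isMatRep
  have hD := D_map h𝒟 hA hE φ hφ hMI hN.isMatRep (adm_D hI hMI)
  have hres := F.residual_isEquiv (DualNumber (ResidueField 𝒪)) (fun x => rfl) hN.isMatRep hN.lifts
  exact ⟨hN, ⟨ofMat _ hN.isMatRep, hD, hres⟩, rfl⟩

/-- The tangent bound: a uniform bound for the number of maps `P ⧸ I → k[ε]`. -/
theorem exists_tangent_bound [Finite (ResidueField 𝒪)]
    (h𝒟 : GaloisRep.IsDeformationCondition 𝒪 𝒟) (hfin : GaloisRep.TangentFinite 𝒪 ρbar 𝒟)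
    (F : Frame 𝒪 ρbar) :
    letI := dualAlg 𝒪
    ∃ t : ℕ, ∀ I ∈ adm F 𝒟,
      Nat.card ((MvPolynomial Idx 𝒪 ⧸ I) →ₐ[𝒪] DualNumber (ResidueField 𝒪)) ≤ t := by
  letI := dualAlg 𝒪
  letI := dualResAlg 𝒪
  haveI : Finite (Quotient (tanSetoid ρbar 𝒟)) := (tangentFinite_iff ρbar 𝒟).mp hfin
  refine ⟨Nat.card (Quotient (tanSetoid ρbar 𝒟)), fun I hI => ?_⟩
  haveI := adm_isLocalRing hI
  have hE := dual_testAlgebra 𝒪
  haveI := hE.isLocalHom
  choose hN T hT using exists_tan_of_algHom h𝒟 hI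
  refine Nat.card_le_card_of_injective (fun φ => Quotient.mk (tanSetoid ρbar 𝒟) (T φ)) ?_
  intro φ φ' hφφ'
  have h1 : (T φ).1.IsEquiv (T φ').1 := Quotient.exact hφφ'
  rw [hT φ, hT φ'] at h1
  obtain ⟨Q, hQ, hQM⟩ := exists_conj_of_isEquiv _ _ h1
  have h2 := F.normLift_unique (DualNumber (ResidueField 𝒪)) (hN φ) (hN φ') Q hQ hQM
  apply Ideal.Quotient.algHom_ext
  apply MvPolynomial.algHom_ext
  rintro ⟨σ, i, j⟩
  have h3 := congrFun (congrFun (congrFun h2 σ) i) j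
  simpa [taut] using h3

end

end Fermat.Agent.S53
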