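import Mathlib

/-!
# S53: tower lemma (Mittag-Leffler in an adically complete ring)
-/

set_option autoImplicit false

namespace Fermat.Agent.S53

/-- If `K n` is a decreasing sequence of `I`-open ideals in an `I`-adically complete ring with
`K n ≤ K (n+1) ⊔ I ^ n`, then `K n = (⨅ m, K m) ⊔ I ^ n`. -/
theorem tower_eq_iInf_sup_pow {S : Type*} [CommRing S] (I : Ideal S) [IsAdicComplete I S]
    (K : ℕ → Ideal S) (hanti : ∀ n, K (n + 1) ≤ K n) (hpow : ∀ n, I ^ n ≤ K n)
    (hstep : ∀ n, K n ≤ K (n + 1) ⊔ I ^ n) (n : ℕ) : K n = (⨅ m, K m) ⊔ I ^ n := by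
  have hanti' : ∀ a b : ℕ, K (a + b) ≤ K a := by
    intro a b
    induction b with
    | zero => exact le_rfl
    | succ b ih => exact (hanti (a + b)).trans ih
  apply le_antisymm _ (sup_le (iInf_le K n) (hpow n))
  intro x hx
  -- the recursive choice
  have hstep' : ∀ (j : ℕ) (u : {u : S // u ∈ K (n + j)}),
      ∃ v : {v : S // v ∈ K (n + (j + 1))}, u.1 - v.1 ∈ I ^ (n + j) := by
    intro j u
    have h1 := hstep (n + j) u.2
    rw [Submodule.mem_sup] at h1
    obtain ⟨v, hv, w, hw, hvw⟩ := h1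
    refine ⟨⟨v, hv⟩, ?_⟩
    have h2 : u.1 - v = w := by rw [← hvw]; ring
    rw [h2]
    exact hw
  choose f hf using hstep'
  let seq : ∀ j : ℕ, {u : S // u ∈ K (n + j)} :=
    fun j => Nat.rec (motive := fun j => {u : S // u ∈ K (n + j)}) ⟨x, hx⟩ (fun j u => f j u) j
  obtain ⟨xs, hxs0, hxsmem, hxss⟩ : ∃ xs : ℕ → S, xs 0 = x ∧ (∀ j, xs j ∈ K (n + j)) ∧
      ∀ j, xs j - xs (j + 1) ∈ I ^ (n + j) :=
    ⟨fun j => (seq j).1, rfl, fun j => (seq j).2, fun j => hf j (seq j)⟩
  clear_value seq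
  -- telescoping
  have htel : ∀ j d : ℕ, xs j - xs (j + d) ∈ I ^ (n + j) := by
    intro j d
    induction d with
    | zero => simp
    | succ d ih =>
      have h1 : xs j - xs (j + (d + 1)) =
          (xs j - xs (j + d)) + (xs (j + d) - xs (j + d + 1)) := by
        rw [← add_assoc]; ring
      rw [h1]
      exact Ideal.add_mem _ ih (Ideal.pow_le_pow_right (by omega) (hxss (j + d)))
  -- the limit
  have hcauchy : ∀ {a b : ℕ}, a ≤ b →
      (x - xs a) ≡ (x - xs b) [SMOD (I ^ a • ⊤ : Submodule S S)] := by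
    intro a b hab
    obtain ⟨d, rfl⟩ := Nat.exists_eq_add_of_le hab
    rw [SModEq.sub_mem, smul_eq_mul, Ideal.mul_top]
    have h1 : x - xs a - (x - xs (a + d)) = -(xs a - xs (a + d)) := by ring
    rw [h1]
    exact Ideal.neg_mem_iff _ |>.mpr (Ideal.pow_le_pow_right (by omega) (htel a d))
  obtain ⟨Y, hY⟩ := IsPrecomplete.prec' (I := I) (fun j => x - xs j) hcauchy
  have hY' : ∀ j, x - xs j - Y ∈ I ^ j := by
    intro j
    have h1 := hY j
    rw [SModEq.sub_mem, smul_eq_mul, Ideal.mul_top] at h1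
    exact h1
  have hYn : Y ∈ I ^ n := by
    have h1 : Y = (x - xs n) - (x - xs n - Y) := by ring
    rw [h1]
    refine Ideal.sub_mem _ ?_ (hY' n)
    have h2 := htel 0 n
    rw [zero_add, add_zero, hxs0] at h2
    exact h2
  have hxY : x - Y ∈ ⨅ m, K m := by
    rw [Ideal.mem_iInf]
    intro m
    have h1 : x - Y = xs m + (x - xs m - Y) := by ring
    rw [h1]
    refine Ideal.add_mem _ ?_ (hpow m (hY' m))
    have h2 : K (n + m) ≤ K m := by
      rw [add_comm]
      exact hanti' m n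
    exact h2 (hxsmem m)
  have h3 : x = (x - Y) + Y := by ring
  rw [h3]
  exact Submodule.add_mem_sup hxY hYn

end Fermat.Agent.S53
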